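import Fermat.Agent.DS.Phi.Places
import Fermat.Agent.JTors.TRep
import Fermat.Agent.DS.Geom.Facts

/-!
The level `±Γ₁(M)`: its field of functions, and the ramification over `j (M τ)`.
-/

set_option autoImplicit false

noncomputable section

open ModularCurve AlgebraicCurve CongruenceSubgroup
open UpperHalfPlane hiding I
open scoped MatrixGroups Manifold

namespace FLTAgent.DS.Phi

open ModPoly

local notation "Qbar" => AlgebraicClosure ℚ

variable (M : ℕ) [NeZero M]

/-- `±Γ₁(M)`. -/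
def pmGamma1 : Subgroup SL(2, ℤ) where
  carrier := {γ | γ ∈ Gamma1 M ∨ -γ ∈ Gamma1 M}
  one_mem' := Or.inl (one_mem _)
  mul_mem' := by
    rintro a b (ha | ha) (hb | hb)
    · exact Or.inl (mul_mem ha hb)
    · exact Or.inr (by simpa using mul_mem ha hb)
    · exact Or.inr (by simpa using mul_mem ha hb)
    · exact Or.inl (by simpa using mul_mem ha hb)
  inv_mem' := by
    rintro a (ha | ha)
    · exact Or.inl (inv_mem ha)
    · refine Or.inr ?_
      have h : (-a)⁻¹ = -a⁻¹ := by
        apply inv_eq_of_mul_eq_one_right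
        simp
      rw [← h]
      exact inv_mem ha

omit [NeZero M] in
theorem Gamma_le_Gamma1 : CongruenceSubgroup.Gamma M ≤ Gamma1 M := by
  intro γ hγ
  rw [Gamma_mem] at hγ
  exact (Gamma1_mem M γ).2 ⟨hγ.1, hγ.2.2.2, hγ.2.2.1⟩

omit [NeZero M] in
theorem Gamma1_le_pmGamma1 : Gamma1 M ≤ pmGamma1 M := fun _ h => Or.inl h

/-- The level `±Γ₁(M)`. -/
def lvlOne : Lvl where
  Gam := pmGamma1 M
  N := M
  neZero := inferInstance
  gamma_le := (Gamma_le_Gamma1 M).trans (Gamma1_le_pmGamma1 M)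
  T_mem := Or.inl ((Gamma1_mem M _).2 (by simp [ModularGroup.coe_T]))
  neg_one_mem := Or.inr (by simp)

variable {M}

theorem mem_funRing_lvlOne {g : ℍ → ℂ} :
    g ∈ funRing (lvlOne M) ↔ g ∈ modFunRingOne M := by
  constructor
  · rintro ⟨h1, h2, h3⟩
    exact ⟨h1, fun γ hγ τ => h2 γ (Or.inl hγ) τ, h3⟩
  · rintro ⟨h1, h2, h3⟩
    refine ⟨h1, fun γ hγ τ => ?_, h3⟩
    rcases hγ with hγ | hγ
    · exact h2 γ hγ τ
    · have := h2 _ hγ τ
      rwa [ModularGroup.SL_neg_smul] at this

omit [NeZero M] in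
theorem pmGamma1_le_Gamma0 : pmGamma1 M ≤ Gamma0 M := by
  rintro γ (hγ | hγ)
  · exact Gamma0_mem.2 ((Gamma1_mem M γ).1 hγ).2.2
  · have := ((Gamma1_mem M (-γ)).1 hγ).2.2
    simp only [Matrix.SpecialLinearGroup.coe_neg, Matrix.neg_apply, Int.cast_neg,
      neg_eq_zero] at this
    exact Gamma0_mem.2 this

variable (M) in
/-- `j (M τ)` in the ring of level `±Γ₁(M)`. -/
def jMulL : funRing (lvlOne M) :=
  ⟨jMul M, (jMul_mem (N := M) dvd_rfl).1,
    fun γ hγ τ => (jMul_mem (N := M) dvd_rfl).2.1 γ (pmGamma1_le_Gamma0 hγ) τ,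
    (jMul_mem (N := M) dvd_rfl).2.2⟩

variable (M) in
theorem qL_jMulL : qL (lvlOne M) (jMulL M) = qExpand ℂ M (jqModC ℂ) :=
  qL_eq_of_expands expands_jMul

theorem coe_tRep_none_smul' (τ : ℍ) :
    ((Periods.tRep M none • τ : ℍ) : ℂ) = (M : ℂ) * τ :=
  JTors.coe_tRep_none_smul (NeZero.ne M) τ

theorem jMul_eq (τ : ℍ) : jMul M τ = jFun (Periods.tRep M none • τ) := by
  rw [jMul, ← coe_tRep_none_smul', ofComplex_apply]

/-- The order at a point of a composite with a fractional linear map. -/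
theorem order_diskSeries_comp_smul {g : ℍ → ℂ} (hg : MDiff g) (hg0 : g ≠ 0)
    {b : GL (Fin 2) ℝ} (hb : 0 < b.det.val) (z₀ : ℍ) :
    (Genus.diskSeries z₀ fun τ => g (b • τ)).order = (Genus.diskSeries (b • z₀) g).order := by
  have hb' : 0 < b.val.det := by rwa [← Matrix.GeneralLinearGroup.val_det_apply]
  have hmd : MDiff fun τ => g (b • τ) := hg.comp (UpperHalfPlane.mdifferentiable_smul hb)
  have hne : (fun τ => g (b • τ)) ≠ 0 := fun h => hg0 (funext fun τ => by
    simpa using congrFun h (b⁻¹ • τ))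
  rw [JTors.order_diskSeries_eq z₀ hmd hne, JTors.order_diskSeries_eq _ hg hg0]
  congr 1
  have hsd := hasStrictDerivAt_smul hb' z₀
  have han : AnalyticAt ℂ (fun z => ((b • ofComplex z : ℍ) : ℂ)) (z₀ : ℂ) := by
    have h1 : DifferentiableOn ℂ (fun z => ((b • ofComplex z : ℍ) : ℂ)) {z | 0 < z.im} :=
      fun z hz => by
        have := (hasStrictDerivAt_smul hb' ⟨z, hz⟩).hasDerivAt.differentiableAt
        exact this.differentiableWithinAt
    exact h1.analyticOnNhd isOpen_upperHalfPlaneSet _ z₀.im_pos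
  have h := analyticOrderAt_comp_of_deriv_ne_zero (f := g ∘ ofComplex) han
    (deriv_smul_ne_zero hb' z₀)
  simp only [analyticOrderNatAt]
  congr 1
  rw [ofComplex_apply] at h
  rw [← h]
  congr 1
  funext z
  simp only [Function.comp_apply, ofComplex_apply]

theorem order_jMul_cusp (δ : SL(2, ℤ)) :
    ∃ x : LaurentSeries ℂ, Expands M (fun τ => jMul M (δ • τ)) x ∧ x ≠ 0 ∧ x.order < 0 := by
  obtain ⟨r, hr, -, hr2⟩ := exists_jConj_comp_smul (top_mem_hermiteSet M) δ
  simp only [jConj_top] at hr2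
  have ha := fst_pos_of_mem hr
  haveI : NeZero (r.1 * r.1) := ⟨(Nat.mul_pos ha ha).ne'⟩
  have hc : (jqConj ℂ (zetaC M) r).coeff (((r.1 * r.1 : ℕ) : ℤ) * (-1)) ≠ 0 := by
    rw [jqConj_eq, qExpand_coeff_mul, twist_coeff]
    refine mul_ne_zero ?_ ?_
    · exact Units.ne_zero _
    · have := coeff_jqModC_pow_self ℂ 1
      simp only [pow_one, Nat.cast_one] at this
      rw [this]
      exact one_ne_zero
  refine ⟨jqConj ℂ (zetaC M) r, ?_, HahnSeries.ne_zero_of_coeff_ne_zero hc, ?_⟩
  · have := expands_jConj hr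
    simpa only [hr2] using this
  · refine lt_of_le_of_lt (HahnSeries.order_le_of_coeff_ne_zero hc) ?_
    have : 0 < r.1 * r.1 := Nat.mul_pos ha ha
    omega

variable {hM : IsModel (lvlOne M) (fieldOne M)}

theorem toC_of_coe_eq (J : K1 M) (hJ : (J : LaurentSeries Qbar) = castSer Qbar (jSer M)) :
    toC iotaOne J = qL (lvlOne M) (jMulL M) := by
  rw [toC_apply, hJ, qL_jMulL, coeffMap_coeffMap, jSer, Genus.coeffMap_qExpand]
  congr 1
  exact (coeffMap_congr (RingHom.ext_int _ (Int.castRingHom ℂ)) _).trans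
    (map_jqModC (Int.castRingHom ℂ))

/-- `J = j (M τ)` is unramified outside `0`, `1728` and the cusps. -/
theorem ord_sub_eq_one (hM : IsModel (lvlOne M) (fieldOne M)) (J : K1 M)
    (hJ : (J : LaurentSeries Qbar) = castSer Qbar (jSer M)) (a : Qbar) (h0 : a ≠ 0)
    (h1 : a ≠ 1728) (v : Place Qbar (K1 M)) (hv : 0 < v.ord (J - algebraMap Qbar (K1 M) a)) :
    v.ord (J - algebraMap Qbar (K1 M) a) = 1 := by
  set g : funRing (lvlOne M) := jMulL M - algebraMap ℂ _ (iotaOne a) with hg
  have htoC : toC iotaOne (J - algebraMap Qbar (K1 M) a) = qL (lvlOne M) g := by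
    rw [map_sub, hg, map_sub, AlgHom.commutes, toC_algebraMap, toC_of_coe_eq J hJ]
  have hgfun : ∀ τ, (g : ℍ → ℂ) τ = jMul M τ - iotaOne a := fun τ => rfl
  rcases hM.exists_point_or_cusp iotaOne v with ⟨b, z, q, k, -, -, hk⟩ | ⟨q, k, -, hk⟩
  · have e := hk.2 (J - algebraMap Qbar (K1 M) a)
    rw [expEmb_eq hM iotaOne _ _ htoC, pointHom_apply] at e
    set β : GL (Fin 2) ℝ := Periods.tRep M none * ((q.out⁻¹ : SL(2, ℤ)) : GL (Fin 2) ℝ)
    have hβ : 0 < β.det.val := by
      simp only [β, map_mul, Units.val_mul]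
      refine mul_pos (Periods.tRep_det_pos M none) ?_
      simp
    have hfun : cosetFun q (g : ℍ → ℂ) = fun τ => (fun w => jFun w - iotaOne a) (β • τ) := by
      funext τ
      simp only [cosetFun, hgfun, jMul_eq, β, mul_smul, ModularGroup.sl_moeb]
    have hne : (fun w => jFun w - iotaOne a) ≠ 0 := fun h => by
      have e1 := congrFun h UpperHalfPlane.I
      have e2 := congrFun h UpperHalfPlane.ρ
      simp only [Pi.zero_apply, sub_eq_zero, Genus.jFun_I, Genus.jFun_rho] at e1 e2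
      exact h0 ((map_eq_zero iotaOne).1 e2.symm)
    rw [hfun, order_diskSeries_comp_smul (Genus.mdiff_jFun_sub _) hne hβ] at e
    have hpos : 0 < k * v.ord (J - algebraMap Qbar (K1 M) a) := mul_pos hk.1 hv
    by_cases hw : jFun (β • z) = iotaOne a
    · have hord := Genus.order_diskSeries_jFun_sub (β • z)
      rw [hw, e, show Genus.jMult (iotaOne a) = 1 by
        unfold Genus.jMult
        rw [if_neg (fun h => h0 ((map_eq_zero iotaOne).mp h)),
          if_neg (fun h => h1 (iotaOne.injective (h.trans (map_ofNat iotaOne 1728).symm)))],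
        Nat.cast_one] at hord
      exact Int.eq_one_of_mul_eq_one_left hv.le hord
    · rw [(Genus.order_diskSeries_eq_zero (β • z) (g := fun w => jFun w - iotaOne a)
        (sub_ne_zero.2 hw)).1] at e
      omega
  · exfalso
    have e := hk.2 (J - algebraMap Qbar (K1 M) a)
    rw [expEmb_eq hM iotaOne _ _ htoC] at e
    obtain ⟨x, hx, hx0, hneg⟩ := order_jMul_cusp (M := M) q.out⁻¹
    have hexp : Expands M (fun τ => (g : ℍ → ℂ) (q.out⁻¹ • τ))
        (x - HahnSeries.C (iotaOne a)) :=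
      hx.sub (Expands.const M (iotaOne a))
    have hcu : cuspHom q g = x - HahnSeries.C (iotaOne a) := qLAt_eq_of_expands hexp
    rw [hcu] at e
    have hle : (x - HahnSeries.C (iotaOne a)).order ≤ x.order := by
      refine HahnSeries.order_le_of_coeff_ne_zero ?_
      rw [HahnSeries.coeff_sub, HahnSeries.C_apply, HahnSeries.coeff_single_of_ne hneg.ne,
        sub_zero]
      exact HahnSeries.coeff_order_eq_zero.not.2 hx0
    have := mul_pos hk.1 hv
    omega

/-- The field is a function field. -/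
theorem isFunctionField_K1 (hM : IsModel (lvlOne M) (fieldOne M)) :
    FunctionField.IsFunctionField Qbar (K1 M) :=
  hM.isFunctionField iotaOne

end FLTAgent.DS.Phi
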