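import Fermat.Agent.DS.Phi.ClassHecke
import Fermat.Agent.DS.Geom.FieldModel

/-!
`CharClassFacts` at level `Γ₁(M)`.
-/

set_option autoImplicit false

noncomputable section

namespace FLTAgent.DS.Phi

variable {M : ℕ} [NeZero M]

/-- The classes attached to parabolic homomorphisms, for a model of the field. -/
theorem charClassFacts_of_model (hM : IsModel (lvlOne M) (fieldOne M)) (hM4 : 4 ≤ M)
    (D : DiamondData M) (ℓ : ℕ) [NeZero ℓ] : CharClassFacts D ℓ where
  exists_class := exists_class_of_model hM hM4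
  mul _ _ _ _ hx hy := isRootHomOne_mul hx hy
  pow_iff := pow_iff_of_model hM
  diamond _ _ hγ hu _ _ _ hx hc := isRootHomOne_dia D hγ hu hx hc
  hecke _ _ hp hpM _ _ _ _ hx hxy hc := isRootHomOne_hecke D hp hpM hx hxy hc

/-- The classes attached to parabolic homomorphisms. -/
theorem charClassFacts (hM : 7 ≤ M) (D : DiamondData M) (ℓ : ℕ) [NeZero ℓ] :
    CharClassFacts D ℓ :=
  charClassFacts_of_model (isModel_fieldOne hM) (le_trans (by norm_num) hM) D ℓ

end FLTAgent.DS.Phi
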