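import Fermat.Agent.DS.Phi.Places
import Fermat.Agent.Eisen.OrderSeries
import Fermat.Agent.JTors.RootPar

/-!
Expansions of functions with character and bounds on their orders.
-/

set_option autoImplicit false

noncomputable section

open ModularCurve Polynomial Filter
open UpperHalfPlane hiding I
open scoped MatrixGroups Manifold

namespace FLTAgent.DS.Phi

open ModPoly

variable {L : Lvl}

/-! ### Expansions at `∞` -/

theorem charFun_mem_expRing {χ : L.Gam →* ℂˣ} (hχ : TrivialAtInf χ) {m : ℕ} {h : ℍ → ℂ}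
    (hh : h ∈ CharFun χ m) : h ∈ expRing 1 := by
  have hT : χ ⟨ModularGroup.T, L.T_mem⟩ = 1 := hχ _ (by simp [ModularGroup.coe_T])
  have hper : ∀ z : ℍ, h ((1 : SL(2, ℤ)) • (((1 : ℕ) : ℝ) +ᵥ z)) = h ((1 : SL(2, ℤ)) • z) :=
    fun z => by
    rw [one_smul, one_smul, ← smul_T_pow_eq_vadd, Nat.cast_one, zpow_one,
      hh.2.1 ⟨_, L.T_mem⟩ z, hT, Units.val_one, one_mul]
  simpa only [one_smul] using mem_expRing_comp_smul hh (w := 1) hper

/-- The expansion at `∞`. -/
def charExp {χ : L.Gam →* ℂˣ} (hχ : TrivialAtInf χ) (m : ℕ) :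
    CharFun χ m →ₗ[ℂ] LaurentSeries ℂ where
  toFun h := qLaurentHom 1 ⟨h, charFun_mem_expRing hχ h.2⟩
  map_add' f g := by
    rw [← map_add]; rfl
  map_smul' c f := by
    rw [RingHom.id_apply, qLaurentHom_apply, qLaurentHom_apply]
    exact Expands.expSeries_eq
      ((expands_expSeries (h := 1) ⟨f, charFun_mem_expRing hχ f.2⟩).smul c)

theorem expands_charExp {χ : L.Gam →* ℂˣ} (hχ : TrivialAtInf χ) {m : ℕ} (h : CharFun χ m) :
    Expands 1 (h : ℍ → ℂ) (charExp hχ m h) :=
  expands_expSeries (h := 1) ⟨h, charFun_mem_expRing hχ h.2⟩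

theorem charExp_injective {χ : L.Gam →* ℂˣ} (hχ : TrivialAtInf χ) (m : ℕ) :
    Function.Injective (charExp hχ m) := fun f g hfg =>
  Subtype.ext (eq_of_expands f.2.1 g.2.1 (expands_charExp hχ f) (hfg ▸ expands_charExp hχ g))

/-! ### Boundedness and orders -/

theorem coeff_ofPowerSeries_of_neg (P : PowerSeries ℂ) {k : ℤ} (hk : k < 0) :
    (HahnSeries.ofPowerSeries ℤ ℂ P).coeff k = 0 := by
  rw [HahnSeries.ofPowerSeries_apply, HahnSeries.embDomain_notin_range]
  rintro ⟨i, hi⟩
  simp at hi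
  omega

theorem order_discSeries : JTors.discSeries.order = 1 := by
  have hc0 : ∀ P : PowerSeries ℂ, (HahnSeries.single (1 : ℤ) (1 : ℂ) *
      HahnSeries.ofPowerSeries ℤ ℂ P).coeff 1 = PowerSeries.constantCoeff P := fun P => by
    rw [HahnSeries.coeff_single_mul, one_mul, sub_self,
      show (0 : ℤ) = ((0 : ℕ) : ℤ) from rfl, HahnSeries.ofPowerSeries_apply_coeff,
      PowerSeries.coeff_zero_eq_constantCoeff]
  refine Eisen.order_eq_of_coeff ?_ fun k hk => ?_
  · rw [JTors.discSeries, hc0]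
    intro h0
    have h1 := congrArg (fun P => PowerSeries.constantCoeff (PowerSeries.map (Int.castRingHom ℂ) P))
      ModularCurve.dedekindEtaUnit_mul_inv
    simp only [map_mul, map_one] at h1
    rw [show PowerSeries.constantCoeff
        (PowerSeries.map (Int.castRingHom ℂ) ModularCurve.dedekindEtaUnit) = 0 from h0,
      zero_mul] at h1
    exact zero_ne_one h1
  · rw [JTors.discSeries, HahnSeries.coeff_single_mul, one_mul]
    exact coeff_ofPowerSeries_of_neg _ (by omega)

theorem expands_discriminant_width (N : ℕ) [NeZero N] :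
    Expands N ModularForm.discriminant (qExpand ℂ N JTors.discSeries) := by
  have := expands_discriminant.width_mul (k := N)
  rwa [one_mul] at this

theorem order_discriminant_width (N : ℕ) [NeZero N] :
    (qExpand ℂ N JTors.discSeries).order = N := by
  rw [Eisen.order_qExpand' N JTors.discSeries_ne_zero, order_discSeries, mul_one]

/-- The orders at the cusps of an element of `CharFun 1 m`. -/
theorem le_order_qLAt {g : funRing L} {m : ℕ}
    (hg : (g : ℍ → ℂ) ∈ CharFun (1 : L.Gam →* ℂˣ) m) (hg0 : g ≠ 0) (δ : SL(2, ℤ)) :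
    -((m * L.N : ℕ) : ℤ) ≤ (qLAt L δ g).order := by
  set F : ℍ → ℂ := fun z => (g : ℍ → ℂ) (δ • z) * ModularForm.discriminant z ^ m
  set D := qExpand ℂ L.N JTors.discSeries
  have hΔ : ∀ z : ℍ,
      ModularForm.discriminant ((L.N : ℝ) +ᵥ z) = ModularForm.discriminant z := fun z => by
    rw [← smul_T_pow_eq_vadd, JTors.discriminant_smul,
      ModularGroup.denom_apply, ModularGroup.coe_T_zpow]
    simp
  have hper : ∀ z : ℍ, F ((L.N : ℝ) +ᵥ z) = F z := fun z => by
    simp only [F, vadd_level g.2.2.1 δ z, hΔ]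
  have h1 := expands_qExpansion (h := L.N) (periodic_of_vadd hper)
    ((ModPoly.mdifferentiable_comp_smul g.2.1 δ).mul
      (JTors.mdifferentiable_discriminant.pow m)) (hg.2.2 δ)
  have h2 : Expands L.N F (qLAt L δ g * D ^ m) :=
    ((expands_qLAt δ g).mul ((expands_discriminant_width L.N).pow m)).congr_fun'
      (Eventually.of_forall fun z => rfl)
  have hX0 : qLAt L δ g ≠ 0 := (map_ne_zero_iff _ (qLAt_injective δ)).2 hg0
  have hD0 : D ≠ 0 := (map_ne_zero_iff _ (RingHom.injective _)).2 JTors.discSeries_ne_zero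
  have h3 : 0 ≤ (qLAt L δ g * D ^ m).order := by
    rw [h2.unique h1]
    exact Genus.order_ofPowerSeries_nonneg _
  rw [HahnSeries.order_mul hX0 (pow_ne_zero _ hD0), HahnSeries.order_pow,
    order_discriminant_width, nsmul_eq_mul] at h3
  push_cast
  linarith

/-- Conversely, the bound on the orders gives boundedness. -/
theorem isBoundedAtImInfty_mul_disc {g : funRing L} {m : ℕ} {δ : SL(2, ℤ)}
    (h : -((m * L.N : ℕ) : ℤ) ≤ (qLAt L δ g).order) :
    IsBoundedAtImInfty fun z => (g : ℍ → ℂ) (δ • z) * ModularForm.discriminant z ^ m := by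
  set D := qExpand ℂ L.N JTors.discSeries
  have h2 : Expands L.N (fun z => (g : ℍ → ℂ) (δ • z) * ModularForm.discriminant z ^ m)
      (qLAt L δ g * D ^ m) :=
    ((expands_qLAt δ g).mul ((expands_discriminant_width L.N).pow m)).congr_fun'
      (Eventually.of_forall fun z => rfl)
  refine h2.isBoundedAtImInfty fun k hk => ?_
  by_cases h0 : qLAt L δ g = 0
  · simp [h0]
  have hD0 : D ≠ 0 := (map_ne_zero_iff _ (RingHom.injective _)).2 JTors.discSeries_ne_zero
  refine HahnSeries.coeff_eq_zero_of_lt_order (lt_of_lt_of_le hk ?_)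
  rw [HahnSeries.order_mul h0 (pow_ne_zero _ hD0), HahnSeries.order_pow, order_discriminant_width,
    nsmul_eq_mul]
  push_cast at h
  linarith

theorem isBoundedAtImInfty_of_pow {f : ℍ → ℂ} {n : ℕ} (hn : n ≠ 0)
    (h : IsBoundedAtImInfty fun z => f z ^ n) : IsBoundedAtImInfty f := by
  obtain ⟨C, A, hA⟩ := UpperHalfPlane.isBoundedAtImInfty_iff.1 h
  refine UpperHalfPlane.isBoundedAtImInfty_iff.2 ⟨max C 1, A, fun z hz => ?_⟩
  by_contra! hlt
  have h1 : ‖f z‖ ^ n ≤ max C 1 := by
    rw [← norm_pow]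
    exact (hA z hz).trans (le_max_left _ _)
  exact absurd h1 (not_le.2 (lt_of_lt_of_le hlt (le_self_pow₀ ((le_max_right C 1).trans hlt.le) hn)))

/-! ### The bound at `∞` -/

theorem order_aeval_jqModC_nonpos {P : ℂ[X]} (hP : P ≠ 0) :
    (aeval (jqModC ℂ) P).order ≤ 0 := by
  refine le_trans (HahnSeries.order_le_of_coeff_ne_zero (g := -(P.natDegree : ℤ)) ?_) (by omega)
  rw [aeval_eq_sum_range, HahnSeries.coeff_sum, Finset.sum_range_succ,
    Finset.sum_eq_zero (fun i hi => ?_), zero_add, Algebra.smul_def,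
    algebraMap_laurentSeries_eq_single, HahnSeries.coeff_single_zero_mul,
    coeff_jqModC_pow_self, mul_one]
  · exact mt leadingCoeff_eq_zero.mp hP
  · rw [Algebra.smul_def, algebraMap_laurentSeries_eq_single,
      HahnSeries.coeff_single_zero_mul, coeff_jqModC_pow_of_lt ℂ
        (by have := Finset.mem_range.mp hi; omega), mul_zero]

theorem qLAt_one (g : funRing L) : qLAt L 1 g = qExpand ℂ L.N (qL L g) := by
  refine qLAt_eq_of_expands ?_
  have := (expands_qL g).width_mul (k := L.N)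
  rw [one_mul] at this
  simpa only [one_smul] using this

/-- A nonzero element of `CharFun 1 m` has order at most `[SL(2, ℤ) : Γ] m` at `∞`. -/
theorem order_qL_le {g : funRing L} {m : ℕ}
    (hg : (g : ℍ → ℂ) ∈ CharFun (1 : L.Gam →* ℂˣ) m) (hg0 : g ≠ 0) :
    (qL L g).order ≤ ((Fintype.card (Cst L) * m : ℕ) : ℤ) := by
  classical
  obtain ⟨P, hP⟩ : ∃ P : ℂ[X], (∏ q : Cst L, cosetFun q (g : ℍ → ℂ)) = evalJFun P := by
    refine exists_polynomial_of_holExpL (L := L)
      (prod_mem fun q _ => cosetFun_mem_holExpL q g) fun γ τ => ?_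
    simp only [Finset.prod_apply]
    refine Fintype.prod_equiv (MulAction.toPerm γ⁻¹) _ _ fun q => ?_
    rw [MulAction.toPerm_apply, cosetFun_inv_smul g.2]
  have hcne : ∀ q : Cst L, cosetFun q (g : ℍ → ℂ) ≠ 0 := fun q e => coe_ne_zero hg0
    (funext fun τ => by simpa [cosetFun] using congrFun e (q.out • τ))
  have hP0 : P ≠ 0 := by
    rintro rfl
    obtain ⟨q, -, hq⟩ := (UpperHalfPlane.prod_eq_zero_iff
      (fun q _ => mdiff_cosetFun g.2.1 q)).1 (hP.trans (funext fun τ => by simp [evalJFun]))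
    exact hcne q hq
  have hexp : Expands L.N (∏ q : Cst L, cosetFun q (g : ℍ → ℂ))
      (∏ q : Cst L, qLAt L q.out⁻¹ g) := by
    induction (Finset.univ : Finset (Cst L)) using Finset.induction_on with
    | empty => simpa using Expands.one L.N
    | insert a s ha ih =>
      rw [Finset.prod_insert ha, Finset.prod_insert ha]
      exact (expands_qLAt a.out⁻¹ g).mul ih
  have hexp2 : Expands L.N (evalJFun P) (qExpand ℂ L.N (aeval (jqModC ℂ) P)) := by
    have := (expands_evalJFun P).width_mul (k := L.N)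
    rwa [one_mul] at this
  have hprod := (hP ▸ hexp).unique hexp2
  have hne : ∀ q : Cst L, qLAt L q.out⁻¹ g ≠ 0 := fun q =>
    (map_ne_zero_iff _ (qLAt_injective _)).2 hg0
  have haev : aeval (jqModC ℂ) P ≠ 0 := (map_ne_zero_iff _ (aeval_jqModC_injective ℂ)).2 hP0
  have hsum : ∑ q : Cst L, (qLAt L q.out⁻¹ g).order ≤ 0 := by
    rw [← Eisen.order_prod _ _ fun q _ => hne q, hprod, Eisen.order_qExpand' L.N haev]
    exact mul_nonpos_of_nonneg_of_nonpos (Int.natCast_nonneg _) (order_aeval_jqModC_nonpos hP0)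
  set q₁ : Cst L := QuotientGroup.mk 1
  have h1 : qLAt L q₁.out⁻¹ g = qExpand ℂ L.N (qL L g) := by
    rw [← qLAt_one]
    refine qLAt_eq_of_expands ?_
    have e : (fun τ => (g : ℍ → ℂ) (q₁.out⁻¹ • τ)) = fun τ => (g : ℍ → ℂ) ((1 : SL(2, ℤ)) • τ) := by
      show cosetFun q₁ (g : ℍ → ℂ) = _
      rw [cosetFun_one g.2]
      simp
    rw [e]
    exact expands_qLAt 1 g
  rw [← Finset.add_sum_erase _ _ (Finset.mem_univ q₁), h1,
    Eisen.order_qExpand' L.N ((map_ne_zero_iff _ qL_injective).2 hg0)] at hsum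
  have hrest : -((Fintype.card (Cst L) : ℤ) * ((m : ℤ) * L.N)) ≤
      ∑ q ∈ Finset.univ.erase q₁, (qLAt L q.out⁻¹ g).order := by
    refine le_trans ?_ (Finset.card_nsmul_le_sum _ _ (-((m * L.N : ℕ) : ℤ))
      fun q _ => le_order_qLAt hg hg0 _)
    have hc : (Finset.univ.erase q₁).card ≤ Fintype.card (Cst L) := Finset.card_erase_le
    rw [nsmul_eq_mul]
    push_cast
    have : (0 : ℤ) ≤ (m : ℤ) * L.N := by positivity
    have : ((Finset.univ.erase q₁).card : ℤ) ≤ Fintype.card (Cst L) := by exact_mod_cast hc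
    nlinarith
  have hN : (0 : ℤ) < L.N := by exact_mod_cast NeZero.pos L.N
  push_cast
  nlinarith

end FLTAgent.DS.Phi
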