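import Mathlib.NumberTheory.ModularForms.EisensteinSeries.UniformConvergence
import Mathlib.NumberTheory.ModularForms.EisensteinSeries.MDifferentiable
import Mathlib.Analysis.Complex.UpperHalfPlane.FunctionsBoundedAtInfty
import Fermat.Agent.JTors.TwistEis

/-!
Sums `∑ w(c, d) (cz + d)⁻⁴` with bounded weights on integer rows.
-/

set_option autoImplicit false

noncomputable section

open UpperHalfPlane Matrix Filter Topology EisensteinSeries
open scoped MatrixGroups Manifold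

namespace FLTAgent.DS.Phi

open JTors (rowEquiv)

/-- The weighted sum. -/
def rowSum (w : (Fin 2 → ℤ) → ℂ) (z : ℍ) : ℂ := ∑' v, w v * eisSummand 4 v z

variable {w : (Fin 2 → ℤ) → ℂ}

theorem norm_rowTerm_le (hw : ∀ v, ‖w v‖ ≤ 1) (v : Fin 2 → ℤ) (z : ℍ) :
    ‖w v * eisSummand 4 v z‖ ≤ ‖eisSummand 4 v z‖ := by
  rw [norm_mul]
  exact mul_le_of_le_one_left (norm_nonneg _) (hw v)

/-- Moving the argument moves the weights. -/
theorem rowSum_smul (w : (Fin 2 → ℤ) → ℂ) (γ : SL(2, ℤ)) (z : ℍ) :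
    rowSum w (γ • z) = denom γ z ^ (4 : ℤ) * rowSum (w ∘ (rowEquiv γ).symm) z := by
  simp only [rowSum, ← tsum_mul_left]
  let e : (Fin 2 → ℤ) ≃ (Fin 2 → ℤ) := rowEquiv γ
  refine Eq.trans ?_ (e.tsum_eq _)
  refine tsum_congr fun v => ?_
  simp only [e, Function.comp_apply, Equiv.symm_apply_apply]
  show _ = _ * (w v * eisSummand 4 (v ᵥ* _) z)
  rw [eisSummand_SL2_apply]
  ring

theorem mdifferentiable_rowSum (hw : ∀ v, ‖w v‖ ≤ 1) : MDiff (rowSum w) := by
  rw [UpperHalfPlane.mdifferentiable_iff]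
  intro a ha
  replace ha : 0 < a.im := ha
  set A := |a.re| + 1
  set B := a.im / 2
  have hB : 0 < B := by positivity
  set U : Set ℂ := {z | |z.re| < A ∧ B < z.im}
  have hUo : IsOpen U :=
    (isOpen_lt (continuous_abs.comp Complex.continuous_re) continuous_const).inter
      (isOpen_lt continuous_const Complex.continuous_im)
  have haU : a ∈ U := ⟨by simp [A], by simp only [B]; linarith⟩
  set u : (Fin 2 → ℤ) → ℝ := fun v => r ⟨⟨A, B⟩, hB⟩ ^ (-(4 : ℝ)) * ‖v‖ ^ (-(4 : ℝ))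
  have hu : Summable u := (summable_one_div_norm_rpow (by norm_num)).mul_left _
  have hd := Complex.differentiableOn_tsum_of_summable_norm (U := U) hu
    (F := fun v z => w v * (eisSummand 4 v ∘ ofComplex) z)
    (fun v => (((eisSummand_extension_differentiableOn 4 v).mono
      (fun z hz => hB.trans hz.2)).const_mul _)) hUo
    (fun v z hz => by
      have hz0 : 0 < z.im := hB.trans hz.2
      simp only [Function.comp_apply, ofComplex_apply_of_im_pos hz0]
      refine (norm_rowTerm_le hw v _).trans ?_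
      have := summand_bound_of_mem_verticalStrip (z := ⟨z, hz0⟩) (by norm_num : (0 : ℝ) ≤ 4) v hB
        (show (⟨z, hz0⟩ : ℍ) ∈ verticalStrip A B from ⟨hz.1.le, hz.2.le⟩)
      simpa [eisSummand, ← Real.rpow_intCast, u] using this)
  refine ((hd.differentiableAt (hUo.mem_nhds haU)).congr_of_eventuallyEq ?_).differentiableWithinAt
  exact Eventually.of_forall fun z => rfl

theorem norm_rowSum_le (hw : ∀ v, ‖w v‖ ≤ 1) {A B : ℝ} (hB : 0 < B) {z : ℍ}
    (hz : z ∈ verticalStrip A B) :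
    ‖rowSum w z‖ ≤ ∑' v : Fin 2 → ℤ, r ⟨⟨A, B⟩, hB⟩ ^ (-(4 : ℝ)) * ‖v‖ ^ (-(4 : ℝ)) := by
  have hsum := summable_norm_eisSummand (k := 4) (by norm_num) z
  have hsum' : Summable fun v => ‖w v * eisSummand 4 v z‖ :=
    hsum.of_nonneg_of_le (fun _ => norm_nonneg _) (fun v => norm_rowTerm_le hw v _)
  refine (norm_tsum_le_tsum_norm hsum').trans ?_
  refine hsum'.tsum_le_tsum (fun v => (norm_rowTerm_le hw v z).trans ?_)
    ((summable_one_div_norm_rpow (by norm_num)).mul_left _)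
  have := summand_bound_of_mem_verticalStrip (by norm_num : (0 : ℝ) ≤ 4) v hB hz
  simpa [eisSummand, ← Real.rpow_intCast] using this

theorem isBoundedAtImInfty_rowSum (hw : ∀ v, ‖w v‖ ≤ 1) : IsBoundedAtImInfty (rowSum w) := by
  rw [UpperHalfPlane.isBoundedAtImInfty_iff]
  refine ⟨∑' v : Fin 2 → ℤ, r ⟨⟨1, 2⟩, two_pos⟩ ^ (-(4 : ℝ)) * ‖v‖ ^ (-(4 : ℝ)), 2, fun z hz => ?_⟩
  obtain ⟨n, hn⟩ := ModularGroup_T_zpow_mem_verticalStrip z (N := 1) one_pos
  set g : SL(2, ℤ) := (ModularGroup.T ^ ((1 : ℕ) * n : ℤ))⁻¹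
  set y : ℍ := ModularGroup.T ^ ((1 : ℕ) * n : ℤ) • z
  have hgy : g • y = z := by simp only [g, y, ← mul_smul, inv_mul_cancel, one_smul]
  have hden : denom g y = 1 := by
    rw [ModularGroup.denom_apply]
    simp only [g, ← zpow_neg, ModularGroup.coe_T_zpow]
    simp
  rw [← hgy, rowSum_smul, hden, one_zpow, one_mul]
  refine norm_rowSum_le (fun v => hw _) two_pos ?_
  have := verticalStrip_anti_right (1 : ℕ) hz hn
  simpa using this

theorem isBoundedAtImInfty_rowSum_smul (hw : ∀ v, ‖w v‖ ≤ 1) (δ : SL(2, ℤ)) :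
    IsBoundedAtImInfty fun z : ℍ => (denom δ z ^ (4 : ℤ))⁻¹ * rowSum w (δ • z) := by
  have e : (fun z : ℍ => (denom δ z ^ (4 : ℤ))⁻¹ * rowSum w (δ • z)) =
      rowSum (w ∘ (rowEquiv δ).symm) := funext fun z => by
    rw [rowSum_smul, ← mul_assoc, inv_mul_cancel₀ (zpow_ne_zero _ (denom_ne_zero _ z)), one_mul]
  rw [e]
  exact isBoundedAtImInfty_rowSum fun v => hw _

/-- The points `i(t+1)`. -/
def zSeq (t : ℕ) : ℍ := ⟨((t + 1 : ℝ) : ℂ) * Complex.I, by simp; positivity⟩

/-- The limit along the imaginary axis only sees the rows `(0, d)`. -/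
theorem tendsto_rowSum (hw : ∀ v, ‖w v‖ ≤ 1) :
    Tendsto (fun t => rowSum w (zSeq t)) atTop
      (𝓝 (∑' v : Fin 2 → ℤ, if v 0 = 0 then w v * ((v 1 : ℂ) ^ (-(4 : ℤ))) else 0)) := by
  refine tendsto_tsum_of_dominated_convergence
    (bound := fun v : Fin 2 → ℤ => r ⟨⟨1, 1⟩, one_pos⟩ ^ (-(4 : ℝ)) * ‖v‖ ^ (-(4 : ℝ)))
    ((summable_one_div_norm_rpow (by norm_num)).mul_left _) (fun v => ?_)
    (Eventually.of_forall fun t v => ?_)
  · by_cases h : v 0 = 0
    · simp [h, eisSummand]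
    · simp only [if_neg h, eisSummand]
      rw [show (0 : ℂ) = w v * 0 by simp]
      refine Tendsto.const_mul _ ?_
      rw [tendsto_zero_iff_norm_tendsto_zero]
      have hc : (0 : ℝ) < |(v 0 : ℝ)| := abs_pos.2 (by exact_mod_cast h)
      have hlim : Tendsto (fun t : ℕ => (|(v 0 : ℝ)| * (t + 1)) ^ (-(4 : ℤ))) atTop (𝓝 0) :=
        (tendsto_zpow_atTop_zero (by norm_num)).comp
          (Tendsto.const_mul_atTop hc (tendsto_natCast_atTop_atTop.atTop_add tendsto_const_nhds))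
      refine squeeze_zero (fun _ => norm_nonneg _) (fun t => ?_) hlim
      rw [norm_zpow, zpow_neg, zpow_neg]
      have hle : |(v 0 : ℝ)| * (t + 1) ≤ ‖(v 0 : ℂ) * (zSeq t : ℂ) + v 1‖ := by
        refine le_trans ?_ (Complex.abs_im_le_norm _)
        simp [zSeq, abs_mul, abs_of_pos (show (0 : ℝ) < t + 1 by positivity)]
      gcongr
      exact zpow_le_zpow_left₀ (by norm_num) (by positivity) hle
  · refine (norm_rowTerm_le hw v _).trans ?_
    have := summand_bound_of_mem_verticalStrip (z := zSeq t) (by norm_num : (0 : ℝ) ≤ 4) v one_pos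
      (show zSeq t ∈ verticalStrip 1 1 by
        simp [mem_verticalStrip_iff, zSeq, UpperHalfPlane.re, UpperHalfPlane.im])
    simpa [eisSummand, ← Real.rpow_intCast] using this

/-- The two rows `(0, ±1)`. -/
theorem tsum_rows (hw : ∀ v : Fin 2 → ℤ, w v ≠ 0 → IsCoprime (v 0) (v 1)) :
    (∑' v : Fin 2 → ℤ, if v 0 = 0 then w v * ((v 1 : ℂ) ^ (-(4 : ℤ))) else 0) =
      w ![0, 1] + w ![0, -1] := by
  classical
  rw [tsum_eq_sum (s := {![0, 1], ![0, -1]}) (fun v hv => ?_)]
  · rw [Finset.sum_pair (by decide)]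
    simp
    norm_num
  · simp only [Finset.mem_insert, Finset.mem_singleton, not_or] at hv
    split_ifs with h
    · by_cases hm : w v = 0
      · rw [hm, zero_mul]
      · exfalso
        have h1 : IsUnit (v 1) := isCoprime_zero_left.1 (h ▸ hw v hm)
        rcases Int.isUnit_iff.1 h1 with e | e
        · exact hv.1 (by ext i; fin_cases i <;> simp [h, e])
        · exact hv.2 (by ext i; fin_cases i <;> simp [h, e])
    · rfl

end FLTAgent.DS.Phi
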