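import Fermat.Agent.DS.Phi.Lvl
import Fermat.Agent.DS.Phi.RowSum
import Fermat.Agent.JTors.CharFun
import Fermat.Agent.JTors.RootData

/-!
Functions transforming by a character of `L.Gam`, and a function with stabiliser exactly `L.Gam`.
-/

set_option autoImplicit false

noncomputable section

open Filter Function CongruenceSubgroup
open UpperHalfPlane hiding I
open scoped MatrixGroups Manifold Topology

namespace FLTAgent.DS.Phi

open ModPoly
open JTors (rowEquiv)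

variable {L : Lvl}

/-- Trivial on elliptic and parabolic elements. -/
def TrivialEllPar (χ : L.Gam →* ℂˣ) : Prop :=
  ∀ γ : L.Gam, ((γ : SL(2, ℤ)) : Matrix (Fin 2) (Fin 2) ℤ).trace ^ 2 ≤ 4 → χ γ = 1

/-- Trivial on the stabiliser of `∞`. -/
def TrivialAtInf (χ : L.Gam →* ℂˣ) : Prop :=
  ∀ γ : L.Gam, ((γ : SL(2, ℤ)) : Matrix (Fin 2) (Fin 2) ℤ) 1 0 = 0 → χ γ = 1

theorem trace_sq_of_lower_zero {g : SL(2, ℤ)} (h : (g : Matrix (Fin 2) (Fin 2) ℤ) 1 0 = 0) :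
    (g : Matrix (Fin 2) (Fin 2) ℤ).trace ^ 2 = 4 := by
  have hd : (g : Matrix (Fin 2) (Fin 2) ℤ).det = 1 := g.2
  rw [Matrix.det_fin_two, h, mul_zero, sub_zero] at hd
  rw [Matrix.trace_fin_two]
  rcases Int.mul_eq_one_iff_eq_one_or_neg_one.1 hd with ⟨a, d⟩ | ⟨a, d⟩ <;> rw [a, d] <;> norm_num

theorem eq_T_zpow_or_neg {g : SL(2, ℤ)} (h : (g : Matrix (Fin 2) (Fin 2) ℤ) 1 0 = 0) :
    ∃ t : ℤ, g = ModularGroup.T ^ t ∨ g = -ModularGroup.T ^ t := by
  have hd : (g : Matrix (Fin 2) (Fin 2) ℤ).det = 1 := g.2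
  rw [Matrix.det_fin_two, h, mul_zero, sub_zero] at hd
  rcases Int.mul_eq_one_iff_eq_one_or_neg_one.1 hd with ⟨a, d⟩ | ⟨a, d⟩
  · refine ⟨(g : Matrix (Fin 2) (Fin 2) ℤ) 0 1, Or.inl ?_⟩
    ext i j
    fin_cases i <;> fin_cases j <;> simp [ModularGroup.coe_T_zpow, a, h, d]
  · refine ⟨-(g : Matrix (Fin 2) (Fin 2) ℤ) 0 1, Or.inr ?_⟩
    ext i j
    fin_cases i <;> fin_cases j <;> simp [ModularGroup.coe_T_zpow, a, h, d]

theorem TrivialEllPar.atInf {χ : L.Gam →* ℂˣ} (h : TrivialEllPar χ) : TrivialAtInf χ :=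
  fun γ hγ => h γ (trace_sq_of_lower_zero hγ).le

variable (L) in
theorem trivialEllPar_one : TrivialEllPar (1 : L.Gam →* ℂˣ) := fun _ _ => rfl

variable (L) in
/-- The bottom rows of elements of `L.Gam`. -/
def rowsOf : Set (Fin 2 → ℤ) :=
  {v | ∃ γ : L.Gam, ((γ : SL(2, ℤ)) : Matrix (Fin 2) (Fin 2) ℤ) 1 = v}

theorem isCoprime_of_mem_rowsOf {v : Fin 2 → ℤ} (hv : v ∈ rowsOf L) : IsCoprime (v 0) (v 1) := by
  obtain ⟨γ, rfl⟩ := hv
  set A := ((γ : SL(2, ℤ)) : Matrix (Fin 2) (Fin 2) ℤ) with hA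
  have h : A.det = 1 := (γ : SL(2, ℤ)).2
  rw [Matrix.det_fin_two] at h
  exact ⟨-A 0 1, A 0 0, by linear_combination h⟩

theorem lower_zero_of_row_eq {γ δ : SL(2, ℤ)}
    (h : (γ : Matrix (Fin 2) (Fin 2) ℤ) 1 = (δ : Matrix (Fin 2) (Fin 2) ℤ) 1) :
    ((γ * δ⁻¹ : SL(2, ℤ)) : Matrix (Fin 2) (Fin 2) ℤ) 1 0 = 0 := by
  have e0 := congr_fun h 0
  have e1 := congr_fun h 1
  simp [Matrix.mul_apply, Fin.sum_univ_two, Matrix.adjugate_fin_two, e0, e1]
  ring

theorem row_mul (γ δ : SL(2, ℤ)) : ((γ * δ : SL(2, ℤ)) : Matrix (Fin 2) (Fin 2) ℤ) 1 =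
    rowEquiv δ ((γ : Matrix (Fin 2) (Fin 2) ℤ) 1) := rfl

theorem rowEquiv_symm_mem_iff (γ : L.Gam) (v : Fin 2 → ℤ) :
    (rowEquiv (γ : SL(2, ℤ))).symm v ∈ rowsOf L ↔ v ∈ rowsOf L := by
  constructor
  · rintro ⟨δ, hδ⟩
    refine ⟨δ * γ, ?_⟩
    rw [Subgroup.coe_mul, row_mul, hδ, Equiv.apply_symm_apply]
  · rintro ⟨δ, hδ⟩
    refine ⟨δ * γ⁻¹, ?_⟩
    apply (rowEquiv (γ : SL(2, ℤ))).injective
    rw [Equiv.apply_symm_apply, ← row_mul, Subgroup.coe_mul, Subgroup.coe_inv,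
      inv_mul_cancel_right, hδ]

open Classical in
/-- The weight of a row. -/
def rowWt (χ : L.Gam →* ℂˣ) (v : Fin 2 → ℤ) : ℂ :=
  if h : v ∈ rowsOf L then (((χ h.choose)⁻¹ : ℂˣ) : ℂ) else 0

theorem rowWt_row {χ : L.Gam →* ℂˣ} (hχ : TrivialAtInf χ) (γ : L.Gam) :
    rowWt χ (((γ : SL(2, ℤ)) : Matrix (Fin 2) (Fin 2) ℤ) 1) = ((χ γ)⁻¹ : ℂˣ) := by
  have hm : ((γ : SL(2, ℤ)) : Matrix (Fin 2) (Fin 2) ℤ) 1 ∈ rowsOf L := ⟨γ, rfl⟩
  rw [rowWt, dif_pos hm]
  congr 2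
  have h := hχ (hm.choose * γ⁻¹) (by simpa using lower_zero_of_row_eq hm.choose_spec)
  simpa [mul_inv_eq_one] using h

theorem rowWt_symm {χ : L.Gam →* ℂˣ} (hχ : TrivialAtInf χ) (γ : L.Gam) (v : Fin 2 → ℤ) :
    rowWt χ ((rowEquiv (γ : SL(2, ℤ))).symm v) = (χ γ : ℂ) * rowWt χ v := by
  by_cases h : v ∈ rowsOf L
  · obtain ⟨δ, rfl⟩ := h
    have e : (rowEquiv (γ : SL(2, ℤ))).symm (((δ : SL(2, ℤ)) : Matrix (Fin 2) (Fin 2) ℤ) 1) =
        (((δ * γ⁻¹ : L.Gam) : SL(2, ℤ)) : Matrix (Fin 2) (Fin 2) ℤ) 1 := by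
      apply (rowEquiv (γ : SL(2, ℤ))).injective
      rw [Equiv.apply_symm_apply, ← row_mul, Subgroup.coe_mul, Subgroup.coe_inv,
        inv_mul_cancel_right]
    rw [e, rowWt_row hχ, rowWt_row hχ, map_mul, map_inv, _root_.mul_inv_rev, inv_inv]
    simp
  · have h' := mt (rowEquiv_symm_mem_iff γ v).1 h
    simp [rowWt, h, h']

theorem norm_rowWt_le {χ : L.Gam →* ℂˣ} (hfin : ∀ γ, ‖(χ γ : ℂ)‖ = 1) (v : Fin 2 → ℤ) :
    ‖rowWt χ v‖ ≤ 1 := by
  rw [rowWt]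
  split_ifs with h <;> simp [hfin]

theorem isCoprime_of_rowWt_ne_zero {χ : L.Gam →* ℂˣ} {v : Fin 2 → ℤ} (h : rowWt χ v ≠ 0) :
    IsCoprime (v 0) (v 1) :=
  isCoprime_of_mem_rowsOf (L := L) (by by_contra hv; exact h (dif_neg hv))

/-- The twisted Eisenstein series of weight four. -/
def eisChi (χ : L.Gam →* ℂˣ) : ℍ → ℂ := rowSum (rowWt χ)

theorem eisChi_smul {χ : L.Gam →* ℂˣ} (hχ : TrivialAtInf χ) (γ : L.Gam) (z : ℍ) :
    eisChi χ ((γ : SL(2, ℤ)) • z) =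
      (χ γ : ℂ) * denom (γ : SL(2, ℤ)) z ^ (4 : ℤ) * eisChi χ z := by
  rw [eisChi, rowSum_smul, show rowWt χ ∘ (rowEquiv (γ : SL(2, ℤ))).symm =
    fun v => (χ γ : ℂ) * rowWt χ v from funext (rowWt_symm hχ γ)]
  simp only [rowSum, mul_assoc, tsum_mul_left]
  ring

theorem rowWt_unit {χ : L.Gam →* ℂˣ} (hχ : TrivialAtInf χ) :
    rowWt χ ![0, 1] = 1 ∧ rowWt χ ![0, -1] = 1 := by
  constructor
  · have := rowWt_row hχ (1 : L.Gam)
    rw [map_one, inv_one, Units.val_one] at this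
    convert this using 2
    ext i; fin_cases i <;> simp
  · have hrow := rowWt_row hχ (⟨-1, L.neg_one_mem⟩ : L.Gam)
    rw [hχ ⟨-1, L.neg_one_mem⟩ (by simp), inv_one, Units.val_one] at hrow
    convert hrow using 2
    ext i; fin_cases i <;> simp

theorem tendsto_eisChi {χ : L.Gam →* ℂˣ} (hχ : TrivialAtInf χ) (hfin : ∀ γ, ‖(χ γ : ℂ)‖ = 1) :
    Tendsto (fun t => eisChi χ (zSeq t)) atTop (𝓝 2) := by
  have h := tendsto_rowSum (norm_rowWt_le hfin)
  rw [tsum_rows fun v hv => isCoprime_of_rowWt_ne_zero hv, (rowWt_unit hχ).1,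
    (rowWt_unit hχ).2, one_add_one_eq_two] at h
  exact h

theorem eisChi_ne_zero {χ : L.Gam →* ℂˣ} (hχ : TrivialAtInf χ)
    (hfin : ∀ γ, ‖(χ γ : ℂ)‖ = 1) : eisChi χ ≠ 0 := fun h => by
  have := tendsto_eisChi hχ hfin
  rw [h] at this
  exact two_ne_zero (tendsto_nhds_unique tendsto_const_nhds this).symm

/-! ### Functions with character -/

/-- Holomorphic functions with character `χ` whose products with `Δ^m` are bounded at all cusps. -/
def CharFun (χ : L.Gam →* ℂˣ) (m : ℕ) : Submodule ℂ (ℍ → ℂ) where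
  carrier := {h | MDiff h ∧
    (∀ (γ : L.Gam) (z : ℍ), h ((γ : SL(2, ℤ)) • z) = (χ γ : ℂ) * h z) ∧
    ∀ δ : SL(2, ℤ), IsBoundedAtImInfty fun z => h (δ • z) * ModularForm.discriminant z ^ m}
  zero_mem' := ⟨mdifferentiable_const, fun _ _ => by simp, fun δ => by
    simp only [Pi.zero_apply, zero_mul]
    exact (Filter.zero_zeroAtFilter atImInfty).boundedAtFilter⟩
  add_mem' := by
    rintro f g ⟨hf, hfc, hfb⟩ ⟨hg, hgc, hgb⟩
    refine ⟨hf.add hg, fun γ z => ?_, fun δ => ?_⟩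
    · simp only [Pi.add_apply, hfc γ z, hgc γ z]; ring
    · simpa [IsBoundedAtImInfty, add_mul, Pi.add_def] using (hfb δ).add (hgb δ)
  smul_mem' := by
    rintro c f ⟨hf, hfc, hfb⟩
    refine ⟨hf.const_smul c, fun γ z => ?_, fun δ => ?_⟩
    · simp only [Pi.smul_apply, hfc γ z, smul_eq_mul]; ring
    · simpa [IsBoundedAtImInfty, mul_assoc, Pi.smul_def] using (hfb δ).smul c

theorem mul_mem_charFun {χ χ' : L.Gam →* ℂˣ} {m m' : ℕ} {f g : ℍ → ℂ}
    (hf : f ∈ CharFun χ m) (hg : g ∈ CharFun χ' m') : f * g ∈ CharFun (χ * χ') (m + m') := by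
  refine ⟨hf.1.mul hg.1, fun γ z => ?_, fun δ => ?_⟩
  · simp only [Pi.mul_apply, hf.2.1 γ z, hg.2.1 γ z, MonoidHom.mul_apply, Units.val_mul]; ring
  · refine ((hf.2.2 δ).mul (hg.2.2 δ)).congr' (Eventually.of_forall fun z => ?_)
      EventuallyEq.rfl
    simp only [Pi.mul_apply, pow_add]
    ring

theorem one_mem_charFun : (1 : ℍ → ℂ) ∈ CharFun (1 : L.Gam →* ℂˣ) 0 :=
  ⟨mdifferentiable_const, fun _ _ => by simp, fun δ => by
    simp only [Pi.one_apply, pow_zero, mul_one]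
    exact const_boundedAtFilter atImInfty (1 : ℂ)⟩

theorem pow_mem_charFun {χ : L.Gam →* ℂˣ} {m : ℕ} {f : ℍ → ℂ} (hf : f ∈ CharFun χ m) :
    ∀ n : ℕ, f ^ n ∈ CharFun (χ ^ n) (m * n)
  | 0 => by
    have e : χ ^ 0 = 1 := MonoidHom.ext fun γ => by simp
    rw [e, pow_zero, Nat.mul_zero]
    exact one_mem_charFun
  | n + 1 => by
    have e : χ ^ (n + 1) = χ ^ n * χ := MonoidHom.ext fun γ => by simp [pow_succ]
    rw [e, pow_succ f, Nat.mul_succ]
    exact mul_mem_charFun (pow_mem_charFun hf n) hf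

theorem norm_eq_one_of_pow {χ : L.Gam →* ℂˣ} {n : ℕ} (hn : n ≠ 0) (h : ∀ γ, χ γ ^ n = 1)
    (γ : L.Gam) : ‖(χ γ : ℂ)‖ = 1 := by
  have := congrArg (fun u : ℂˣ => ‖(u : ℂ)‖) (h γ)
  simp only [Units.val_pow_eq_pow_val, norm_pow, Units.val_one, norm_one] at this
  exact (pow_eq_one_iff_of_nonneg (norm_nonneg _) hn).1 this

/-- Every unitary character trivial at `∞` occurs. -/
theorem exists_charFun_ne_zero {χ : L.Gam →* ℂˣ} (hχ : TrivialAtInf χ)
    (hfin : ∀ γ, ‖(χ γ : ℂ)‖ = 1) : ∃ h ∈ CharFun χ 1, h ≠ 0 := by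
  set h : ℍ → ℂ := fun z =>
    eisChi χ z * (ModularForm.E₄ : ℍ → ℂ) z ^ 2 / ModularForm.discriminant z with hh
  have hmd : MDiff (eisChi χ) := mdifferentiable_rowSum (norm_rowWt_le hfin)
  refine ⟨h, ⟨?_, fun γ z => ?_, fun δ => ?_⟩, ?_⟩
  · exact (hmd.mul (JTors.mdifferentiable_E4.pow 2)).div
      JTors.mdifferentiable_discriminant ModularForm.discriminant_ne_zero
  · have hd : denom (γ : SL(2, ℤ)) z ≠ 0 := denom_ne_zero _ z
    simp only [hh, eisChi_smul hχ γ z, JTors.E4_smul, JTors.discriminant_smul]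
    field_simp [ModularForm.discriminant_ne_zero z, zpow_ne_zero]
  · have heq : (fun z => h (δ • z) * ModularForm.discriminant z ^ 1) =
        fun z : ℍ => (denom δ z ^ (4 : ℤ))⁻¹ * eisChi χ (δ • z) * ModularForm.E₄ z ^ 2 := by
      funext z
      have hd : denom δ z ≠ 0 := denom_ne_zero _ z
      simp only [hh, JTors.E4_smul, JTors.discriminant_smul, pow_one]
      field_simp [ModularForm.discriminant_ne_zero z]
    rw [heq]
    exact (isBoundedAtImInfty_rowSum_smul (norm_rowWt_le hfin) δ).mul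
      (by simpa [pow_two, IsBoundedAtImInfty, Pi.mul_def] using
        JTors.isBoundedAtImInfty_E4.mul JTors.isBoundedAtImInfty_E4)
  · intro h0
    have hprod : eisChi χ * (ModularForm.E₄ : ℍ → ℂ) ^ 2 = 0 := by
      funext z
      simpa [hh, ModularForm.discriminant_ne_zero] using congr_fun h0 z
    rcases (UpperHalfPlane.mul_eq_zero_iff hmd
      (JTors.mdifferentiable_E4.pow 2)).1 hprod with h1 | h1
    · exact eisChi_ne_zero hχ hfin h1
    · exact JTors.E4_ne_zero_fun (eq_zero_of_pow_eq_zero h1)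

/-- A function with character is meromorphic at a cusp at which it is periodic. -/
theorem mem_expRing_comp_smul {χ : L.Gam →* ℂˣ} {m : ℕ} {h : ℍ → ℂ} (hh : h ∈ CharFun χ m)
    {δ : SL(2, ℤ)} {w : ℕ} [NeZero w] (hT : ∀ z : ℍ, h (δ • ((w : ℝ) +ᵥ z)) = h (δ • z)) :
    (fun z : ℍ => h (δ • z)) ∈ expRing w := by
  set F : ℍ → ℂ := fun z => h (δ • z) * ModularForm.discriminant z ^ m
  have hmd : MDiff F := (mdifferentiable_comp_smul hh.1 δ).mul
    (JTors.mdifferentiable_discriminant.pow m)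
  have hΔ : ∀ z : ℍ, ModularForm.discriminant ((w : ℝ) +ᵥ z) = ModularForm.discriminant z := by
    intro z
    rw [← smul_T_pow_eq_vadd, JTors.discriminant_smul,
      ModularGroup.denom_apply, ModularGroup.coe_T_zpow]
    simp
  have hper : ∀ z : ℍ, F ((w : ℝ) +ᵥ z) = F z := fun z => by simp only [F, hT, hΔ]
  have h1 := expands_qExpansion (h := w) (periodic_of_vadd hper) hmd (hh.2.2 δ)
  have h2 := ((expands_discriminant.width_mul (k := w)).pow m)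
  rw [one_mul] at h2
  have h3 := h1.mul (h2.inv (pow_ne_zero m ?_))
  · refine Expands.mem_expRing (h3.congr_fun' (Eventually.of_forall fun z => ?_))
    simp [F, ModularForm.discriminant_ne_zero]
  · intro h0
    exact JTors.discSeries_ne_zero ((map_eq_zero_iff _ (RingHom.injective _)).1 h0)

theorem mem_funRing_of_charFun {m : ℕ} {h : ℍ → ℂ} (hh : h ∈ CharFun (1 : L.Gam →* ℂˣ) m) :
    h ∈ funRing L := by
  have hinv : ∀ γ ∈ L.Gam, ∀ z : ℍ, h (γ • z) = h z := fun γ hγ z => by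
    simpa using hh.2.1 ⟨γ, hγ⟩ z
  exact ⟨hh.1, hinv, fun δ => mem_expRing_comp_smul hh (vadd_level hinv δ)⟩

theorem pow_mem_funRing {χ : L.Gam →* ℂˣ} {m n : ℕ} {h : ℍ → ℂ} (hh : h ∈ CharFun χ m)
    (hn : χ ^ n = 1) : h ^ n ∈ funRing L :=
  mem_funRing_of_charFun (hn ▸ pow_mem_charFun hh n)

/-! ### The separating function -/

variable (L)

/-- `E E₄² / Δ` for the weight four series `E` of `L.Gam`. -/
def sepFun : ℍ → ℂ := fun z =>
  eisChi (1 : L.Gam →* ℂˣ) z * (ModularForm.E₄ : ℍ → ℂ) z ^ 2 / ModularForm.discriminant z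

theorem sepFun_mem : sepFun L ∈ funRing L := by
  have hfin : ∀ γ : L.Gam, ‖((1 : L.Gam →* ℂˣ) γ : ℂ)‖ = 1 := fun _ => by simp
  have hmd : MDiff (eisChi (1 : L.Gam →* ℂˣ)) := mdifferentiable_rowSum (norm_rowWt_le hfin)
  refine mem_funRing_of_charFun (m := 1) ⟨?_, fun γ z => ?_, fun δ => ?_⟩
  · exact (hmd.mul (JTors.mdifferentiable_E4.pow 2)).div
      JTors.mdifferentiable_discriminant ModularForm.discriminant_ne_zero
  · have hd : denom (γ : SL(2, ℤ)) z ≠ 0 := denom_ne_zero _ z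
    simp only [sepFun, eisChi_smul (χ := (1 : L.Gam →* ℂˣ)) (fun _ _ => rfl) γ z, JTors.E4_smul, JTors.discriminant_smul]
    field_simp [ModularForm.discriminant_ne_zero z, zpow_ne_zero]
  · have heq : (fun z => sepFun L (δ • z) * ModularForm.discriminant z ^ 1) = fun z : ℍ =>
        (denom δ z ^ (4 : ℤ))⁻¹ * eisChi (1 : L.Gam →* ℂˣ) (δ • z) * ModularForm.E₄ z ^ 2 := by
      funext z
      have hd : denom δ z ≠ 0 := denom_ne_zero _ z
      simp only [sepFun, JTors.E4_smul, JTors.discriminant_smul, pow_one]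
      field_simp [ModularForm.discriminant_ne_zero z]
    rw [heq]
    exact (isBoundedAtImInfty_rowSum_smul (norm_rowWt_le hfin) δ).mul
      (by simpa [pow_two, IsBoundedAtImInfty, Pi.mul_def] using
        JTors.isBoundedAtImInfty_E4.mul JTors.isBoundedAtImInfty_E4)

/-- The separating function in `funRing`. -/
def sepL : funRing L := ⟨sepFun L, sepFun_mem L⟩

variable {L}

/-- `sepFun L` is fixed only by `L.Gam`. -/
theorem mem_of_sepFun_smul {δ : SL(2, ℤ)} (h : ∀ z : ℍ, sepFun L (δ • z) = sepFun L z) :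
    δ ∈ L.Gam := by
  by_contra hδ
  have hfin : ∀ γ : L.Gam, ‖((1 : L.Gam →* ℂˣ) γ : ℂ)‖ = 1 := fun _ => by simp
  have hmd : MDiff (eisChi (1 : L.Gam →* ℂˣ)) := mdifferentiable_rowSum (norm_rowWt_le hfin)
  set w' : (Fin 2 → ℤ) → ℂ := rowWt (1 : L.Gam →* ℂˣ) ∘ (rowEquiv δ).symm
  have hmd' : MDiff (rowSum w') := mdifferentiable_rowSum fun v => norm_rowWt_le hfin _
  have key : (rowSum w' - eisChi (1 : L.Gam →* ℂˣ)) * (ModularForm.E₄ : ℍ → ℂ) ^ 2 = 0 := by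
    funext z
    have e := h z
    have hd : denom δ z ≠ 0 := denom_ne_zero _ z
    simp only [sepFun, eisChi, rowSum_smul, JTors.E4_smul, JTors.discriminant_smul] at e
    field_simp [ModularForm.discriminant_ne_zero z, zpow_ne_zero] at e
    simp only [Pi.mul_apply, Pi.sub_apply, Pi.pow_apply, Pi.zero_apply, eisChi, w']
    linear_combination e
  have heq : rowSum w' = eisChi (1 : L.Gam →* ℂˣ) := by
    rcases (UpperHalfPlane.mul_eq_zero_iff (hmd'.sub hmd) (JTors.mdifferentiable_E4.pow 2)).1 key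
      with h1 | h1
    · exact sub_eq_zero.1 h1
    · exact absurd (eq_zero_of_pow_eq_zero h1) JTors.E4_ne_zero_fun
  have hco : ∀ v, w' v ≠ 0 → IsCoprime (v 0) (v 1) := fun v hv => by
    have hm : (rowEquiv δ).symm v ∈ rowsOf L := by
      by_contra hc
      simp [w', rowWt, hc] at hv
    obtain ⟨γ, hγ⟩ := hm
    have e : v = (((γ : SL(2, ℤ)) * δ : SL(2, ℤ)) : Matrix (Fin 2) (Fin 2) ℤ) 1 := by
      rw [row_mul, hγ, Equiv.apply_symm_apply]
    set A := (((γ : SL(2, ℤ)) * δ : SL(2, ℤ)) : Matrix (Fin 2) (Fin 2) ℤ) with hA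
    have hdet : A.det = 1 := ((γ : SL(2, ℤ)) * δ).2
    rw [Matrix.det_fin_two] at hdet
    rw [e]
    exact ⟨-A 0 1, A 0 0, by linear_combination hdet⟩
  have hzero : ∀ g : SL(2, ℤ), (g : Matrix (Fin 2) (Fin 2) ℤ) 1 0 = 0 →
      w' ((g : Matrix (Fin 2) (Fin 2) ℤ) 1) = 0 := by
    intro g hg
    show rowWt _ ((rowEquiv δ).symm _) = 0
    rw [rowWt, dif_neg]
    rintro ⟨γ, hγ⟩
    apply hδ
    have e : (g : Matrix (Fin 2) (Fin 2) ℤ) 1 =
        (((γ : SL(2, ℤ)) * δ : SL(2, ℤ)) : Matrix (Fin 2) (Fin 2) ℤ) 1 := by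
      rw [row_mul, hγ, Equiv.apply_symm_apply]
    have h0 : (((γ : SL(2, ℤ)) * δ : SL(2, ℤ)) : Matrix (Fin 2) (Fin 2) ℤ) 1 0 = 0 := by
      rw [← e]; exact hg
    obtain ⟨t, ht⟩ : ∃ t : ℤ, (γ : SL(2, ℤ)) * δ = ModularGroup.T ^ t ∨
        (γ : SL(2, ℤ)) * δ = -ModularGroup.T ^ t :=
      eq_T_zpow_or_neg h0
    have hmem : (γ : SL(2, ℤ)) * δ ∈ L.Gam := by
      rcases ht with ht | ht <;> rw [ht]
      · exact zpow_mem L.T_mem t
      · rw [← neg_one_mul]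
        exact mul_mem L.neg_one_mem (zpow_mem L.T_mem t)
    simpa using mul_mem (inv_mem γ.2) hmem
  have hlim := tendsto_rowSum (w := w') fun v => norm_rowWt_le hfin _
  rw [tsum_rows hco, heq] at hlim
  have h1 : w' ![0, 1] = 0 := by
    have := hzero 1 (by simp)
    convert this using 2
    ext i; fin_cases i <;> simp
  have h2 : w' ![0, -1] = 0 := by
    have := hzero (-1) (by simp)
    convert this using 2
    ext i; fin_cases i <;> simp
  rw [h1, h2, add_zero] at hlim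
  exact two_ne_zero (tendsto_nhds_unique (tendsto_eisChi (fun _ _ => rfl) hfin) hlim)

end FLTAgent.DS.Phi
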