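import Fermat.Agent.DS.Phi.Exists
import Fermat.Agent.DS.Phi.One
import Fermat.Agent.DS.HeckeOne
import Fermat.Agent.JTors.SeriesRoot
import Mathlib.Analysis.SpecialFunctions.Complex.CircleAddChar

/-!
The classes of the field of level `Γ₁(M)` attached to parabolic homomorphisms into `ℤ / ℓ`:
existence, sums, triviality, diamonds.
-/

set_option autoImplicit false

noncomputable section

open ModularCurve AlgebraicCurve CongruenceSubgroup Filter Topology
open UpperHalfPlane hiding I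
open scoped MatrixGroups Manifold

namespace FLTAgent.DS.Phi

open ModPoly

local notation "Qbar" => AlgebraicClosure ℚ
local notation "𝕢" => Function.Periodic.qParam

variable {M : ℕ} [NeZero M]

/-! ### Dictionary -/

/-- An invariant function, at level `±Γ₁(M)`. -/
def toLvl (a : modFunRingOne M) : funRing (lvlOne M) := ⟨a, mem_funRing_lvlOne.2 a.2⟩

/-- An invariant function, at level `Γ₁(M)`. -/
def ofLvl (a : funRing (lvlOne M)) : modFunRingOne M := ⟨a, mem_funRing_lvlOne.1 a.2⟩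

theorem coe_toLvl (a : modFunRingOne M) : (toLvl a : ℍ → ℂ) = (a : ℍ → ℂ) := rfl

theorem coe_ofLvl (a : funRing (lvlOne M)) : (ofLvl a : ℍ → ℂ) = (a : ℍ → ℂ) := rfl

/-- A series with coefficients in the image of a map comes from a series. -/
theorem exists_coeffMap_of_range {R S : Type*} [CommRing R] [CommRing S] (f : R →+* S)
    (hf : Function.Injective f) {X : LaurentSeries S} (h : ∀ k, X.coeff k ∈ Set.range f) :
    ∃ x : LaurentSeries R, coeffMap f x = X := by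
  choose c hc using h
  refine ⟨{ coeff := c
            isPWO_support' := X.isPWO_support.mono fun k hk h0 => hk (hf ?_) },
    HahnSeries.ext (funext fun k => ?_)⟩
  · rw [hc, h0, map_zero]
  · exact hc k

/-- `RepOne` inside `ℂ((q))`. -/
theorem repOne_iff {x : K1 M} {a b : modFunRingOne M} :
    RepOne x a b ↔ toLvl b ≠ 0 ∧
      (∀ k, (qL (lvlOne M) (toLvl b)).coeff k ∈ Set.range iotaOne) ∧
        toC iotaOne x * qL (lvlOne M) (toLvl b) = qL (lvlOne M) (toLvl a) := by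
  constructor
  · rintro ⟨ya, yb, hyb, ha, hb, he⟩
    have hqb : qL (lvlOne M) (toLvl b) = coeffMap iotaOne yb := qL_eq_of_expands hb
    have hqa : qL (lvlOne M) (toLvl a) = coeffMap iotaOne ya := qL_eq_of_expands ha
    refine ⟨fun e => hyb ?_, fun k => ?_, ?_⟩
    · rw [e, map_zero] at hqb
      exact (map_eq_zero (coeffMap iotaOne)).1 hqb.symm
    · rw [hqb]
      exact ⟨yb.coeff k, rfl⟩
    · rw [hqa, hqb, toC_apply, ← map_mul, he]
  · rintro ⟨hb0, hb, he⟩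
    obtain ⟨yb, hyb⟩ := exists_coeffMap_of_range iotaOne iotaOne.injective hb
    refine ⟨(x : LaurentSeries Qbar) * yb, yb, fun e => hb0 (qL_injective ?_), ?_, ?_, rfl⟩
    · rw [← hyb, e, map_zero, map_zero]
    · show Expands 1 _ (coeffMap iotaOne _)
      rw [map_mul, hyb, ← toC_apply, he]
      exact expands_qL (toLvl a)
    · show Expands 1 _ (coeffMap iotaOne yb)
      rw [hyb]
      exact expands_qL (toLvl b)

theorem repOne_mul {x y : K1 M} {a b a' b' : modFunRingOne M} (h : RepOne x a b)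
    (h' : RepOne y a' b') : RepOne (x * y) (a * a') (b * b') := by
  obtain ⟨ya, yb, hyb, ha, hb, he⟩ := h
  obtain ⟨ya', yb', hyb', ha', hb', he'⟩ := h'
  refine ⟨ya * ya', yb * yb', mul_ne_zero hyb hyb', ?_, ?_, ?_⟩
  · show Expands 1 _ (coeffMap iotaOne _)
    rw [map_mul]
    exact ha.mul ha'
  · show Expands 1 _ (coeffMap iotaOne _)
    rw [map_mul]
    exact hb.mul hb'
  · rw [← he, ← he']
    show ((x : LaurentSeries Qbar) * y) * _ = _
    ring

/-! ### Characters -/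

theorem stdAddChar_eq_exp {ℓ : ℕ} [NeZero ℓ] (k : ZMod ℓ) :
    ZMod.stdAddChar k = Complex.exp (2 * Real.pi * Complex.I * ((k.val : ℕ) : ℂ) / ℓ) := by
  rw [ZMod.stdAddChar_apply, ZMod.toCircle_apply]

omit [NeZero M] in
theorem neg_one_notMem_Gamma1 (hM : 3 ≤ M) : (-1 : SL(2, ℤ)) ∉ Gamma1 M := by
  intro h
  have h1 := ((Gamma1_mem M _).1 h).1
  simp only [Matrix.SpecialLinearGroup.coe_neg, Matrix.SpecialLinearGroup.coe_one,
    Matrix.neg_apply, Matrix.one_apply_eq, Int.cast_neg, Int.cast_one] at h1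
  have h2 : ((2 : ℕ) : ZMod M) = 0 := by
    push_cast
    linear_combination -h1
  rw [ZMod.natCast_eq_zero_iff] at h2
  have := Nat.le_of_dvd (by norm_num) h2
  omega

omit [NeZero M] in
theorem trace_cast_Gamma1 {γ : SL(2, ℤ)} (h : γ ∈ Gamma1 M) :
    (((γ : Matrix (Fin 2) (Fin 2) ℤ).trace : ℤ) : ZMod M) = 2 := by
  obtain ⟨h0, h1, -⟩ := (Gamma1_mem M γ).1 h
  rw [Matrix.trace_fin_two]
  push_cast
  rw [h0, h1]
  norm_num

omit [NeZero M] in
theorem trace_sq_eq_four (hM : 4 ≤ M) {γ : SL(2, ℤ)} (h : γ ∈ Gamma1 M)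
    (ht : (γ : Matrix (Fin 2) (Fin 2) ℤ).trace ^ 2 ≤ 4) :
    (γ : Matrix (Fin 2) (Fin 2) ℤ).trace ^ 2 = 4 := by
  have hc := trace_cast_Gamma1 h
  set t := (γ : Matrix (Fin 2) (Fin 2) ℤ).trace
  have hd : (M : ℤ) ∣ 2 - t := (ZMod.intCast_eq_intCast_iff_dvd_sub t 2 M).1 (by simpa using hc)
  have h1 : -2 ≤ t := by nlinarith
  have h2 : t ≤ 2 := by nlinarith
  by_contra hne
  have : 0 < 2 - t ∧ 2 - t < 4 := by
    refine ⟨?_, ?_⟩
    · by_contra hh
      exact hne (by rw [show t = 2 by omega]; norm_num)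
    · by_contra hh
      exact hne (by rw [show t = -2 by omega]; norm_num)
  have := Int.le_of_dvd this.1 hd
  omega

section Sign

variable {ℓ : ℕ} (c : Additive (Gamma1 M) →+ ZMod ℓ)

open Classical in
/-- The extension of `c` to `±Γ₁(M)` killing `-1`. -/
def signFun (γ : (lvlOne M).Gam) : ZMod ℓ :=
  if h : (γ : SL(2, ℤ)) ∈ Gamma1 M then c (Additive.ofMul ⟨_, h⟩)
  else c (Additive.ofMul ⟨-(γ : SL(2, ℤ)), γ.2.resolve_left h⟩)

theorem signFun_eq (hM : 3 ≤ M) {γ : (lvlOne M).Gam} {g : Gamma1 M}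
    (h : (γ : SL(2, ℤ)) = g ∨ (γ : SL(2, ℤ)) = -(g : SL(2, ℤ))) :
    signFun c γ = c (Additive.ofMul g) := by
  rw [signFun]
  split_ifs with hγ
  · rcases h with h | h
    · congr 2
      exact Subtype.ext h
    · refine absurd ?_ (neg_one_notMem_Gamma1 hM)
      have := mul_mem hγ (inv_mem g.2)
      rwa [h, neg_mul, mul_inv_cancel] at this
  · rcases h with h | h
    · exact absurd (h ▸ g.2) hγ
    · congr 2
      refine Subtype.ext ?_
      show -(γ : SL(2, ℤ)) = g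
      rw [h, neg_neg]

theorem exists_repr (γ : (lvlOne M).Gam) :
    ∃ g : Gamma1 M, (γ : SL(2, ℤ)) = g ∨ (γ : SL(2, ℤ)) = -(g : SL(2, ℤ)) := by
  rcases γ.2 with h | h
  · exact ⟨⟨_, h⟩, Or.inl rfl⟩
  · exact ⟨⟨_, h⟩, Or.inr (neg_neg _).symm⟩

theorem signFun_mul (hM : 3 ≤ M) (γ δ : (lvlOne M).Gam) :
    signFun c (γ * δ) = signFun c γ + signFun c δ := by
  obtain ⟨g, hg⟩ := exists_repr γ
  obtain ⟨d, hd⟩ := exists_repr δ
  rw [signFun_eq c hM hg, signFun_eq c hM hd, signFun_eq c hM (g := g * d), ofMul_mul, map_add]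
  show (γ : SL(2, ℤ)) * (δ : SL(2, ℤ)) = (g : SL(2, ℤ)) * (d : SL(2, ℤ)) ∨
    (γ : SL(2, ℤ)) * (δ : SL(2, ℤ)) = -((g : SL(2, ℤ)) * (d : SL(2, ℤ)))
  rcases hg with hg | hg <;> rcases hd with hd | hd <;> rw [hg, hd] <;> simp

variable [NeZero ℓ]

/-- The character of `±Γ₁(M)` attached to `c`. -/
def signChar (hM : 3 ≤ M) : (lvlOne M).Gam →* ℂˣ :=
  MonoidHom.toHomUnits
    { toFun := fun γ => ZMod.stdAddChar (signFun c γ)
      map_one' := by
        have := signFun_eq c hM (γ := 1) (g := 1) (Or.inl rfl)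
        rw [this, ofMul_one, map_zero, AddChar.map_zero_eq_one]
      map_mul' := fun γ δ => by rw [signFun_mul c hM, AddChar.map_add_eq_mul] }

theorem coe_signChar (hM : 3 ≤ M) (γ : (lvlOne M).Gam) :
    (signChar c hM γ : ℂ) = ZMod.stdAddChar (signFun c γ) := rfl

theorem signChar_pow (hM : 3 ≤ M) : signChar c hM ^ ℓ = 1 := by
  refine MonoidHom.ext fun γ => Units.ext ?_
  rw [MonoidHom.pow_apply, Units.val_pow_eq_pow_val, coe_signChar, ← AddChar.map_nsmul_eq_pow,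
    MonoidHom.one_apply, Units.val_one, nsmul_eq_mul, ZMod.natCast_self, zero_mul,
    AddChar.map_zero_eq_one]

theorem trivialEllPar_signChar (hM : 4 ≤ M)
    (hc : ModularCurve.Period.IsParabolicHom (Gamma1 M) c) :
    TrivialEllPar (signChar c (by omega : 3 ≤ M)) := by
  intro γ hγ
  obtain ⟨g, hg⟩ := exists_repr γ
  refine Units.ext ?_
  rw [coe_signChar, signFun_eq c (by omega) hg, hc g ?_, AddChar.map_zero_eq_one, Units.val_one]
  refine trace_sq_eq_four hM g.2 ?_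
  rcases hg with hg | hg
  · rwa [← hg]
  · rw [hg, Matrix.SpecialLinearGroup.coe_neg, Matrix.trace_neg, neg_sq] at hγ
    exact hγ

end Sign

/-! ### Root homomorphisms -/

variable (hM : IsModel (lvlOne M) (fieldOne M)) {ℓ : ℕ} [NeZero ℓ]
include hM

theorem exists_class_of_model (hM4 : 4 ≤ M) (c : Additive (Gamma1 M) →+ ZMod ℓ)
    (hc : ModularCurve.Period.IsParabolicHom (Gamma1 M) c) :
    ∃ x : K1 M, x ≠ 0 ∧ DvdDiv ℓ x ∧ IsRootHomOne ℓ x c := by
  obtain ⟨h, hh, h0, g, hg, hg0, y, hy, hdvd⟩ := exists_rational_charFun hM (NeZero.ne ℓ) iotaOne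
    (trivialEllPar_signChar c hM4 hc) (signChar_pow c (by omega))
  refine ⟨y, fun e => hg0 (qL_injective ?_), hdvd, h, ofLvl g, 1, ?_, hh.1, h0, fun τ => ?_,
    fun γ τ => ?_⟩
  · rw [← hy, e, map_zero, map_zero]
  · have h1 : toLvl (1 : modFunRingOne M) = 1 := rfl
    refine repOne_iff.2 ⟨?_, fun k => ?_, ?_⟩
    · rw [h1]; exact one_ne_zero
    · rw [h1, map_one, HahnSeries.coeff_one]
      split_ifs
      · exact ⟨1, map_one _⟩
      · exact ⟨0, map_zero _⟩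
    · rw [h1, map_one, mul_one]
      exact hy
  · rw [coe_ofLvl, hg]
    simp
  · rw [← stdAddChar_eq_exp, ← signFun_eq c (γ := ⟨(γ : SL(2, ℤ)), Or.inl γ.2⟩) (g := γ)
      (by omega) (Or.inl rfl), ← coe_signChar c (by omega)]
    exact hh.2.1 ⟨(γ : SL(2, ℤ)), Or.inl γ.2⟩ τ

omit hM

theorem isRootHomOne_mul {x y : K1 M} {c d : Additive (Gamma1 M) →+ ZMod ℓ}
    (hx : IsRootHomOne ℓ x c) (hy : IsRootHomOne ℓ y d) : IsRootHomOne ℓ (x * y) (c + d) := by
  obtain ⟨h, a, b, hr, hh, h0, he, ht⟩ := hx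
  obtain ⟨h', a', b', hr', hh', h0', he', ht'⟩ := hy
  refine ⟨h * h', a * a', b * b', repOne_mul hr hr', hh.mul hh', fun e => ?_, fun τ => ?_,
    fun γ τ => ?_⟩
  · rcases (UpperHalfPlane.mul_eq_zero_iff hh hh').1 e with e | e
    · exact h0 e
    · exact h0' e
  · simp only [Subalgebra.coe_mul, Pi.mul_apply, ← he τ, ← he' τ]
    ring
  · simp only [← stdAddChar_eq_exp] at ht ht' ⊢
    simp only [Pi.mul_apply, AddMonoidHom.add_apply, AddChar.map_add_eq_mul, ht γ τ, ht' γ τ]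
    ring

theorem root_mem_funRing {h : ℍ → ℂ} (hh : MDiff h) {a b : modFunRingOne M} (hb : toLvl b ≠ 0)
    (he : ∀ τ, (b : ℍ → ℂ) τ * h τ ^ ℓ = (a : ℍ → ℂ) τ)
    (hinv : ∀ (γ : Gamma1 M) (τ : ℍ), h ((γ : SL(2, ℤ)) • τ) = h τ) :
    h ∈ funRing (lvlOne M) := by
  refine mem_funRing_of_isBounded hh (fun γ hγ τ => ?_) fun δ => ?_
  · rcases hγ with hγ | hγ
    · exact hinv ⟨γ, hγ⟩ τ
    · have := hinv ⟨-γ, hγ⟩ τ
      rwa [ModularGroup.SL_neg_smul] at this
  · set A := toLvl a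
    set B := toLvl b
    have hB : qLAt (lvlOne M) δ B ≠ 0 := (map_ne_zero_iff _ (qLAt_injective δ)).2 hb
    have hexp := ((expands_qLAt δ A).mul ((expands_qLAt δ B).inv hB))
    have hne : ∀ᶠ τ in atImInfty, (B : ℍ → ℂ) (δ • τ) ≠ 0 := by
      have h1 := ((expands_qLAt δ B).inv hB).mul (expands_qLAt δ B)
      rw [inv_mul_cancel₀ hB] at h1
      have h2 := JTors.tendsto_of_expands_order_zero h1 one_ne_zero HahnSeries.order_one
      filter_upwards [h2.1.eventually_ne h2.2] with τ hτ h0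
      exact hτ (by simp only [Pi.mul_apply, Pi.inv_apply, h0, mul_zero])
    have hpow : (fun τ => h (δ • τ) ^ ℓ) ∈ expRing M := by
      refine Expands.mem_expRing (hexp.congr_fun' ?_)
      filter_upwards [hne] with τ hτ
      simp only [Pi.mul_apply, Pi.inv_apply, A, B, coe_toLvl] at hτ ⊢
      rw [← he (δ • τ)]
      field_simp
    obtain ⟨m, hm⟩ := exists_isBounded_of_mem_expRing hpow
    refine ⟨m, isBoundedAtImInfty_of_pow (NeZero.ne ℓ) ?_⟩
    refine Asymptotics.IsBigO.trans (Asymptotics.isBigO_of_le _ fun τ => ?_) hm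
    have hq : ‖𝕢 (M : ℝ) (τ : ℂ)‖ ≤ 1 := by
      rw [Function.Periodic.norm_qParam, Real.exp_le_one_iff]
      exact div_nonpos_of_nonpos_of_nonneg
        (mul_nonpos_of_nonpos_of_nonneg (by linarith [Real.pi_pos]) τ.im_pos.le) (Nat.cast_nonneg _)
    show ‖(𝕢 (M : ℝ) (τ : ℂ) ^ m * h (δ • τ)) ^ ℓ‖ ≤ ‖𝕢 (M : ℝ) (τ : ℂ) ^ m * h (δ • τ) ^ ℓ‖
    rw [mul_pow, norm_mul, norm_mul, ← pow_mul, norm_pow, norm_pow (𝕢 (M : ℝ) (τ : ℂ)) m]
    refine mul_le_mul_of_nonneg_right ?_ (norm_nonneg _)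
    exact pow_le_pow_of_le_one (norm_nonneg _) hq
      (Nat.le_mul_of_pos_right m (Nat.pos_of_ne_zero (NeZero.ne ℓ)))

include hM

theorem pow_iff_of_model (x : K1 M) (c : Additive (Gamma1 M) →+ ZMod ℓ) (hx0 : x ≠ 0)
    (hx : IsRootHomOne ℓ x c) : c = 0 ↔ ∃ u : K1 M, x = u ^ ℓ := by
  obtain ⟨h, a, b, hr, hh, h0, he, ht⟩ := hx
  simp only [← stdAddChar_eq_exp] at ht
  obtain ⟨hb, -, hrep⟩ := repOne_iff.1 hr
  have hn := NeZero.ne ℓ
  have hxC : toC iotaOne x ≠ 0 := (map_ne_zero _).2 hx0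
  have hqb : qL (lvlOne M) (toLvl b) ≠ 0 := (map_ne_zero_iff _ qL_injective).2 hb
  constructor
  · rintro rfl
    have hmem := root_mem_funRing hh hb he fun γ τ => by
      simpa using ht γ τ
    set H : funRing (lvlOne M) := ⟨h, hmem⟩
    have hH : toLvl b * H ^ ℓ = toLvl a := Subtype.ext (funext fun τ => he τ)
    have hpow : qL (lvlOne M) H ^ ℓ = toC iotaOne x := by
      refine mul_right_cancel₀ hqb ?_
      rw [hrep, ← hH, map_mul, map_pow, mul_comm]
    set X := qL (lvlOne M) H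
    let ir : Subfield ℂ := iotaOne.fieldRange
    have hpowmem : ∀ k, (X ^ ℓ).coeff k ∈ ir := fun k => by
      rw [hpow]
      exact ⟨(x : LaurentSeries Qbar).coeff k, rfl⟩
    have hX0 : X ≠ 0 := fun e => by
      rw [e, zero_pow hn] at hpow
      exact hxC hpow.symm
    have hlead : X.coeff X.order ∈ ir := by
      have hlp : ∀ j : ℕ, (X ^ j).leadingCoeff = X.leadingCoeff ^ j := fun j => by
        induction j with
        | zero => rw [pow_zero, pow_zero, HahnSeries.leadingCoeff_one]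
        | succ j ih => rw [pow_succ, pow_succ, HahnSeries.leadingCoeff_mul, ih]
      have h1 : (X ^ ℓ).leadingCoeff = X.coeff X.order ^ ℓ := by
        rw [hlp, HahnSeries.leadingCoeff_eq]
      obtain ⟨r, hr⟩ : (X ^ ℓ).leadingCoeff ∈ ir := by
        rw [HahnSeries.leadingCoeff_eq]; exact hpowmem _
      refine JTors.mem_range_of_isAlgebraic iotaOne (IsAlgebraic.of_pow (Nat.pos_of_ne_zero hn) ?_)
      rw [← h1, ← hr]
      have : Algebra.IsAlgebraic ℚ Qbar := AlgebraicClosure.isAlgebraic ℚ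
      exact (Algebra.IsAlgebraic.isAlgebraic r).algHom iotaOne.toRatAlgHom
    have hall := JTors.coeff_mem_of_pow_coeff_mem ir hn hlead hpowmem
    have hXmem : X ∈ laurentBaseChange ℂ (fieldOne M) := hM.eq ▸ qL_mem_fieldC _ H
    letI := iotaOne.toAlgebra
    obtain ⟨u, hu, huX⟩ :=
      JTors.exists_coeffMap_eq_of_mem (K := Qbar) (fieldOne M) hXmem hall
    refine ⟨⟨u, hu⟩, (toC iotaOne (F₀ := fieldOne M)).injective ?_⟩
    rw [map_pow, ← hpow]
    exact congrArg (· ^ ℓ) huX.symm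
  · rintro ⟨u, rfl⟩
    obtain ⟨A, B, hB, hAB⟩ := (mem_fieldC (L := lvlOne M)).1 (hM.toC_mem iotaOne u)
    have hfun : A ^ ℓ * toLvl b = toLvl a * B ^ ℓ := qL_injective (by
      rw [map_mul, map_mul, map_pow, map_pow, ← hrep, ← hAB, map_pow]; ring)
    have hA : A ≠ 0 := fun e => by
      rw [e, map_zero, mul_eq_zero] at hAB
      rcases hAB with hu | hu
      · rw [map_pow, hu, zero_pow hn] at hxC
        exact hxC rfl
      · exact (map_ne_zero_iff _ qL_injective).2 hB hu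
    have hBh : MDiff ((B : ℍ → ℂ) * h) := B.2.1.mul hh
    have hkey : ((B : ℍ → ℂ) * h) ^ ℓ = (A : ℍ → ℂ) ^ ℓ := by
      have e : (toLvl b : ℍ → ℂ) * (((B : ℍ → ℂ) * h) ^ ℓ - (A : ℍ → ℂ) ^ ℓ) = 0 := by
        funext τ
        have h1 := congrFun (congrArg Subtype.val hfun) τ
        simp only [Subalgebra.coe_mul, Subalgebra.coe_pow, Pi.mul_apply, Pi.pow_apply,
          coe_toLvl] at h1
        simp only [Pi.mul_apply, Pi.sub_apply, Pi.pow_apply, Pi.zero_apply, coe_toLvl, mul_pow]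
        linear_combination (B : ℍ → ℂ) τ ^ ℓ * he τ - h1
      rcases (UpperHalfPlane.mul_eq_zero_iff (toLvl b).2.1
        ((hBh.pow ℓ).sub (A.2.1.pow ℓ))).1 e with e | e
      · exact absurd e (coe_ne_zero hb)
      · exact sub_eq_zero.1 e
    obtain ⟨ζ, -, hζ⟩ := JTors.exists_const_mul_of_pow_eq hBh A.2.1 hn (coe_ne_zero hA)
      fun τ => congrFun hkey τ
    refine AddMonoidHom.ext fun γ => ?_
    obtain ⟨γ, rfl⟩ := Additive.ofMul.surjective γ
    refine ZMod.injective_stdAddChar ?_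
    rw [AddMonoidHom.zero_apply, AddChar.map_zero_eq_one]
    have hne : (B : ℍ → ℂ) * h ≠ 0 := fun e => by
      rcases (UpperHalfPlane.mul_eq_zero_iff B.2.1 hh).1 e with e | e
      · exact coe_ne_zero hB e
      · exact h0 e
    refine JTors.eq_of_smul_eq hne fun τ => ?_
    have hg : ((γ : SL(2, ℤ))) ∈ (lvlOne M).Gam := Or.inl γ.2
    have e1 := hζ ((γ : SL(2, ℤ)) • τ)
    have e2 := hζ τ
    simp only [Pi.mul_apply, smul_eq_of_mem_gam A.2 hg, smul_eq_of_mem_gam B.2 hg, ht γ τ]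
      at e1 e2 ⊢
    linear_combination e1 - e2

omit hM

omit [NeZero M] in
theorem conj_mem_Gamma1 {γ g : SL(2, ℤ)} (hγ : γ ∈ Gamma0 M) (hg : g ∈ Gamma1 M) :
    γ * g * γ⁻¹ ∈ Gamma1 M := by
  obtain ⟨-, hg1, hg0⟩ := (Gamma1_mem M g).1 hg
  have hg' : g ∈ Gamma0 M := Gamma0_mem.2 hg0
  refine mem_Gamma1_of_lowerRight (mul_mem (mul_mem hγ hg') (inv_mem hγ)) ?_
  rw [lowerRight_mul (mul_mem hγ hg'), lowerRight_mul hγ, hg1, mul_one, ← lowerRight_mul hγ,
    mul_inv_cancel]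
  simp

theorem isRootHomOne_dia (D : DiamondData M) {u : (ZMod M)ˣ} {γ : SL(2, ℤ)} (hγ : γ ∈ Gamma0 M)
    (hu : ((γ 1 1 : ℤ) : ZMod M) = u) {x : K1 M} {c c' : Additive (Gamma1 M) →+ ZMod ℓ}
    (hx : IsRootHomOne ℓ x c)
    (hc : ∀ a b : Gamma1 M, (b : SL(2, ℤ)) = γ * (a : SL(2, ℤ)) * γ⁻¹ →
      c' (Additive.ofMul a) = c (Additive.ofMul b)) :
    IsRootHomOne ℓ (D.dia u x) c' := by
  obtain ⟨h, a, b, hr, hh, h0, he, ht⟩ := hx
  obtain ⟨a', b', ha', hb', hr'⟩ := D.spec u γ hγ hu x a b hr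
  refine ⟨fun τ => h (γ • τ), a', b', hr', mdifferentiable_comp_smul hh γ, fun e => h0 ?_,
    fun τ => by rw [ha', hb', he], fun g τ => ?_⟩
  · funext τ
    simpa using congrFun e (γ⁻¹ • τ)
  · rw [hc g ⟨_, conj_mem_Gamma1 hγ g.2⟩ rfl, ← ht ⟨_, conj_mem_Gamma1 hγ g.2⟩ (γ • τ)]
    show h (γ • (g : SL(2, ℤ)) • τ) = h ((γ * (g : SL(2, ℤ)) * γ⁻¹) • γ • τ)
    rw [← mul_smul, ← mul_smul, inv_mul_cancel_right]

end FLTAgent.DS.Phi
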