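import Fermat.Agent.DS.Phi.ClassBasic
import Fermat.Agent.DS.Geom.FieldFun
import Fermat.Prelude.Thm_ModularCurve_coeffMap_qExpand

/-!
`T p` acts on the classes of parabolic homomorphisms by the transfer.
-/

set_option autoImplicit false

noncomputable section

open ModularCurve AlgebraicCurve CongruenceSubgroup Filter Topology
open UpperHalfPlane hiding I
open scoped MatrixGroups Manifold

namespace FLTAgent.DS.Phi

open ModPoly

local notation "Qbar" => AlgebraicClosure ℚ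
local notation "𝕢" => Function.Periodic.qParam

variable {M : ℕ} [NeZero M] {p : ℕ} [NeZero p]

/-! ### The product over the representatives -/

/-- The product over the representatives of `T p` on `Γ₁(M)`. -/
def tOne (p : ℕ) [NeZero p] (γp : SL(2, ℤ)) (F : ℍ → ℂ) : ℍ → ℂ :=
  fun τ => ∏ x, F (tRepOne p γp x • τ)

theorem tOne_eq_prod (γp : SL(2, ℤ)) (F : ℍ → ℂ) :
    tOne p γp F = ∏ x : Option (ZMod p), fun τ : ℍ => F (tRepOne p γp x • τ) := by
  funext τ; simp [tOne]

theorem mdiff_tOne (γp : SL(2, ℤ)) {F : ℍ → ℂ} (hF : MDiff F) : MDiff (tOne p γp F) := by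
  rw [tOne_eq_prod]
  exact MDifferentiable.prod fun x _ =>
    hF.comp (UpperHalfPlane.mdifferentiable_smul (tRepOne_det_pos p γp x))

theorem tOne_ne_zero (γp : SL(2, ℤ)) {F : ℍ → ℂ} (hF : MDiff F) (h0 : F ≠ 0) :
    tOne p γp F ≠ 0 := by
  intro h
  rw [tOne_eq_prod] at h
  obtain ⟨x, -, hx⟩ := (UpperHalfPlane.prod_eq_zero_iff fun x _ =>
    hF.comp (UpperHalfPlane.mdifferentiable_smul (tRepOne_det_pos p γp x))).1 h
  exact h0 (funext fun z => by simpa using congrFun hx ((tRepOne p γp x)⁻¹ • z))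

omit [NeZero M] in
/-- Transformation of the product. -/
theorem tOne_smul {γp : SL(2, ℤ)} {F : ℍ → ℂ} {e : Gamma1 M → ℂ}
    (hF : ∀ (γ : Gamma1 M) (z : ℍ), F ((γ : SL(2, ℤ)) • z) = e γ * F z) {γ : Gamma1 M}
    {σ : Equiv.Perm (Option (ZMod p))} {δ : Option (ZMod p) → Gamma1 M}
    (h : IsTransferOne (tRepOne p γp) γ σ δ) (z : ℍ) :
    tOne p γp F ((γ : SL(2, ℤ)) • z) = (∏ x, e (δ x)) * tOne p γp F z := by
  have hx : ∀ x, tRepOne p γp x • (γ : SL(2, ℤ)) • z =
      (δ x : SL(2, ℤ)) • tRepOne p γp (σ x) • z := fun x => by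
    rw [ModularGroup.sl_moeb, ModularGroup.sl_moeb, ← mul_smul, ← mul_smul, h x]
  simp only [tOne, hx, hF, Finset.prod_mul_distrib]
  congr 1
  exact Equiv.prod_comp σ (fun x => F (tRepOne p γp x • z))

theorem tOne_mem {γp : SL(2, ℤ)}
    (hT : ∀ γ : Gamma1 M, ∃ (σ : Equiv.Perm (Option (ZMod p))) (δ : Option (ZMod p) → Gamma1 M),
      IsTransferOne (tRepOne p γp) γ σ δ) (a : modFunRingOne M) :
    tOne p γp (a : ℍ → ℂ) ∈ funRing (lvlOne M) := by
  have hmd := mdiff_tOne (p := p) γp a.2.1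
  refine mem_funRing_of_isBounded hmd (fun γ hγ τ => ?_) fun δ => ?_
  · have hinv : ∀ g : Gamma1 M, ∀ z : ℍ,
        tOne p γp (a : ℍ → ℂ) ((g : SL(2, ℤ)) • z) = tOne p γp (a : ℍ → ℂ) z := fun g z => by
      obtain ⟨σ, ε, h⟩ := hT g
      have := tOne_smul (e := fun _ => 1) (F := (a : ℍ → ℂ))
        (fun g z => by simpa using a.2.2.1 g g.2 z) h z
      simpa using this
    rcases hγ with hγ | hγ
    · exact hinv ⟨γ, hγ⟩ τ
    · have := hinv ⟨-γ, hγ⟩ τ
      rwa [ModularGroup.SL_neg_smul] at this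
  · have : NeZero (M * p) := ⟨Nat.mul_ne_zero (NeZero.ne M) (NeZero.ne p)⟩
    have hmem : (∏ x : Option (ZMod p), fun z : ℍ =>
        (a : ℍ → ℂ) (tRepOne p γp x • δ • z)) ∈ expRing (M * p) := by
      refine prod_mem fun x _ => ?_
      have := Gen.comp_rep_mem_expRing (l := p) (g := fun z => (a : ℍ → ℂ) (shiftOne p γp x • z))
        (fun γ => by simpa only [mul_smul] using a.2.2.2 (shiftOne p γp x * γ)) x δ
      simpa only [tRepOne_eq, mul_smul, ← ModularGroup.sl_moeb] using this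
    obtain ⟨m, hm⟩ := exists_isBounded_of_mem_expRing hmem
    refine ⟨m, Asymptotics.IsBigO.trans (Asymptotics.isBigO_of_le _ fun z => ?_) hm⟩
    rw [norm_mul, norm_mul, norm_pow, norm_pow, Function.Periodic.norm_qParam,
      Function.Periodic.norm_qParam, show tOne p γp (a : ℍ → ℂ) (δ • z) =
        (∏ x : Option (ZMod p), fun z : ℍ => (a : ℍ → ℂ) (tRepOne p γp x • δ • z)) z by
          simp [tOne]]
    gcongr ?_ ^ _ * _
    rw [Real.exp_le_exp, neg_mul, neg_mul, neg_div, neg_div, neg_le_neg_iff]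
    refine div_le_div_of_nonneg_left (by positivity [z.im_pos]) (by exact_mod_cast NeZero.pos M) ?_
    exact_mod_cast Nat.le_mul_of_pos_right M (NeZero.pos p)

/-! ### Its expansion -/

theorem expands_prod {ι : Type*} {h : ℕ} [NeZero h] (s : Finset ι) {f : ι → ℍ → ℂ}
    {X : ι → LaurentSeries ℂ} (hf : ∀ i ∈ s, Expands h (f i) (X i)) :
    Expands h (∏ i ∈ s, f i) (∏ i ∈ s, X i) := by
  classical
  induction s using Finset.induction_on with
  | empty =>
    have e : (1 : LaurentSeries ℂ) = qLaurentHom h 1 := (map_one _).symm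
    rw [Finset.prod_empty, Finset.prod_empty, e, qLaurentHom_apply]
    exact expands_expSeries (1 : expRing h)
  | insert i t hi ih =>
    rw [Finset.prod_insert hi, Finset.prod_insert hi]
    exact (hf i (Finset.mem_insert_self i t)).mul
      (ih fun j hj => hf j (Finset.mem_insert_of_mem hj))

theorem prod_zmod_val {R : Type*} [CommMonoid R] (G : ℕ → R) :
    ∏ j : ZMod p, G j.val = ∏ i ∈ Finset.range p, G i :=
  Finset.prod_nbij' (fun j => j.val) (fun i => (i : ZMod p))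
    (fun j _ => Finset.mem_range.2 (ZMod.val_lt j)) (fun i _ => Finset.mem_univ _)
    (fun j _ => ZMod.natCast_zmod_val j)
    (fun i hi => ZMod.val_cast_of_lt (Finset.mem_range.1 hi)) (fun j _ => rfl)

theorem tendsto_rep_smul (x : Option (ZMod p)) :
    Tendsto (fun τ : ℍ => Periods.tRep p x • τ) atImInfty atImInfty := by
  rw [atImInfty, tendsto_comap_iff]
  have hp : (0 : ℝ) < p := by exact_mod_cast NeZero.pos p
  rcases x with _ | j
  · refine ((tendsto_comap (f := UpperHalfPlane.im) (x := atTop)).const_mul_atTop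
      (r := (p : ℝ)) hp).congr fun z => ?_
    show (p : ℝ) * z.im = ((Periods.tRep p none • z : ℍ) : ℂ).im
    rw [JTors.coe_tRep_none_smul (NeZero.ne p)]
    simp
  · refine ((tendsto_comap (f := UpperHalfPlane.im) (x := atTop)).const_mul_atTop
      (r := (p : ℝ)⁻¹) (inv_pos.2 hp)).congr fun z => ?_
    show (p : ℝ)⁻¹ * z.im = ((Periods.tRep p (some j) • z : ℍ) : ℂ).im
    rw [JTors.coe_tRep_some_smul (NeZero.ne p)]
    simp [Complex.div_natCast_im, inv_mul_eq_div, -ZMod.natCast_val]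

/-- The expansion of the product. -/
theorem expands_tOne {ζ : ℂˣ} (hζ : (ζ : ℂ) = Complex.exp (2 * Real.pi * Complex.I / p))
    (γp : SL(2, ℤ)) {F : ℍ → ℂ} {X Xd : LaurentSeries ℂ} (hF : Expands 1 F X)
    (hFd : Expands 1 (fun τ => F (γp • τ)) Xd) :
    Expands p (tOne p γp F)
      ((∏ j ∈ Finset.range p, twist (ζ ^ j) X) * qExpand ℂ (p * p) Xd) := by
  have hp : (p : ℂ) ≠ 0 := Nat.cast_ne_zero.2 (NeZero.ne p)
  have hnone : Expands p (fun τ => F (tRepOne p γp none • τ)) (qExpand ℂ (p * p) Xd) := by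
    have := hFd.comp_scale (h' := p) (k := p * p) 1 (tendsto_rep_smul (p := p) none) fun τ => by
      rw [JTors.coe_tRep_none_smul (NeZero.ne p), Units.val_one, one_mul,
        Function.Periodic.qParam, Function.Periodic.qParam, ← Complex.exp_nat_mul]
      congr 1
      push_cast
      field_simp
    refine (twist_one_unit Xd ▸ this).congr_fun' (Eventually.of_forall fun τ => ?_)
    simp only [tRepOne_eq, shiftOne, mul_smul, ← ModularGroup.sl_moeb]
  have hsome : ∀ j : ZMod p,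
      Expands p (fun τ => F (tRepOne p γp (some j) • τ)) (twist (ζ ^ j.val) X) := fun j => by
    have := hF.comp_scale (h' := p) (k := 1) (ζ ^ j.val) (tendsto_rep_smul (p := p) (some j))
      fun τ => by
        rw [JTors.coe_tRep_some_smul (NeZero.ne p), Units.val_pow_eq_pow_val, hζ, pow_one,
          Function.Periodic.qParam, Function.Periodic.qParam, ← Complex.exp_nat_mul,
          ← Complex.exp_add]
        congr 1
        push_cast
        field_simp
        ring
    rw [qExpand_one_apply] at this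
    refine this.congr_fun' (Eventually.of_forall fun τ => ?_)
    simp only [tRepOne_eq, shiftOne, map_one, one_mul]
  have h := expands_prod (Finset.univ : Finset (Option (ZMod p)))
    (X := fun x => x.elim (qExpand ℂ (p * p) Xd) fun j => twist (ζ ^ j.val) X)
    (f := fun x τ => F (tRepOne p γp x • τ)) fun x _ => by
      cases x with
      | none => exact hnone
      | some j => exact hsome j
  rw [Fintype.prod_option (f := fun x : Option (ZMod p) =>
      x.elim (qExpand ℂ (p * p) Xd) fun j => twist (ζ ^ j.val) X)] at h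
  simp only [Option.elim_none, Option.elim_some] at h
  rw [prod_zmod_val (fun i => twist (ζ ^ i) X), mul_comm] at h
  rw [tOne_eq_prod]
  exact h

omit [NeZero p] in
/-- A primitive root of unity in `Qbar` mapping to `exp (2 π i / p)`. -/
theorem exists_zeta (hp : p ≠ 0) :
    ∃ ζ : Qbarˣ, IsPrimitiveRoot ζ p ∧
      ((Units.map (iotaOne : Qbar →* ℂ) ζ : ℂˣ) : ℂ) =
        Complex.exp (2 * Real.pi * Complex.I / p) := by
  have hprim := Complex.isPrimitiveRoot_exp p hp
  have halg : IsAlgebraic ℚ (Complex.exp (2 * Real.pi * Complex.I / p)) := by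
    refine IsAlgebraic.of_pow (Nat.pos_of_ne_zero hp) ?_
    rw [hprim.pow_eq_one]
    exact isAlgebraic_one
  obtain ⟨z, hz⟩ := JTors.mem_range_of_isAlgebraic iotaOne halg
  have hzp : IsPrimitiveRoot z p :=
    IsPrimitiveRoot.of_map_of_injective (f := iotaOne) (hz ▸ hprim) iotaOne.injective
  refine ⟨Units.mk0 z (hzp.ne_zero hp), ?_, hz⟩
  exact IsPrimitiveRoot.coe_units_iff.1 hzp

/-- The series of the product, over `Qbar`. -/
def tSer (p : ℕ) [NeZero p] (ζ : Qbarˣ) (y yd : LaurentSeries Qbar) : LaurentSeries Qbar :=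
  twistProd p ζ y * qExpand Qbar (p * p) yd

theorem tSer_ne_zero (ζ : Qbarˣ) {y yd : LaurentSeries Qbar} (hy : y ≠ 0) (hyd : yd ≠ 0) :
    tSer p ζ y yd ≠ 0 :=
  mul_ne_zero (Finset.prod_ne_zero_iff.2 fun _ _ => (map_ne_zero _).2 hy) ((map_ne_zero _).2 hyd)

theorem tSer_mul (ζ : Qbarˣ) (x xd y yd : LaurentSeries Qbar) :
    tSer p ζ (x * y) (xd * yd) = tSer p ζ x xd * tSer p ζ y yd := by
  simp only [tSer, twistProd, map_mul, Finset.prod_mul_distrib]
  ring

/-- The product of a function with algebraic expansion, at level `±Γ₁(M)`. -/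
theorem qExpand_qL_tOne {γp : SL(2, ℤ)} {f fd : modFunRingOne M}
    (hfd : ∀ τ, (fd : ℍ → ℂ) τ = (f : ℍ → ℂ) (γp • τ)) {y yd : LaurentSeries Qbar}
    (hy : IsExpOne (f : ℍ → ℂ) y) (hyd : IsExpOne (fd : ℍ → ℂ) yd) {ζ : Qbarˣ}
    (hζ : ((Units.map (iotaOne : Qbar →* ℂ) ζ : ℂˣ) : ℂ) =
      Complex.exp (2 * Real.pi * Complex.I / p))
    (hmem : tOne p γp (f : ℍ → ℂ) ∈ funRing (lvlOne M)) :
    qExpand ℂ p (qL (lvlOne M) ⟨_, hmem⟩) = coeffMap iotaOne (tSer p ζ y yd) := by
  have h1 := expands_tOne (p := p) (F := (f : ℍ → ℂ)) hζ γp hy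
    (Xd := coeffMap iotaOne yd) (by
      have : (fd : ℍ → ℂ) = fun τ => (f : ℍ → ℂ) (γp • τ) := funext hfd
      exact this ▸ hyd)
  have h2 := (expands_qL (⟨_, hmem⟩ : funRing (lvlOne M))).width_mul (k := p)
  rw [one_mul] at h2
  rw [h2.unique h1, tSer, twistProd, map_mul, map_prod, coeffMap_qExpand]
  congr 1
  refine Finset.prod_congr rfl fun j _ => ?_
  rw [coeffMap_twist, map_pow]

/-! ### The statement -/

theorem isRootHomOne_hecke {ℓ : ℕ} [NeZero ℓ] (D : DiamondData M) (hp : p.Prime)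
    (hpM : p.Coprime M) {x y : K1 M} {c c' : Additive (Gamma1 M) →+ ZMod ℓ}
    (hx : IsRootHomOne ℓ x c) (hxy : IsTImage D p hpM x y) (hc : IsHeckeImageOne p c c') :
    IsRootHomOne ℓ y c' := by
  obtain ⟨h, a, b, hr, hh, h0, he, ht⟩ := hx
  obtain ⟨γp, hγ0, hγ1⟩ := exists_lowerRight_eq (M := M) hp (hp.coprime_iff_not_dvd.1 hpM)
  have hu : ((γp 1 1 : ℤ) : ZMod M) = (ZMod.unitOfCoprime p hpM : (ZMod M)ˣ) := by
    rw [hγ1, ZMod.coe_unitOfCoprime]
  obtain ⟨a₁, b₁, ha₁, hb₁, hr₁⟩ := D.spec _ γp hγ0 hu x a b hr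
  have hT : ∀ γ : Gamma1 M, ∃ (σ : Equiv.Perm (Option (ZMod p)))
      (δ : Option (ZMod p) → Gamma1 M), IsTransferOne (tRepOne p γp) γ σ δ := fun γ =>
    let ⟨σ, δ, h, _⟩ := hc γp hγ0 hγ1 γ
    ⟨σ, δ, h⟩
  set A : funRing (lvlOne M) := ⟨_, tOne_mem hT a⟩
  set B : funRing (lvlOne M) := ⟨_, tOne_mem hT b⟩
  obtain ⟨ya, yb, hyb0, hya, hyb, hxe⟩ := hr
  obtain ⟨ya₁, yb₁, hyb₁0, hya₁, hyb₁, hxe₁⟩ := hr₁
  obtain ⟨ζ, hζp, hζ⟩ := exists_zeta (p := p) hp.ne_zero
  have hA : qExpand ℂ p (qL _ A) = coeffMap iotaOne (tSer p ζ ya ya₁) :=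
    qExpand_qL_tOne ha₁ hya hya₁ hζ _
  have hB : qExpand ℂ p (qL _ B) = coeffMap iotaOne (tSer p ζ yb yb₁) :=
    qExpand_qL_tOne hb₁ hyb hyb₁ hζ _
  have hB0 : B ≠ 0 := fun e => by
    rw [e, map_zero, map_zero] at hB
    exact tSer_ne_zero ζ hyb0 hyb₁0 ((map_eq_zero (coeffMap iotaOne)).1 hB.symm)
  have hrep : RepOne y (ofLvl A) (ofLvl B) := by
    refine repOne_iff.2 ⟨hB0, fun k => ⟨(tSer p ζ yb yb₁).coeff ((p : ℤ) * k), ?_⟩, ?_⟩
    · have := congrArg (fun s => HahnSeries.coeff s ((p : ℤ) * k)) hB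
      simp only [qExpand_coeff_mul, coeffMap_coeff] at this
      exact this.symm
    · refine qExpand_injective (N := p) (R := ℂ) ?_
      show qExpand ℂ p (toC iotaOne y * qL _ B) = qExpand ℂ p (qL _ A)
      rw [map_mul, toC_apply, ← coeffMap_qExpand, hxy ζ hζp, hA, hB, ← map_mul, ← hxe, ← hxe₁,
        tSer_mul]
      rfl
  refine ⟨tOne p γp h, ofLvl A, ofLvl B, hrep, mdiff_tOne γp hh, tOne_ne_zero γp hh h0,
    fun τ => ?_, fun γ τ => ?_⟩
  · show tOne p γp (b : ℍ → ℂ) τ * tOne p γp h τ ^ ℓ = tOne p γp (a : ℍ → ℂ) τ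
    simp only [tOne, ← Finset.prod_pow, ← Finset.prod_mul_distrib, he]
  · obtain ⟨σ, δ, hσ, hsum⟩ := hc γp hγ0 hγ1 γ
    have e := tOne_smul (F := h) ht hσ τ
    simp only [← stdAddChar_eq_exp] at e ⊢
    rw [e, hsum]
    congr 1
    induction (Finset.univ : Finset (Option (ZMod p))) using Finset.induction_on with
    | empty => simp
    | insert i t hi ih =>
      rw [Finset.prod_insert hi, Finset.sum_insert hi, AddChar.map_add_eq_mul, ih]

end FLTAgent.DS.Phi
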