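import Fermat.Agent.DS.Phi.Root
import Fermat.Agent.DS.Phi.Bound

/-!
Conjugating the coefficients of `h ^ n` for a function `h` with character gives the `n`-th power of
another function with character.
-/

set_option autoImplicit false

noncomputable section

open ModularCurve AlgebraicCurve Filter Topology
open UpperHalfPlane hiding I
open scoped MatrixGroups Manifold

namespace FLTAgent.DS.Phi

open ModPoly Genus

/-- A quotient without poles is holomorphic. -/
theorem exists_mdiff_mul_eq {a b : ℍ → ℂ} (ha : MDiff a) (hb : MDiff b) (hb0 : b ≠ 0)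
    (h : ∀ z : ℍ, (diskSeries z b).order ≤ (diskSeries z a).order) :
    ∃ F : ℍ → ℂ, MDiff F ∧ F * b = a := by
  rcases eq_or_ne a 0 with rfl | ha0
  · exact ⟨0, mdifferentiable_const, zero_mul b⟩
  have hle : ∀ z : ℍ, analyticOrderNatAt (b ∘ ofComplex) (z : ℂ) ≤
      analyticOrderNatAt (a ∘ ofComplex) (z : ℂ) := fun z => by
    have := h z
    rw [JTors.order_diskSeries_eq z hb hb0, JTors.order_diskSeries_eq z ha ha0] at this
    exact_mod_cast this
  have htop : ∀ {f : ℍ → ℂ}, MDiff f → f ≠ 0 → ∀ z : ℍ,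
      analyticOrderAt (f ∘ ofComplex) (z : ℂ) ≠ ⊤ := by
    intro f hf hf0 z
    obtain ⟨w, hw⟩ := Function.ne_iff.1 hf0
    have han := JTors.analyticOnNhd_comp_ofComplex hf
    refine han.analyticOrderAt_ne_top_of_isPreconnected JTors.convex_halfPlane.isPreconnected
      w.im_pos z.im_pos ?_
    rw [(han _ w.im_pos).analyticOrderAt_eq_zero.2 (by simpa [ofComplex_apply] using hw)]
    simp
  set F : ℂ → ℂ := fun w => limUnder (𝓝[≠] w) ((a ∘ ofComplex) / (b ∘ ofComplex))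
  have key : ∀ z : ℍ, ∃ u : ℂ → ℂ, AnalyticAt ℂ u (z : ℂ) ∧ F =ᶠ[𝓝 (z : ℂ)] u ∧
      (a ∘ ofComplex) =ᶠ[𝓝 (z : ℂ)] u * (b ∘ ofComplex) := fun z => by
    obtain ⟨ua, hua, -, hae⟩ :=
      (JTors.analyticOnNhd_comp_ofComplex ha _ z.im_pos).analyticOrderAt_ne_top.1 (htop ha ha0 z)
    obtain ⟨ub, hub, hub0, hbe⟩ :=
      (JTors.analyticOnNhd_comp_ofComplex hb _ z.im_pos).analyticOrderAt_ne_top.1 (htop hb hb0 z)
    set ka := analyticOrderNatAt (a ∘ ofComplex) (z : ℂ)
    set kb := analyticOrderNatAt (b ∘ ofComplex) (z : ℂ)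
    have hk : kb ≤ ka := hle z
    set u : ℂ → ℂ := fun w => (w - z) ^ (ka - kb) * ua w / ub w
    have hu : AnalyticAt ℂ u (z : ℂ) :=
      (((analyticAt_id.sub analyticAt_const).pow _).mul hua).div hub hub0
    have hmul : (a ∘ ofComplex) =ᶠ[𝓝 (z : ℂ)] u * (b ∘ ofComplex) := by
      filter_upwards [hae, hbe, hub.continuousAt.eventually_ne hub0] with w e1 e2 e3
      rw [Pi.mul_apply, e1, e2, smul_eq_mul, smul_eq_mul]
      simp only [u]
      rw [show ka = (ka - kb) + kb by omega, pow_add, Nat.add_sub_cancel]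
      field_simp
    refine ⟨u, hu, ?_, hmul⟩
    filter_upwards [hmul.eventually_nhds, hu.eventually_analyticAt,
      (hbe.and (hub.continuousAt.eventually_ne hub0)).eventually_nhds] with w e1 e2 e3
    refine Filter.Tendsto.limUnder_eq ((e2.continuousAt.tendsto.mono_left nhdsWithin_le_nhds).congr'
      ?_)
    have hne : ∀ᶠ x in 𝓝[≠] w, x ≠ (z : ℂ) := by
      rcases eq_or_ne w (z : ℂ) with rfl | hw
      · exact eventually_mem_nhdsWithin
      · exact eventually_nhdsWithin_of_eventually_nhds (isOpen_ne.mem_nhds hw)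
    filter_upwards [eventually_nhdsWithin_of_eventually_nhds e1,
      eventually_nhdsWithin_of_eventually_nhds e3, hne] with x f1 f2 f3
    rw [Pi.div_apply, f1, Pi.mul_apply, mul_div_cancel_right₀]
    rw [f2.1, smul_eq_mul]
    exact mul_ne_zero (pow_ne_zero _ (sub_ne_zero.2 f3)) f2.2
  refine ⟨fun τ => F τ, ?_, funext fun τ => ?_⟩
  · rw [UpperHalfPlane.mdifferentiable_iff]
    intro w hw
    obtain ⟨u, hu, hFu, -⟩ := key ⟨w, hw⟩
    refine ((hu.congr hFu.symm).differentiableAt.congr_of_eventuallyEq ?_).differentiableWithinAt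
    filter_upwards [isOpen_upperHalfPlaneSet.mem_nhds hw] with x hx
    simp [Function.comp_apply, ofComplex_apply_of_im_pos hx]
  · obtain ⟨u, -, hFu, hmul⟩ := key τ
    have e1 := hFu.eq_of_nhds
    have e2 := hmul.eq_of_nhds
    simp only [Function.comp_apply, Pi.mul_apply, ofComplex_apply] at e2 ⊢
    rw [e1, e2]

variable {L : Lvl} {F₀ : IntermediateField ℚ (LaurentSeries ℚ)}
variable {K : Type*} [Field K] [IsAlgClosed K] [Algebra ℚ K]

theorem ord_jF_nonneg_iff (hM : IsModel L F₀) (v : Place K (laurentBaseChange K F₀)) {a : K}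
    (hv : 0 < v.ord (jF hM K - algebraMap K _ a)) : ¬ 0 < v.ord (jF hM K)⁻¹ := fun h =>
  absurd hv (not_lt.mpr (ord_sub_eq_of_ord_neg h a))

/-- The orders of a function of bounded growth at the places over finite values of `j`. -/
theorem ord_nonneg_of_charFun (hM : IsModel L F₀) (ι : K →+* ℂ) {g : funRing L}
    {y : laurentBaseChange K F₀} (hy : toC ι y = qL L g) (v : Place K (laurentBaseChange K F₀))
    (hv : 0 ≤ v.ord (jF hM K)) : 0 ≤ v.ord y := by
  rcases hM.exists_point_or_cusp ι v with ⟨a, z, q, k, -, -, hk⟩ | ⟨q, k, hc, -⟩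
  · have e := hk.2 y
    rw [expEmb_eq hM ι _ _ hy, pointHom_apply] at e
    exact nonneg_of_mul_nonneg_right (e ▸ order_diskSeries_nonneg z _) hk.1
  · rw [v.ord_inv] at hc
    omega

/-- The orders of a function of bounded growth at the places over `j = ∞`. -/
theorem mul_ord_le_of_charFun (hM : IsModel L F₀) (ι : K →+* ℂ) {g : funRing L} {m : ℕ}
    (hg : (g : ℍ → ℂ) ∈ CharFun (1 : L.Gam →* ℂˣ) m) (hg0 : g ≠ 0)
    {y : laurentBaseChange K F₀} (hy : toC ι y = qL L g) (v : Place K (laurentBaseChange K F₀))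
    (hv : v.ord (jF hM K) < 0) : (m : ℤ) * v.ord (jF hM K) ≤ v.ord y := by
  rcases hM.exists_point_or_cusp ι v with ⟨a, z, q, k, -, ha, -⟩ | ⟨q, k, -, hk⟩
  · exact absurd (show 0 < v.ord (jF hM K)⁻¹ by rw [v.ord_inv]; omega)
      (ord_jF_nonneg_iff hM v ha)
  · have e := hk.2 y
    have ej := hk.2 (jF hM K)
    rw [expEmb_eq hM ι _ _ hy] at e
    rw [expEmb_jF, cuspHom_jL, Genus.order_qExpand_jqModC] at ej
    have hb : -((m * L.N : ℕ) : ℤ) ≤ (qLAt L q.out⁻¹ g).order := le_order_qLAt hg hg0 _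
    refine le_of_mul_le_mul_left ?_ hk.1
    calc k * ((m : ℤ) * v.ord (jF hM K)) = (m : ℤ) * (k * v.ord (jF hM K)) := by ring
      _ = -((m * L.N : ℕ) : ℤ) := by rw [← ej]; push_cast; ring
      _ ≤ _ := hb
      _ = k * v.ord y := e

/-! ### Conjugation -/

/-- Coefficient conjugation of the field over `ℂ`. -/
def conjC (σ : ℂ ≃+* ℂ) : laurentBaseChange ℂ F₀ →+* laurentBaseChange ℂ F₀ :=
  ((coeffMap (σ : ℂ →+* ℂ)).comp (laurentBaseChange ℂ F₀).val.toRingHom).codRestrict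
    (laurentBaseChange ℂ F₀).toSubfield fun x =>
      JTors.coeffMap_mem_laurentBaseChange' F₀ (σ : ℂ →+* ℂ) x.2

theorem coe_conjC (σ : ℂ ≃+* ℂ) (x : laurentBaseChange ℂ F₀) :
    (conjC σ x : LaurentSeries ℂ) = coeffMap (σ : ℂ →+* ℂ) (x : LaurentSeries ℂ) := rfl

theorem conjC_algebraMap (σ : ℂ ≃+* ℂ) (c : ℂ) :
    conjC (F₀ := F₀) σ (algebraMap ℂ _ c) = algebraMap ℂ _ (σ c) := by
  apply Subtype.ext
  rw [coe_conjC]
  show coeffMap _ (algebraMap ℂ (LaurentSeries ℂ) c) = algebraMap ℂ (LaurentSeries ℂ) (σ c)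
  rw [algebraMap_laurentSeries_eq_single, coeffMap_single, algebraMap_laurentSeries_eq_single]
  rfl

theorem conjC_jF (σ : ℂ ≃+* ℂ) (hM : IsModel L F₀) : conjC σ (jF hM ℂ) = jF hM ℂ :=
  Subtype.ext (Genus.coeffMap_jqModC (σ : ℂ →+* ℂ))

theorem toC_id (x : laurentBaseChange ℂ F₀) :
    toC (RingHom.id ℂ) x = (x : LaurentSeries ℂ) := by
  rw [toC_apply, coeffMap_id]

/-- The properties of `h ^ n` which are stable under conjugation, transported. -/
theorem exists_conj_funRing (hM : IsModel L F₀) (σ : ℂ ≃+* ℂ) {n m : ℕ}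
    {χ : L.Gam →* ℂˣ} (hpar : TrivialEllPar χ) {h : ℍ → ℂ} (hh : h ∈ CharFun χ m)
    (hχn : χ ^ n = 1) {g : funRing L} (hg : (g : ℍ → ℂ) = h ^ n) (hg0 : g ≠ 0) :
    ∃ g' : funRing L, qL L g' = coeffMap (σ : ℂ →+* ℂ) (qL L g) ∧ g' ≠ 0 ∧ DvdLoc n g' ∧
      (g' : ℍ → ℂ) ∈ CharFun (1 : L.Gam →* ℂˣ) (m * n) := by
  have hgC : (g : ℍ → ℂ) ∈ CharFun (1 : L.Gam →* ℂˣ) (m * n) := by
    rw [hg, ← hχn]; exact pow_mem_charFun hh n
  set y : laurentBaseChange ℂ F₀ := ⟨qL L g, hM.eq ▸ qL_mem_fieldC L g⟩ with hydef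
  have hy : toC (RingHom.id ℂ) y = qL L g := toC_id y
  have hy0 : y ≠ 0 := fun e =>
    hg0 ((map_eq_zero_iff _ qL_injective).1 (by rw [← hy, e, map_zero]))
  set G := conjC σ y
  have hG : toC (RingHom.id ℂ) G = coeffMap (σ : ℂ →+* ℂ) (qL L g) := by
    rw [toC_id, coe_conjC]
  have hG0 : G ≠ 0 := (map_ne_zero _).2 hy0
  obtain ⟨a, b, hb, hab⟩ := hM.exists_frac (RingHom.id ℂ) G
  have hqb : qL L b ≠ 0 := (map_ne_zero_iff _ qL_injective).2 hb
  have ha : a ≠ 0 := by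
    rintro rfl
    rw [map_zero] at hab
    exact (mul_ne_zero ((map_ne_zero _).2 hG0) hqb) hab
  -- the place seen by an expansion map after conjugation
  have hind : ∀ (ψ : funRing L →ₐ[ℂ] LaurentSeries ℂ) (hψ : Function.Injective ψ)
      (_ : ∃ x : laurentBaseChange ℂ F₀,
        0 < (expEmb hM (RingHom.id ℂ) ψ hψ (conjC σ x)).order),
      ∃ (v : Place ℂ (laurentBaseChange ℂ F₀)) (k : ℤ), 0 < k ∧
        ∀ x, (expEmb hM (RingHom.id ℂ) ψ hψ (conjC σ x)).order = k * v.ord x := by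
    intro ψ hψ hx
    have hover : Over (σ : ℂ →+* ℂ) ((expEmb hM (RingHom.id ℂ) ψ hψ).comp (conjC σ)) := fun c => by
      rw [RingHom.comp_apply, conjC_algebraMap]
      exact over_expEmb hM _ ψ hψ (σ c)
    obtain ⟨k, hk⟩ := exists_induces_placeOfEmb _ hover hx
    exact ⟨_, k, hk⟩
  have hquot : ∀ (ψ : funRing L →ₐ[ℂ] LaurentSeries ℂ) (hψ : Function.Injective ψ)
      (x : laurentBaseChange ℂ F₀), x ≠ 0 → ∃ c d : funRing L, c ≠ 0 ∧ d ≠ 0 ∧
        (expEmb hM (RingHom.id ℂ) ψ hψ x).order = (ψ c).order - (ψ d).order := by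
    intro ψ hψ x hx
    obtain ⟨c, d, hd, hcd⟩ := hM.exists_frac (RingHom.id ℂ) x
    have hc : c ≠ 0 := by
      rintro rfl
      rw [map_zero] at hcd
      exact (mul_ne_zero ((map_ne_zero _).2 hx) ((map_ne_zero_iff _ qL_injective).2 hd)) hcd
    refine ⟨c, d, hc, hd, ?_⟩
    have e := congrArg HahnSeries.order (expEmb_mul hM _ ψ hψ hcd)
    rw [HahnSeries.order_mul ((map_ne_zero _).2 hx) ((map_ne_zero_iff _ hψ).2 hd)] at e
    linarith
  have hdvd : ∀ (ψ : funRing L →ₐ[ℂ] LaurentSeries ℂ) (hψ : Function.Injective ψ)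
      (v : Place ℂ (laurentBaseChange ℂ F₀)) (k : ℤ),
      (∀ x, (expEmb hM (RingHom.id ℂ) ψ hψ (conjC σ x)).order = k * v.ord x) →
      ∃ c d : funRing L, c ≠ 0 ∧ d ≠ 0 ∧
        (expEmb hM (RingHom.id ℂ) ψ hψ G).order = n * ((ψ c).order - (ψ d).order) := by
    intro ψ hψ v k hk
    obtain ⟨e, he⟩ := dvd_ord_of_charFun hM (RingHom.id ℂ) hpar hh hg hy v
    obtain ⟨π, hπ0, hπ⟩ := Genus.exists_ord_eq_one v
    obtain ⟨c, d, hc, hd, hcd⟩ := hquot ψ hψ (conjC σ (π ^ e))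
      ((map_ne_zero _).2 (zpow_ne_zero _ hπ0))
    refine ⟨c, d, hc, hd, ?_⟩
    rw [← hcd, hk, hk, v.ord_zpow, hπ, he]
    ring
  -- points
  have hpt : ∀ z : ℍ, 0 ≤ (expEmb hM (RingHom.id ℂ) (diskHom (funRing L) (fun _ h => h.1) z)
      (diskHom_injective _ _ z) G).order ∧ ∃ c d : funRing L, c ≠ 0 ∧ d ≠ 0 ∧
        (expEmb hM (RingHom.id ℂ) (diskHom (funRing L) (fun _ h => h.1) z)
          (diskHom_injective _ _ z) G).order =
        n * ((diskSeries z (c : ℍ → ℂ)).order - (diskSeries z (d : ℍ → ℂ)).order) := by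
    intro z
    have hψ := diskHom_injective (funRing L) (fun _ h => h.1) z
    set ψ := diskHom (funRing L) (fun _ h => h.1) z
    have hjc : ∀ a' : ℂ, conjC σ (jF hM ℂ - algebraMap ℂ _ a') =
        jF hM ℂ - algebraMap ℂ _ (σ a') := fun a' => by rw [map_sub, conjC_jF, conjC_algebraMap]
    have hval : (expEmb hM (RingHom.id ℂ) ψ hψ
        (conjC σ (jF hM ℂ - algebraMap ℂ _ (σ.symm (jFun z))))).order = jMult (jFun z) := by
      rw [hjc, σ.apply_symm_apply, map_sub, expEmb_jF, over_expEmb hM _ ψ hψ, RingHom.id_apply]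
      show (diskSeries z jFun - HahnSeries.single 0 (jFun z)).order = _
      rw [Genus.diskSeries_sub_const]
      exact order_diskSeries_jFun_sub z
    obtain ⟨v, k, hk0, hk⟩ := hind ψ hψ ⟨_, by rw [hval]; exact_mod_cast jMult_pos _⟩
    refine ⟨?_, hdvd ψ hψ v k hk⟩
    rw [hk]
    refine mul_nonneg hk0.le (ord_nonneg_of_charFun hM (RingHom.id ℂ) hy v ?_)
    have e := hk (jF hM ℂ)
    rw [conjC_jF, expEmb_jF] at e
    exact nonneg_of_mul_nonneg_right (e ▸ order_diskSeries_nonneg z _) hk0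
  -- cusps
  have hcu : ∀ δ : SL(2, ℤ), -((m * n * L.N : ℕ) : ℤ) ≤
      (expEmb hM (RingHom.id ℂ) (qLAt L δ) (qLAt_injective δ) G).order ∧
      ∃ c d : funRing L, c ≠ 0 ∧ d ≠ 0 ∧
        (expEmb hM (RingHom.id ℂ) (qLAt L δ) (qLAt_injective δ) G).order =
        n * ((qLAt L δ c).order - (qLAt L δ d).order) := by
    intro δ
    have hj : (expEmb hM (RingHom.id ℂ) (qLAt L δ) (qLAt_injective δ)
        (conjC σ (jF hM ℂ))).order = -(L.N : ℤ) := by
      rw [conjC_jF, expEmb_jF]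
      have e : qLAt L δ (jL L) = qExpand ℂ L.N (jqModC ℂ) := by
        refine qLAt_eq_of_expands ?_
        show Expands L.N (fun τ => jFun (δ • τ)) _
        simp only [jFun_smul]
        simpa using expands_jFun.width_mul (k := L.N)
      rw [e, Genus.order_qExpand_jqModC]
    obtain ⟨v, k, hk0, hk⟩ := hind (qLAt L δ) (qLAt_injective δ) ⟨(jF hM ℂ)⁻¹, by
      rw [map_inv₀, map_inv₀, order_inv', hj, neg_neg]
      exact_mod_cast NeZero.pos L.N⟩
    refine ⟨?_, hdvd _ _ v k hk⟩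
    rw [hk] at hj ⊢
    have hneg : v.ord (jF hM ℂ) < 0 := by
      by_contra hnn
      push Not at hnn
      have := mul_nonneg hk0.le hnn
      have : (0 : ℤ) < L.N := by exact_mod_cast NeZero.pos L.N
      omega
    have hle := mul_le_mul_of_nonneg_left
      (mul_ord_le_of_charFun hM (RingHom.id ℂ) hgC hg0 hy v hneg) hk0.le
    refine le_trans (le_of_eq ?_) hle
    rw [show k * (((m * n : ℕ) : ℤ) * v.ord (jF hM ℂ)) =
      ((m * n : ℕ) : ℤ) * (k * v.ord (jF hM ℂ)) by ring, hj]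
    push_cast
    ring
  -- the function
  obtain ⟨F, hF, hFb⟩ := exists_mdiff_mul_eq a.2.1 b.2.1 (coe_ne_zero hb) fun z => by
    have e := congrArg HahnSeries.order
      (expEmb_mul hM (RingHom.id ℂ) (diskHom (funRing L) (fun _ h => h.1) z)
        (diskHom_injective _ _ z) hab)
    rw [HahnSeries.order_mul ((map_ne_zero _).2 hG0)
      ((map_ne_zero_iff _ (diskHom_injective _ _ z)).2 hb)] at e
    have := (hpt z).1
    rw [diskHom_apply, diskHom_apply] at e
    linarith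
  have hFb' : ∀ τ, F τ * (b : ℍ → ℂ) τ = (a : ℍ → ℂ) τ := fun τ => congrFun hFb τ
  have hFmem : F ∈ funRing L := by
    refine ⟨hF, fun γ hγ τ => ?_, fun δ => ?_⟩
    · have e : ((fun τ => F (γ • τ)) - F) * (b : ℍ → ℂ) = 0 := by
        funext w
        simp only [Pi.mul_apply, Pi.sub_apply, Pi.zero_apply, sub_mul]
        rw [hFb' w]
        nth_rewrite 1 [← smul_eq_of_mem_gam b.2 hγ w]
        rw [hFb', smul_eq_of_mem_gam a.2 hγ w, sub_self]
      rcases (UpperHalfPlane.mul_eq_zero_iff ((ModPoly.mdifferentiable_comp_smul hF γ).sub hF)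
        b.2.1).1 e with h1 | h1
      · exact congrFun (sub_eq_zero.1 h1) τ
      · exact absurd h1 (coe_ne_zero hb)
    · have hXb : qLAt L δ b ≠ 0 := (map_ne_zero_iff _ (qLAt_injective δ)).2 hb
      refine Expands.mem_expRing (((expands_qLAt δ a).mul ((expands_qLAt δ b).inv hXb)).congr_fun'
        ?_)
      have hne : ∀ᶠ τ in atImInfty, (b : ℍ → ℂ) (δ • τ) ≠ 0 := by
        have h1 := ((expands_qLAt δ b).inv hXb).mul (expands_qLAt δ b)
        rw [inv_mul_cancel₀ hXb] at h1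
        have h2 := JTors.tendsto_of_expands_order_zero h1 one_ne_zero HahnSeries.order_one
        filter_upwards [h2.1.eventually_ne h2.2] with τ hτ h0
        exact hτ (by simp only [Pi.mul_apply, Pi.inv_apply, h0, mul_zero])
      filter_upwards [hne] with τ hτ
      simp only [Pi.mul_apply, Pi.inv_apply, ← hFb' (δ • τ)]
      field_simp
  set g' : funRing L := ⟨F, hFmem⟩
  have hgb : g' * b = a := Subtype.ext hFb
  have hq : qL L g' = coeffMap (σ : ℂ →+* ℂ) (qL L g) := by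
    rw [← hG]
    refine mul_right_cancel₀ hqb ?_
    rw [← map_mul, hgb, hab]
  have hq' : toC (RingHom.id ℂ) G = qL L g' := hG.trans hq.symm
  refine ⟨g', hq, fun e => hG0 ((map_eq_zero (toC (RingHom.id ℂ))).1 (by rw [hq', e, map_zero])),
    ⟨fun z => ?_, fun δ => ?_⟩, hF, fun γ z => by simpa using hFmem.2.1 γ γ.2 z, fun δ => ?_⟩
  · obtain ⟨c, d, hc, hd, hcd⟩ := (hpt z).2
    rw [expEmb_eq hM _ _ _ hq', diskHom_apply] at hcd
    exact ⟨c, d, hc, hd, hcd⟩
  · obtain ⟨c, d, hc, hd, hcd⟩ := (hcu δ).2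
    rw [expEmb_eq hM _ _ _ hq'] at hcd
    exact ⟨c, d, hc, hd, hcd⟩
  · refine isBoundedAtImInfty_mul_disc (g := g') (m := m * n) ?_
    have := (hcu δ).1
    rwa [expEmb_eq hM _ _ _ hq'] at this

end FLTAgent.DS.Phi
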