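import Fermat.Agent.DS.Phi.Conj
import Fermat.Agent.JTors.SeriesDescent
import Fermat.Agent.Periods.Structure

/-!
For every character of finite order, trivial on elliptic and parabolic elements, some function
transforming by it has an `n`-th power in the field with algebraic constants.
-/

set_option autoImplicit false

noncomputable section

open ModularCurve AlgebraicCurve Filter Topology
open UpperHalfPlane hiding I
open scoped MatrixGroups Manifold

namespace FLTAgent.DS.Phi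

open ModPoly

local notation "Qbar" => AlgebraicClosure ℚ

variable {L : Lvl} {n : ℕ}

theorem finite_char (L : Lvl) (hn : n ≠ 0) :
    {χ : L.Gam →* ℂˣ | ∀ γ, χ γ ^ n = 1}.Finite := by
  have := Periods.sl2z_fg
  obtain ⟨S, hS⟩ := (Subgroup.fg_of_index_ne_zero L.Gam : Group.FG L.Gam).out
  have hfin : {u : ℂˣ | u ^ n = 1}.Finite := by
    have : {z : ℂ | z ^ n = 1}.Finite :=
      ((Polynomial.nthRoots n (1 : ℂ)).toFinset.finite_toSet).subset fun x hx => by
        simpa [Polynomial.mem_nthRoots (Nat.pos_of_ne_zero hn)] using hx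
    refine (this.preimage (f := ((↑) : ℂˣ → ℂ)) Units.val_injective.injOn).subset fun u hu => ?_
    have : (u : ℂ) ^ n = 1 := by
      rw [← Units.val_pow_eq_pow_val, show u ^ n = 1 from hu, Units.val_one]
    exact this
  have hpi := Set.Finite.pi' (t := fun _ : S => {u : ℂˣ | u ^ n = 1}) fun _ => hfin
  refine Set.Finite.of_finite_image (f := fun χ => fun s : S => χ (s : L.Gam))
    (hpi.subset ?_) ?_
  · rintro _ ⟨χ, hχ, rfl⟩ s
    exact hχ _
  · intro χ _ ψ _ h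
    exact MonoidHom.eq_of_eqOn_dense hS fun s hs => congrFun h ⟨s, hs⟩

theorem charFun_pow_eq_one {χ : L.Gam →* ℂˣ} (h : ∀ γ, χ γ ^ n = 1) : χ ^ n = 1 :=
  MonoidHom.ext fun γ => by simpa using h γ

theorem qL_eq_charExp_pow {χ : L.Gam →* ℂˣ} (hχ : TrivialAtInf χ) {m : ℕ} (h : CharFun χ m)
    {g : funRing L} (hg : (g : ℍ → ℂ) = (h : ℍ → ℂ) ^ n) : qL L g = charExp hχ m h ^ n :=
  qL_eq_of_expands (by rw [hg]; exact (expands_charExp hχ h).pow n)

variable {F₀ : IntermediateField ℚ (LaurentSeries ℚ)}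

/-- The conjugate of the expansion of a function with character is one such. -/
theorem exists_conj_charFun (hM : IsModel L F₀) (σ : ℂ ≃+* ℂ) (hn : n ≠ 0)
    {χ : L.Gam →* ℂˣ} (hpar : TrivialEllPar χ) (hχn : χ ^ n = 1) (h : CharFun χ 1)
    (h0 : h ≠ 0) :
    ∃ (χ' : L.Gam →* ℂˣ) (hpar' : TrivialEllPar χ'), χ' ^ n = 1 ∧
      coeffMap (σ : ℂ →+* ℂ) (charExp hpar.atInf 1 h) ∈
        LinearMap.range (charExp hpar'.atInf 1) := by
  set X := charExp hpar.atInf 1 h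
  have hX0 : X ≠ 0 := (map_ne_zero_iff _ (charExp_injective hpar.atInf 1)).2 h0
  set g : funRing L := ⟨_, pow_mem_funRing h.2 hχn⟩
  have hgq : qL L g = X ^ n := qL_eq_charExp_pow hpar.atInf h rfl
  have hg0 : g ≠ 0 := fun e => by
    rw [e, map_zero] at hgq
    exact pow_ne_zero n hX0 hgq.symm
  obtain ⟨g', hq, hg'0, hd, hg'C⟩ := exists_conj_funRing hM σ hpar h.2 hχn (g := g) rfl hg0
  obtain ⟨f, hf, hfn⟩ := JTors.exists_root (mdiff_coe g') (coe_ne_zero hg'0) hn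
    (hd.dvd_analyticOrder hg'0)
  have hf0 : f ≠ 0 := fun e =>
    coe_ne_zero hg'0 (funext fun z => by rw [← hfn, e]; simp [zero_pow hn])
  obtain ⟨χ', hχ'n, hχ'⟩ := exists_rootChar hf hf0 hn fun γ z => by
    rw [hfn, hfn, smul_eq_of_mem_gam g'.2 γ.2]
  have hpar' := trivialEllPar_of_dvdLoc hn hf hχ' hg'0 hfn hd
  have hmem : f ∈ CharFun χ' 1 := by
    refine ⟨hf, hχ', fun δ => isBoundedAtImInfty_of_pow hn ?_⟩
    have := hg'C.2.2 δ
    rw [one_mul] at this
    simpa only [mul_pow, hfn, pow_one] using this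
  set X' := charExp hpar'.atInf 1 ⟨f, hmem⟩
  set Y := coeffMap (σ : ℂ →+* ℂ) X
  have hpow : X' ^ n = Y ^ n := by
    rw [← qL_eq_charExp_pow hpar'.atInf ⟨f, hmem⟩ (g := g') (funext fun z => (hfn z).symm),
      hq, hgq, map_pow]
  have hY0 : Y ≠ 0 := (map_ne_zero_iff _ (RingHom.injective _)).2 hX0
  have hX'0 : X' ≠ 0 := fun e => by
    rw [e, zero_pow hn] at hpow
    exact pow_ne_zero n hY0 hpow.symm
  have := NeZero.mk hn
  obtain ⟨μ, hμ⟩ := HasEnoughRootsOfUnity.exists_primitiveRoot ℂ n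
  obtain ⟨i, -, hi⟩ := (hμ.map_of_injective (f := algebraMap ℂ (LaurentSeries ℂ))
    (RingHom.injective _)).eq_pow_of_pow_eq_one (ξ := Y / X')
    (by rw [div_pow, hpow, div_self (pow_ne_zero n hY0)])
  refine ⟨χ', hpar', charFun_pow_eq_one hχ'n, μ ^ i • ⟨f, hmem⟩, ?_⟩
  rw [map_smul, ← HahnSeries.C_mul_eq_smul,
    show HahnSeries.C (μ ^ i) = algebraMap ℂ (LaurentSeries ℂ) (μ ^ i) by
      rw [algebraMap_laurentSeries_eq_single]; rfl,
    map_pow, hi, div_mul_cancel₀ _ hX'0]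

/-- A function with character `χ` whose `n`-th power has algebraic coefficients and divisor
divisible by `n`. -/
theorem exists_rational_charFun (hM : IsModel L F₀) (hn : n ≠ 0) (ι : Qbar →+* ℂ)
    {χ : L.Gam →* ℂˣ} (hpar : TrivialEllPar χ) (hχn : χ ^ n = 1) :
    ∃ h ∈ CharFun χ 1, h ≠ 0 ∧ ∃ g : funRing L, (g : ℍ → ℂ) = h ^ n ∧ g ≠ 0 ∧
      ∃ y : laurentBaseChange Qbar F₀, toC ι y = qL L g ∧
        ∀ v : Place Qbar (laurentBaseChange Qbar F₀), (n : ℤ) ∣ v.ord y := by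
  let Idx := {ψ : L.Gam →* ℂˣ // ψ ^ n = 1 ∧ TrivialEllPar ψ}
  have hfinite : Finite Idx := by
    refine Set.finite_coe_iff.2 ((finite_char L hn).subset fun ψ hψ γ => ?_)
    have := DFunLike.congr_fun hψ.1 γ
    simpa using this
  let V : Idx → Submodule ℂ (LaurentSeries ℂ) := fun ψ => LinearMap.range (charExp ψ.2.2.atInf 1)
  have hnorm : ∀ ψ : Idx, ∀ γ, ‖(ψ.1 γ : ℂ)‖ = 1 := fun ψ γ =>
    norm_eq_one_of_pow hn (fun γ => by simpa using DFunLike.congr_fun ψ.2.1 γ) γ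
  have hne : ∀ ψ, V ψ ≠ ⊥ := fun ψ hb => by
    obtain ⟨h, hh, h0⟩ := exists_charFun_ne_zero ψ.2.2.atInf (hnorm ψ)
    have hm : charExp ψ.2.2.atInf 1 ⟨h, hh⟩ ∈ V ψ := ⟨_, rfl⟩
    rw [hb, Submodule.mem_bot, map_eq_zero_iff _ (charExp_injective _ _)] at hm
    exact h0 (congrArg Subtype.val hm)
  have hdisj : ∀ i j, i ≠ j → V i ⊓ V j = ⊥ := fun i j hij => by
    refine (Submodule.eq_bot_iff _).2 fun H hH => ?_
    obtain ⟨⟨a, rfl⟩, ⟨b, hb⟩⟩ := hH
    by_contra h0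
    have hab : (a : ℍ → ℂ) = b :=
      eq_of_expands a.2.1 b.2.1 (expands_charExp _ a) (hb ▸ expands_charExp _ b)
    refine hij (Subtype.ext (char_unique (fun e => h0 ?_) a.2.2.1
      (fun γ z => by rw [hab]; exact b.2.2.1 γ z)))
    rw [show a = 0 from Subtype.ext e, map_zero]
  have hbdd : ∀ ψ, ∃ B : ℤ, ∀ H ∈ V ψ, H ≠ 0 → H.order ≤ B := fun ψ =>
    ⟨Fintype.card (Cst L), by
      rintro _ ⟨a, rfl⟩ hH
      set g : funRing L := ⟨_, pow_mem_funRing a.2 ψ.2.1⟩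
      have hgq : qL L g = charExp ψ.2.2.atInf 1 a ^ n := qL_eq_charExp_pow _ a rfl
      have hg0 : g ≠ 0 := fun e => by
        rw [e, map_zero] at hgq
        exact pow_ne_zero n hH hgq.symm
      have hgC : (g : ℍ → ℂ) ∈ CharFun (1 : L.Gam →* ℂˣ) (1 * n) :=
        ψ.2.1 ▸ pow_mem_charFun a.2 n
      have := order_qL_le hgC hg0
      rw [hgq, HahnSeries.order_pow, nsmul_eq_mul, one_mul, Nat.cast_mul, mul_comm] at this
      exact le_of_mul_le_mul_right this (by exact_mod_cast Nat.pos_of_ne_zero hn)⟩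
  have hstab : ∀ (σ : ℂ ≃+* ℂ) (i : Idx), ∀ H ∈ V i, ∃ j, coeffMap (σ : ℂ →+* ℂ) H ∈ V j := by
    rintro σ i _ ⟨a, rfl⟩
    rcases eq_or_ne a 0 with rfl | ha
    · exact ⟨i, by simp⟩
    obtain ⟨χ', hpar', hn', hm⟩ := exists_conj_charFun hM σ hn i.2.2 i.2.1 a ha
    exact ⟨⟨χ', hn', hpar'⟩, hm⟩
  obtain ⟨_, ⟨h, rfl⟩, hH0, halg⟩ :=
    JTors.exists_algebraic_mem V hne hdisj hbdd hstab ⟨χ, hχn, hpar⟩
  have h0 : h ≠ 0 := fun e => hH0 (by rw [e, map_zero])
  set g : funRing L := ⟨_, pow_mem_funRing h.2 hχn⟩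
  have hgq : qL L g = charExp hpar.atInf 1 h ^ n := qL_eq_charExp_pow _ h rfl
  let ir : Subfield ℂ := ι.fieldRange
  have hcoeff : ∀ k, (qL L g).coeff k ∈ Set.range ι := by
    intro k
    rw [hgq]
    have hmulK : ∀ {P Q : LaurentSeries ℂ}, (∀ k, P.coeff k ∈ ir) → (∀ k, Q.coeff k ∈ ir) →
        ∀ k, (P * Q).coeff k ∈ ir := by
      intro P Q hP hQ k
      rw [HahnSeries.coeff_mul]
      exact sum_mem fun ij _ => mul_mem (hP _) (hQ _)
    have : ∀ (m : ℕ) k, (charExp hpar.atInf 1 h ^ m).coeff k ∈ ir := by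
      intro m
      induction m with
      | zero =>
        intro k; rw [pow_zero, HahnSeries.coeff_one]; split_ifs
        · exact one_mem _
        · exact zero_mem _
      | succ m ih =>
        rw [pow_succ]
        exact hmulK ih fun k => JTors.mem_range_of_isAlgebraic ι (halg k)
    exact this n k
  have hmem : qL L g ∈ laurentBaseChange ℂ F₀ := hM.eq ▸ qL_mem_fieldC L g
  letI := ι.toAlgebra
  obtain ⟨y, hy, hyx⟩ := JTors.exists_coeffMap_eq_of_mem (K := Qbar) F₀ hmem hcoeff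
  refine ⟨h, h.2, fun e => h0 (Subtype.ext e), g, rfl, fun e => ?_, ⟨y, hy⟩, hyx,
    fun v => dvd_ord_of_charFun hM ι hpar h.2 rfl hyx v⟩
  rw [e, map_zero] at hgq
  exact pow_ne_zero n hH0 hgq.symm

end FLTAgent.DS.Phi
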