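import Fermat.Agent.DS.Phi.Interp
import Fermat.Agent.Hecke.DegMaps
import Fermat.Agent.JTors.FieldDescent
import Fermat.Agent.Genus.RamHelpers

/-!
The field of modular functions of level `L` over an algebraically closed field of constants
`K ⊆ ℂ`, for a model `F₀ ⊆ ℚ((q))` of `fieldC L`.
-/

set_option autoImplicit false

noncomputable section

open ModularCurve AlgebraicCurve Polynomial
open scoped IntermediateField

namespace FLTAgent.DS.Phi

open ModPoly

/-- `F₀` is a rational model of `fieldC L`. -/
structure IsModel (L : Lvl) (F₀ : IntermediateField ℚ (LaurentSeries ℚ)) : Prop where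
  eq : laurentBaseChange ℂ F₀ = fieldC L

variable {L : Lvl} {F₀ : IntermediateField ℚ (LaurentSeries ℚ)}
variable {K : Type*} [Field K] [Algebra ℚ K]

theorem mem_of_coeffEmb_mem {y : LaurentSeries ℚ} (hy : coeffEmb ℂ y ∈ laurentBaseChange ℂ F₀) :
    y ∈ F₀ := by
  obtain ⟨z, hz, hzy⟩ := JTors.exists_coeffMap_eq_of_mem (K := ℚ) F₀ hy fun k =>
    ⟨y.coeff k, (coeffEmb_coeff ℂ y k).symm⟩
  have hzy' : z = y := by
    refine (coeffMap (algebraMap ℚ ℂ)).injective ?_
    rw [hzy]; rfl
  subst hzy'
  have hid : ∀ x : LaurentSeries ℚ, coeffEmb ℚ x = x := fun x => by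
    ext k
    rw [coeffEmb_coeff]
    rfl
  rw [mem_laurentBaseChange_iff] at hz
  refine Subfield.closure_le (t := F₀.toSubfield) |>.2 ?_ hz
  rintro _ (⟨c, rfl⟩ | ⟨w, hw, rfl⟩)
  · exact F₀.algebraMap_mem c
  · rw [hid]; exact hw

theorem IsModel.jq_mem (hM : IsModel L F₀) : jq ∈ F₀ := by
  refine mem_of_coeffEmb_mem ?_
  rw [Hecke.coeffEmb_jq, hM.eq]
  exact jqModC_mem_fieldC L

theorem IsModel.jqModC_mem (hM : IsModel L F₀) (K : Type*) [Field K] [Algebra ℚ K] :
    jqModC K ∈ laurentBaseChange K F₀ := by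
  rw [← Hecke.coeffEmb_jq]
  exact coeffEmb_mem_laurentBaseChange K hM.jq_mem

/-- `j` in the field. -/
def jF (hM : IsModel L F₀) (K : Type*) [Field K] [Algebra ℚ K] : laurentBaseChange K F₀ :=
  ⟨jqModC K, hM.jqModC_mem K⟩

theorem coe_jF (hM : IsModel L F₀) :
    ((jF hM K : laurentBaseChange K F₀) : LaurentSeries K) = jqModC K := rfl

theorem transcendental_jF (hM : IsModel L F₀) : Transcendental K (jF hM K) := by
  intro h
  obtain ⟨p, hp, hp0⟩ := h
  refine hp (aeval_jqModC_injective K ?_)
  rw [map_zero]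
  have := congrArg (laurentBaseChange K F₀).val hp0
  rw [← aeval_algHom_apply, map_zero] at this
  exact this

/-- Coefficientwise embedding into `ℂ((q))`. -/
def toC (ι : K →+* ℂ) : laurentBaseChange K F₀ →+* LaurentSeries ℂ :=
  (coeffMap ι).comp (laurentBaseChange K F₀).val.toRingHom

theorem toC_apply (ι : K →+* ℂ) (f : laurentBaseChange K F₀) :
    toC ι f = coeffMap ι (f : LaurentSeries K) := rfl

theorem toC_jF (hM : IsModel L F₀) (ι : K →+* ℂ) : toC ι (jF hM K) = jqModC ℂ :=
  Genus.coeffMap_jqModC ι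

theorem toC_algebraMap (ι : K →+* ℂ) (c : K) :
    toC ι (algebraMap K (laurentBaseChange K F₀) c) = algebraMap ℂ (LaurentSeries ℂ) (ι c) := by
  rw [toC_apply]
  show coeffMap ι (algebraMap K (LaurentSeries K) c) = _
  rw [algebraMap_laurentSeries_eq_single, coeffMap_single, algebraMap_laurentSeries_eq_single]

theorem IsModel.toC_mem (hM : IsModel L F₀) (ι : K →+* ℂ) (f : laurentBaseChange K F₀) :
    toC ι f ∈ fieldC L :=
  hM.eq ▸ JTors.coeffMap_mem_laurentBaseChange' F₀ ι f.2

theorem exists_coeffs_of_family_fieldC {n : ℕ} (hn : Fintype.card (Cst L) < n)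
    (Y : Fin n → fieldC L) :
    ∃ c : Fin n → ℂ[X], c ≠ 0 ∧
      ∑ l, aeval (jqModC ℂ) (c l) * (Y l : LaurentSeries ℂ) = 0 := by
  classical
  set x : fieldC L := ⟨jqModC ℂ, jqModC_mem_fieldC L⟩
  set s : fieldC L := ⟨qL L (sepL L), qL_mem_fieldC L _⟩
  have htop : IntermediateField.adjoin ℂ ({x, s} : Set (fieldC L)) = ⊤ := by
    refine IntermediateField.map_injective (fieldC L).val ?_
    rw [IntermediateField.adjoin_map, ← AlgHom.fieldRange_eq_map,
      IntermediateField.fieldRange_val, Set.image_pair]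
    exact fieldC_eq_adjoin.symm
  obtain ⟨Φ, hΦ, hdeg, h0⟩ := exists_monic_relation (sepL L)
  have hev : ev2 x s Φ = 0 := by
    refine (fieldC L).val.injective ?_
    refine ((map_ev2 (fieldC L).val _ _ _).trans ?_).trans (map_zero _).symm
    have e := congrArg (qL L).toRingHom h0
    rw [map_zero, Polynomial.hom_eval₂] at e
    rw [← e]
    rw [ev2_apply]
    congr 1
    refine Polynomial.ringHom_ext (fun a => ?_) ?_
    · simp
    · simp [qL_jL, x]
  obtain ⟨hfd, hrank⟩ := Genus.finite_adjoin_of_relation htop hΦ hev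
  rw [hdeg] at hrank
  have hdep : ¬ LinearIndependent (IntermediateField.adjoin ℂ ({x} : Set (fieldC L))) Y :=
    fun h => by
    have := h.fintype_card_le_finrank
    rw [Fintype.card_fin] at this
    omega
  obtain ⟨g, hg, l₀, hl₀⟩ := Fintype.not_linearIndependent_iff.1 hdep
  choose r t hrt using fun l => (IntermediateField.mem_adjoin_simple_iff ℂ ((g l : fieldC L))).1
    (g l).2
  have hx : Transcendental ℂ x := fun h => by
    obtain ⟨p, hp, hp0⟩ := h
    refine hp (aeval_jqModC_injective ℂ ?_)
    rw [map_zero]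
    have := congrArg (fieldC L).val hp0
    rw [← aeval_algHom_apply, map_zero] at this
    exact this
  set t' : Fin n → ℂ[X] := fun l => if aeval x (t l) = 0 then 1 else t l with ht'
  set r' : Fin n → ℂ[X] := fun l => if aeval x (t l) = 0 then 0 else r l with hr'
  have ht'0 : ∀ l, aeval x (t' l) ≠ 0 := fun l => by
    simp only [ht']
    split_ifs with h
    · simp
    · exact h
  have hgl : ∀ l, ((g l : fieldC L)) * aeval x (t' l) = aeval x (r' l) := fun l => by
    simp only [ht', hr', hrt l]
    split_ifs with h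
    · simp [h]
    · rw [div_mul_cancel₀ _ h]
  refine ⟨fun l => r' l * ∏ k ∈ Finset.univ.erase l, t' k, fun hc => ?_, ?_⟩
  · have h1 := congrArg (fun p => aeval x p) (congrFun hc l₀)
    simp only [Pi.zero_apply, map_zero, map_mul, map_prod, ← hgl l₀, mul_eq_zero,
      Finset.prod_eq_zero_iff, ht'0, and_false, exists_false, or_false] at h1
    exact hl₀ (Subtype.ext h1)
  · have hsum : ∑ l, aeval x (r' l * ∏ k ∈ Finset.univ.erase l, t' k) * Y l = 0 := by
      have e : ∀ l, aeval x (r' l * ∏ k ∈ Finset.univ.erase l, t' k) * Y l =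
          (∏ k, aeval x (t' k)) * (g l • Y l) := fun l => by
        rw [map_mul, ← hgl l, map_prod, ← Finset.mul_prod_erase Finset.univ
          (fun k => aeval x (t' k)) (Finset.mem_univ l), Algebra.smul_def]
        show _ = _ * ((g l : fieldC L) * Y l)
        ring
      rw [Finset.sum_congr rfl fun l _ => e l, ← Finset.mul_sum, hg, mul_zero]
    have := congrArg (fieldC L).val hsum
    rw [map_sum, map_zero] at this
    rw [← this]
    refine Finset.sum_congr rfl fun l _ => ?_
    rw [map_mul (fieldC L).val, ← aeval_algHom_apply]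
    rfl

omit [Algebra ℚ K] in
theorem coeffFunctional_add [Algebra K ℂ] (φ : ℂ →ₗ[K] K) (x y : LaurentSeries ℂ) :
    JTors.coeffFunctional φ (x + y) = JTors.coeffFunctional φ x + JTors.coeffFunctional φ y := by
  ext k
  simp [JTors.coeffFunctional]

omit [Algebra ℚ K] in
theorem coeffFunctional_sum [Algebra K ℂ] (φ : ℂ →ₗ[K] K) {ι' : Type*} (s : Finset ι')
    (x : ι' → LaurentSeries ℂ) :
    JTors.coeffFunctional φ (∑ i ∈ s, x i) = ∑ i ∈ s, JTors.coeffFunctional φ (x i) := by
  classical
  induction s using Finset.induction_on with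
  | empty => ext k; simp [JTors.coeffFunctional]
  | insert a s ha ih => rw [Finset.sum_insert ha, Finset.sum_insert ha, coeffFunctional_add, ih]

/-- Linear dependence over `K(j)` descends. -/
theorem IsModel.not_linearIndependent (hM : IsModel L F₀) (ι : K →+* ℂ) {n : ℕ}
    (hn : Fintype.card (Cst L) < n) (y : Fin n → laurentBaseChange K F₀) :
    ¬ LinearIndependent
      (IntermediateField.adjoin K ({jF hM K} : Set (laurentBaseChange K F₀))) y := by
  classical
  letI : Algebra K ℂ := ι.toAlgebra
  obtain ⟨c, hc, hsum⟩ := exists_coeffs_of_family_fieldC hn fun l => ⟨toC ι (y l), hM.toC_mem ι _⟩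
  obtain ⟨l₀, hl₀⟩ := Function.ne_iff.1 hc
  obtain ⟨k₀, hk₀⟩ : ∃ k, (c l₀).coeff k ≠ 0 := by
    by_contra! h
    exact hl₀ (Polynomial.ext fun k => by simp [h k])
  obtain ⟨φ, hφ⟩ : ∃ φ : ℂ →ₗ[K] K, φ ((c l₀).coeff k₀) ≠ 0 := by
    by_contra! h
    exact hk₀ ((Module.forall_dual_apply_eq_zero_iff K _).1 h)
  set D := (Finset.univ.sup fun l => (c l).natDegree) + 1
  set p : Fin n → K[X] := fun l => ∑ k ∈ Finset.range D, Polynomial.C (φ ((c l).coeff k)) * X ^ k
  have hexp : ∀ l, aeval (jqModC ℂ) (c l) * toC ι (y l) = ∑ k ∈ Finset.range D,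
      coeffMap (algebraMap K ℂ) ((jqModC K) ^ k * (y l : LaurentSeries K)) *
        HahnSeries.C ((c l).coeff k) := fun l => by
    have hD : (c l).natDegree < D := Nat.lt_succ_of_le
      (Finset.le_sup (f := fun l => (c l).natDegree) (Finset.mem_univ l))
    rw [aeval_eq_sum_range' hD, Finset.sum_mul]
    refine Finset.sum_congr rfl fun k _ => ?_
    rw [map_mul, map_pow, show algebraMap K ℂ = ι from rfl, Genus.coeffMap_jqModC,
      Algebra.smul_def, algebraMap_laurentSeries_eq_single, ← HahnSeries.C_apply, toC_apply]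
    ring
  have hzero : ∑ l, aeval (jqModC K) (p l) * (y l : LaurentSeries K) = 0 := by
    have h := congrArg (JTors.coeffFunctional φ) hsum
    rw [coeffFunctional_sum] at h
    have h0 : JTors.coeffFunctional φ (0 : LaurentSeries ℂ) = 0 := by
      ext k; simp [JTors.coeffFunctional]
    rw [h0] at h
    refine Eq.trans ?_ h
    refine Finset.sum_congr rfl fun l _ => ?_
    rw [hexp l, coeffFunctional_sum, map_sum, Finset.sum_mul]
    refine Finset.sum_congr rfl fun k _ => ?_
    rw [JTors.coeffFunctional_mul, map_mul, aeval_C, map_pow, aeval_X,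
      algebraMap_laurentSeries_eq_single]
    have e : JTors.coeffFunctional φ (HahnSeries.C ((c l).coeff k)) =
        HahnSeries.single 0 (φ ((c l).coeff k)) := by
      ext i
      simp only [JTors.coeffFunctional, HahnSeries.map_coeff, HahnSeries.C_apply]
      rcases eq_or_ne i 0 with rfl | hi
      · simp
      · simp [HahnSeries.coeff_single_of_ne hi]
    rw [e]
    ring
  intro hind
  rw [Fintype.linearIndependent_iff] at hind
  have hmem : ∀ l, aeval (jF hM K) (p l) ∈
      IntermediateField.adjoin K ({jF hM K} : Set (laurentBaseChange K F₀)) := fun l => by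
    rw [aeval_eq_sum_range]
    exact sum_mem fun k _ => SMulMemClass.smul_mem _
      (pow_mem (IntermediateField.mem_adjoin_simple_self K _) k)
  have h1 := hind (fun l => ⟨_, hmem l⟩) (by
    refine (laurentBaseChange K F₀).val.injective ?_
    rw [map_sum, map_zero, ← hzero]
    refine Finset.sum_congr rfl fun l _ => ?_
    rw [Algebra.smul_def, map_mul]
    show (laurentBaseChange K F₀).val (aeval (jF hM K) (p l)) * _ = _
    rw [← aeval_algHom_apply]
    rfl) l₀
  have h2 : p l₀ = 0 := by
    refine (transcendental_iff_injective.1 (transcendental_jF hM)) ?_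
    rw [map_zero]
    exact congrArg Subtype.val h1
  refine hφ ?_
  have h3 := congrArg (fun q : K[X] => q.coeff k₀) h2
  simp only [p, finsetSum_coeff, coeff_C_mul_X_pow, coeff_zero] at h3
  rw [Finset.sum_ite_eq (Finset.range D) k₀, if_pos] at h3
  · exact h3
  · refine Finset.mem_range.2 (lt_of_le_of_lt (le_natDegree_of_ne_zero hk₀) (Nat.lt_succ_of_le ?_))
    exact Finset.le_sup (f := fun l => (c l).natDegree) (Finset.mem_univ l₀)

theorem IsModel.finite_adjoin (hM : IsModel L F₀) (ι : K →+* ℂ) :
    FiniteDimensional (IntermediateField.adjoin K ({jF hM K} : Set (laurentBaseChange K F₀)))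
        (laurentBaseChange K F₀) ∧
      Module.finrank (IntermediateField.adjoin K ({jF hM K} : Set (laurentBaseChange K F₀)))
        (laurentBaseChange K F₀) ≤ Fintype.card (Cst L) := by
  set E := IntermediateField.adjoin K ({jF hM K} : Set (laurentBaseChange K F₀))
  have hr : Module.rank E (laurentBaseChange K F₀) ≤ (Fintype.card (Cst L) : Cardinal) := by
    refine rank_le fun s hs => ?_
    by_contra hcard
    push Not at hcard
    exact hM.not_linearIndependent ι hcard (fun i => ((s.equivFin.symm i : s) : _))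
      (hs.comp _ s.equivFin.symm.injective)
  have hfd : FiniteDimensional E (laurentBaseChange K F₀) :=
    Module.rank_lt_aleph0_iff.1 (hr.trans_lt Cardinal.natCast_lt_aleph0)
  refine ⟨hfd, ?_⟩
  rw [← Module.finrank_eq_rank] at hr
  exact_mod_cast hr

/-- It is a function field in one variable. -/
theorem IsModel.isFunctionField (hM : IsModel L F₀) (ι : K →+* ℂ) :
    FunctionField.IsFunctionField K (laurentBaseChange K F₀) :=
  ⟨jF hM K, transcendental_jF hM, (hM.finite_adjoin ι).1⟩

end FLTAgent.DS.Phi
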