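import Fermat.Agent.DS.Phi.CharFun
import Fermat.Agent.Genus.FieldBasic

/-!
Interpolation over the cosets of `L.Gam`: `fieldC L` is generated by `j` and the separating
function, and has degree at most the index over `ℂ(j)`.
-/

set_option autoImplicit false

noncomputable section

open ModularCurve Polynomial
open UpperHalfPlane hiding I
open scoped MatrixGroups Manifold

namespace FLTAgent.DS.Phi

open ModPoly

variable (L : Lvl)

/-- The cosets of `L.Gam`. -/
abbrev Cst : Type := SL(2, ℤ) ⧸ L.Gam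

instance finite_cst : Finite (Cst L) :=
  Nat.finite_of_card_ne_zero (by
    rw [← Subgroup.index_eq_card]
    exact Subgroup.FiniteIndex.index_ne_zero)

/-- The cosets form a finite type. -/
instance fintype_cst : Fintype (Cst L) := Fintype.ofFinite _

instance decEq_cst : DecidableEq (Cst L) := Classical.decEq _

variable {L}

/-- `g ∘ q⁻¹` for a coset `q`. -/
def cosetFun (q : Cst L) (g : ℍ → ℂ) : ℍ → ℂ := fun τ => g (q.out⁻¹ • τ)

theorem comp_inv_smul_eq_of_mk_eq {g : ℍ → ℂ} (hg : g ∈ funRing L) {a b : SL(2, ℤ)}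
    (h : (QuotientGroup.mk a : Cst L) = QuotientGroup.mk b) (τ : ℍ) :
    g (a⁻¹ • τ) = g (b⁻¹ • τ) := by
  have hmem : a⁻¹ * b ∈ L.Gam := QuotientGroup.eq.mp h
  have := smul_eq_of_mem_gam hg hmem (b⁻¹ • τ)
  rwa [← mul_smul, mul_assoc, mul_inv_cancel, mul_one] at this

theorem cosetFun_mk {g : ℍ → ℂ} (hg : g ∈ funRing L) (a : SL(2, ℤ)) :
    cosetFun (QuotientGroup.mk a : Cst L) g = fun τ => g (a⁻¹ • τ) :=
  funext fun τ => comp_inv_smul_eq_of_mk_eq hg (QuotientGroup.out_eq' _) τ

theorem cosetFun_one {g : ℍ → ℂ} (hg : g ∈ funRing L) :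
    cosetFun (QuotientGroup.mk 1 : Cst L) g = g := by
  rw [cosetFun_mk hg]
  simp

theorem cosetFun_inv_smul {g : ℍ → ℂ} (hg : g ∈ funRing L) (γ : SL(2, ℤ)) (q : Cst L) :
    cosetFun (γ⁻¹ • q) g = fun τ => cosetFun q g (γ • τ) := by
  induction q using QuotientGroup.induction_on with | _ a => ?_
  rw [MulAction.Quotient.smul_mk, cosetFun_mk hg]
  funext τ
  rw [cosetFun_mk hg]
  simp [mul_smul]

theorem mdiff_cosetFun {g : ℍ → ℂ} (hg : MDiff g) (q : Cst L) : MDiff (cosetFun q g) :=
  ModPoly.mdifferentiable_comp_smul hg _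

theorem cosetFun_jFun (q : Cst L) : cosetFun q jFun = jFun :=
  funext fun _ => jFun_smul _ _

theorem cosetFun_sepFun_injective :
    Function.Injective fun q : Cst L => cosetFun q (sepFun L) := by
  intro p q h
  induction p using QuotientGroup.induction_on with | _ a => ?_
  induction q using QuotientGroup.induction_on with | _ b => ?_
  simp only [cosetFun_mk (sepFun_mem L)] at h
  refine QuotientGroup.eq.mpr (mem_of_sepFun_smul fun τ => ?_)
  have := congrFun h (b • τ)
  simpa [mul_smul] using this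

/-- Holomorphic functions, meromorphic at all cusps in width `L.N`. -/
def holExpL (L : Lvl) : Subalgebra ℂ (ℍ → ℂ) where
  carrier := {g | MDiff g ∧ ∀ γ : SL(2, ℤ), (fun τ : ℍ => g (γ • τ)) ∈ expRing L.N}
  mul_mem' := fun ⟨a1, a3⟩ ⟨b1, b3⟩ => ⟨a1.mul b1, fun γ => (expRing L.N).mul_mem (a3 γ) (b3 γ)⟩
  add_mem' := fun ⟨a1, a3⟩ ⟨b1, b3⟩ => ⟨a1.add b1, fun γ => (expRing L.N).add_mem (a3 γ) (b3 γ)⟩
  algebraMap_mem' c := ⟨mdifferentiable_const, fun _ => ⟨_, Expands.const L.N c⟩⟩

theorem cosetFun_mem_holExpL (q : Cst L) (g : funRing L) :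
    cosetFun q (g : ℍ → ℂ) ∈ holExpL L :=
  ⟨mdiff_cosetFun g.2.1 q, fun γ => by
    simp only [cosetFun, ← mul_smul]
    exact g.2.2.2 _⟩

/-- Interpolation over the cosets. -/
def interpPoly (g : funRing L) : (ℍ → ℂ)[X] :=
  ∑ q : Cst L, C (cosetFun q (g : ℍ → ℂ)) *
    ∏ r ∈ Finset.univ.erase q, (X - C (cosetFun r (sepFun L)))

/-- The characteristic polynomial of a function over the cosets. -/
def resPoly (g : funRing L) : (ℍ → ℂ)[X] := ∏ q : Cst L, (X - C (cosetFun q (g : ℍ → ℂ)))

/-- Composition with `γ` as a ring map. -/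
def compMap (γ : SL(2, ℤ)) : (ℍ → ℂ) →+* (ℍ → ℂ) where
  toFun f := fun τ => f (γ • τ)
  map_one' := rfl
  map_mul' _ _ := rfl
  map_zero' := rfl
  map_add' _ _ := rfl

theorem compMap_cosetFun (γ : SL(2, ℤ)) {f : ℍ → ℂ} (hf : f ∈ funRing L) (q : Cst L) :
    compMap γ (cosetFun q f) = cosetFun (γ⁻¹ • q) f := by
  rw [cosetFun_inv_smul hf]
  rfl

theorem map_resPoly (g : funRing L) (γ : SL(2, ℤ)) :
    (resPoly g).map (compMap γ) = resPoly g := by
  rw [resPoly, Polynomial.map_prod]
  refine Fintype.prod_equiv (MulAction.toPerm γ⁻¹) _ _ fun q => ?_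
  rw [Polynomial.map_sub, Polynomial.map_X, Polynomial.map_C, compMap_cosetFun γ g.2,
    MulAction.toPerm_apply]

theorem map_interpPoly (g : funRing L) (γ : SL(2, ℤ)) :
    (interpPoly g).map (compMap γ) = interpPoly g := by
  rw [interpPoly, Polynomial.map_sum]
  refine Fintype.sum_equiv (MulAction.toPerm γ⁻¹) _ _ fun q => ?_
  rw [Polynomial.map_mul, Polynomial.map_C, compMap_cosetFun γ g.2, Polynomial.map_prod,
    MulAction.toPerm_apply]
  congr 1
  refine Finset.prod_equiv (MulAction.toPerm γ⁻¹) (fun r => ?_) fun r _ => ?_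
  · simp [(MulAction.injective γ⁻¹).eq_iff]
  · rw [Polynomial.map_sub, Polynomial.map_X, Polynomial.map_C,
      compMap_cosetFun γ (sepFun_mem L), MulAction.toPerm_apply]

/-- An invariant element of `holExpL L` is a polynomial in `j`. -/
theorem exists_polynomial_of_holExpL {f : ℍ → ℂ} (hf : f ∈ holExpL L)
    (hinv : ∀ (γ : SL(2, ℤ)) (τ : ℍ), f (γ • τ) = f τ) : ∃ P : ℂ[X], f = evalJFun P :=
  exists_polynomial_of_invariant (L := L) ⟨hf.1, fun γ _ τ => hinv γ τ, hf.2⟩ hinv

theorem coeff_mem_holExpL {P : (ℍ → ℂ)[X]} (P₀ : (holExpL L)[X])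
    (h : P₀.map (holExpL L).val.toRingHom = P) (i : ℕ) : P.coeff i ∈ holExpL L := by
  rw [← h, Polynomial.coeff_map]
  exact (P₀.coeff i).2

theorem coeff_interpPoly (g : funRing L) (i : ℕ) :
    ∃ P : ℂ[X], (interpPoly g).coeff i = evalJFun P := by
  refine exists_polynomial_of_holExpL (L := L) (coeff_mem_holExpL
    (∑ q : Cst L, C ⟨_, cosetFun_mem_holExpL q g⟩ *
      ∏ r ∈ Finset.univ.erase q, (X - C ⟨_, cosetFun_mem_holExpL r (sepL L)⟩)) ?_ i) fun γ τ => ?_
  · simp only [interpPoly, Polynomial.map_sum, Polynomial.map_mul, Polynomial.map_prod,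
      Polynomial.map_sub, Polynomial.map_X, Polynomial.map_C]
    rfl
  · conv_rhs => rw [← map_interpPoly g γ, Polynomial.coeff_map]
    rfl

theorem coeff_resPoly (g : funRing L) (i : ℕ) :
    ∃ P : ℂ[X], (resPoly g).coeff i = evalJFun P := by
  refine exists_polynomial_of_holExpL (L := L) (coeff_mem_holExpL
    (∏ q : Cst L, (X - C ⟨_, cosetFun_mem_holExpL q g⟩)) ?_ i) fun γ τ => ?_
  · simp only [resPoly, Polynomial.map_prod,
      Polynomial.map_sub, Polynomial.map_X, Polynomial.map_C]
    rfl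
  · conv_rhs => rw [← map_resPoly g γ, Polynomial.coeff_map]
    rfl

theorem natDegree_resPoly (g : funRing L) : (resPoly g).natDegree = Fintype.card (Cst L) := by
  rw [resPoly, natDegree_finsetProd_X_sub_C_eq_card, Finset.card_univ]

theorem monic_resPoly (g : funRing L) : (resPoly g).Monic :=
  monic_prod_of_monic _ _ fun _ _ => monic_X_sub_C _

theorem eval_resPoly (g : funRing L) : (resPoly g).eval (g : ℍ → ℂ) = 0 := by
  rw [resPoly, eval_prod]
  refine Finset.prod_eq_zero (Finset.mem_univ (QuotientGroup.mk 1 : Cst L)) ?_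
  simp [cosetFun_one g.2]

theorem evalJFun_coe (P : ℂ[X]) : evalJFun P = ((aeval (jL L) P : funRing L) : ℍ → ℂ) := by
  rw [evalJFun_eq_aeval]
  exact aeval_algHom_apply (funRing L).val (jL L) P

/-- Every function satisfies a monic equation of degree the index over `ℂ[j]`. -/
theorem exists_monic_relation (g : funRing L) :
    ∃ Φ : ℂ[X][X], Φ.Monic ∧ Φ.natDegree = Fintype.card (Cst L) ∧
      Φ.eval₂ (aeval (jL L)).toRingHom g = 0 := by
  choose P hP using coeff_resPoly g
  set d := Fintype.card (Cst L)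
  have hdeg : (∑ i ∈ Finset.range d, C (P i) * X ^ i).degree < (d : WithBot ℕ) := by
    rw [degree_lt_iff_coeff_zero]
    intro m hm
    rw [finsetSum_coeff]
    refine Finset.sum_eq_zero fun i hi => ?_
    rw [coeff_C_mul_X_pow, if_neg]
    have := Finset.mem_range.1 hi
    omega
  refine ⟨X ^ d + ∑ i ∈ Finset.range d, C (P i) * X ^ i, monic_X_pow_add hdeg, ?_, ?_⟩
  · rw [natDegree_add_eq_left_of_degree_lt (by rwa [degree_X_pow]), natDegree_X_pow]
  · refine Subtype.ext ?_
    have h0 := eval_resPoly g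
    rw [eval_eq_sum_range, natDegree_resPoly, Finset.sum_range_succ] at h0
    have hlead : (resPoly g).coeff d = 1 := by
      have := monic_resPoly g
      rwa [Monic, leadingCoeff, natDegree_resPoly] at this
    rw [hlead, one_mul] at h0
    rw [eval₂_add, eval₂_X_pow, eval₂_finsetSum]
    push_cast
    rw [add_comm] at h0
    refine Eq.trans ?_ h0
    congr 1
    refine Finset.sum_congr rfl fun i _ => ?_
    rw [eval₂_mul, eval₂_C, eval₂_X_pow, hP i, evalJFun_coe (L := L)]
    simp only [MulMemClass.coe_mul, SubmonoidClass.coe_pow]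
    rfl

/-- The derivative of the equation of the separating function. -/
def interpDen (L : Lvl) : ℍ → ℂ :=
  ∏ r ∈ (Finset.univ : Finset (Cst L)).erase (QuotientGroup.mk 1),
    (sepFun L - cosetFun r (sepFun L))

theorem eval_interpPoly (g : funRing L) :
    (interpPoly g).eval (sepFun L) = (g : ℍ → ℂ) * interpDen L := by
  rw [interpPoly, eval_finsetSum, Finset.sum_eq_single (QuotientGroup.mk 1 : Cst L)]
  · simp [eval_prod, interpDen, cosetFun_one g.2]
  · intro q _ hq
    rw [eval_mul, eval_prod, Finset.prod_eq_zero (i := (QuotientGroup.mk 1 : Cst L))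
      (Finset.mem_erase.2 ⟨hq.symm, Finset.mem_univ _⟩), mul_zero]
    simp [cosetFun_one (sepFun_mem L)]
  · simp

theorem interpDen_ne_zero : interpDen L ≠ 0 := by
  intro h
  obtain ⟨r, hr, h0⟩ := (UpperHalfPlane.prod_eq_zero_iff
    (f := fun r : Cst L => sepFun L - cosetFun r (sepFun L))
    (fun r _ => (sepFun_mem L).1.sub (mdiff_cosetFun (sepFun_mem L).1 r))).1 h
  refine (Finset.mem_erase.1 hr).1 (cosetFun_sepFun_injective (L := L) ?_)
  show cosetFun r (sepFun L) = cosetFun (QuotientGroup.mk 1 : Cst L) (sepFun L)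
  rw [cosetFun_one (sepFun_mem L), ← sub_eq_zero.1 h0]

/-- `fieldC L` is generated by `j` and the separating function. -/
theorem fieldC_eq_adjoin :
    fieldC L = IntermediateField.adjoin ℂ {jqModC ℂ, qL L (sepL L)} := by
  set E := IntermediateField.adjoin ℂ {jqModC ℂ, qL L (sepL L)}
  refine le_antisymm ?_ (IntermediateField.adjoin_le_iff.2 ?_)
  · have key : ∀ g : funRing L, ∃ w : funRing L,
        qL L w ∈ E ∧ (w : ℍ → ℂ) = (g : ℍ → ℂ) * interpDen L := by
      intro g
      choose P hP using coeff_interpPoly g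
      refine ⟨∑ i ∈ Finset.range ((interpPoly g).natDegree + 1),
        aeval (jL L) (P i) * sepL L ^ i, ?_, ?_⟩
      · rw [map_sum]
        refine sum_mem fun i _ => ?_
        rw [map_mul, map_pow, ← aeval_algHom_apply, qL_jL]
        refine mul_mem ?_ (pow_mem (IntermediateField.subset_adjoin _ _ (by simp)) i)
        have hj : jqModC ℂ ∈ E := IntermediateField.subset_adjoin _ _ (by simp)
        rw [aeval_eq_sum_range]
        exact sum_mem fun k _ => SMulMemClass.smul_mem _ (pow_mem hj k)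
      · rw [← eval_interpPoly g, eval_eq_sum_range, ← Subalgebra.val_apply, map_sum]
        refine Finset.sum_congr rfl fun i _ => ?_
        rw [map_mul, map_pow, ← aeval_algHom_apply, hP i, evalJFun_eq_aeval]
        rfl
    have hg : ∀ g : funRing L, qL L g ∈ E := fun g => by
      obtain ⟨w, hw, hwe⟩ := key g
      obtain ⟨w₁, hw₁, hwe₁⟩ := key 1
      have hw₁0 : qL L w₁ ≠ 0 := (map_ne_zero_iff _ qL_injective).2 fun h => by
        rw [h] at hwe₁
        exact interpDen_ne_zero (by simpa using hwe₁.symm)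
      have hmul : g * w₁ = w := Subtype.ext (by simp [hwe, hwe₁])
      have : qL L g = qL L w / qL L w₁ := by
        rw [← hmul, map_mul, mul_div_cancel_right₀ _ hw₁0]
      rw [this]
      exact div_mem hw hw₁
    intro x hx
    obtain ⟨a, b, hb, hab⟩ := (mem_fieldC L).1 hx
    have hb0 : qL L b ≠ 0 := (map_ne_zero_iff _ qL_injective).2 hb
    rw [← mul_div_cancel_right₀ x hb0, hab]
    exact div_mem (hg a) (hg b)
  · rintro x (rfl | rfl)
    · exact jqModC_mem_fieldC L
    · exact qL_mem_fieldC L _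

end FLTAgent.DS.Phi
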