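import Mathlib.RingTheory.Localization.FractionRing
import Fermat.Agent.ModPoly.LevelOne
import Fermat.Agent.Genus.DiskExpand

/-!
# Modular functions for a congruence subgroup containing `T` and `-1`

`funRing L` is the ring of functions on `ℍ` invariant under `L.Gam`, holomorphic on `ℍ` and
meromorphic at the cusps; `fieldC L` is the field of their quotients inside `ℂ((q))`.
-/

set_option autoImplicit false

noncomputable section

open Filter Function Complex CongruenceSubgroup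
open UpperHalfPlane hiding I
open scoped Real Topology MatrixGroups ModularForm Manifold

namespace FLTAgent.DS.Phi

open ModPoly

local notation "𝕢" => Periodic.qParam

/-- A congruence subgroup containing `T` and `-1`, with a level. -/
structure Lvl where
  /-- The group. -/
  Gam : Subgroup SL(2, ℤ)
  /-- A level of the group. -/
  N : ℕ
  neZero : NeZero N
  gamma_le : CongruenceSubgroup.Gamma N ≤ Gam
  T_mem : ModularGroup.T ∈ Gam
  neg_one_mem : (-1 : SL(2, ℤ)) ∈ Gam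

variable (L : Lvl)

instance neZero_lvl : NeZero L.N := L.neZero

instance finiteIndex_gam : L.Gam.FiniteIndex := Subgroup.finiteIndex_of_le L.gamma_le

theorem conj_T_pow_mem (γ : SL(2, ℤ)) : γ * ModularGroup.T ^ (L.N : ℤ) * γ⁻¹ ∈ L.Gam :=
  L.gamma_le ((Gamma_normal L.N).conj_mem _
    (by simpa using ModularGroup_T_pow_mem_Gamma (L.N : ℤ) (L.N : ℤ) dvd_rfl) γ)

/-- Invariant functions, holomorphic on `ℍ` and meromorphic at every cusp. -/
def funRing : Subalgebra ℂ (ℍ → ℂ) where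
  carrier := {g | MDiff g ∧ (∀ γ ∈ L.Gam, ∀ τ : ℍ, g (γ • τ) = g τ) ∧
    ∀ γ : SL(2, ℤ), (fun τ : ℍ => g (γ • τ)) ∈ expRing L.N}
  mul_mem' := fun ⟨a1, a2, a3⟩ ⟨b1, b2, b3⟩ =>
    ⟨a1.mul b1, fun γ hγ τ => by simp only [Pi.mul_apply, a2 γ hγ τ, b2 γ hγ τ],
      fun γ => (expRing L.N).mul_mem (a3 γ) (b3 γ)⟩
  add_mem' := fun ⟨a1, a2, a3⟩ ⟨b1, b2, b3⟩ =>
    ⟨a1.add b1, fun γ hγ τ => by simp only [Pi.add_apply, a2 γ hγ τ, b2 γ hγ τ],
      fun γ => (expRing L.N).add_mem (a3 γ) (b3 γ)⟩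
  algebraMap_mem' c :=
    ⟨mdifferentiable_const, fun _ _ _ => rfl, fun _ => ⟨_, Expands.const L.N c⟩⟩

variable {L}

theorem mdiff_of_mem {g : ℍ → ℂ} (hg : g ∈ funRing L) : MDiff g := hg.1

theorem mdiff_coe (g : funRing L) : MDiff (g : ℍ → ℂ) := g.2.1

theorem coe_ne_zero {g : funRing L} (hg : g ≠ 0) : (g : ℍ → ℂ) ≠ 0 :=
  fun h => hg (Subtype.ext h)

theorem smul_eq_of_mem_gam {g : ℍ → ℂ} (hg : g ∈ funRing L) {γ : SL(2, ℤ)} (hγ : γ ∈ L.Gam)
    (τ : ℍ) : g (γ • τ) = g τ :=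
  hg.2.1 γ hγ τ

theorem vadd_one {g : ℍ → ℂ} (hg : ∀ γ ∈ L.Gam, ∀ τ : ℍ, g (γ • τ) = g τ)
    (τ : ℍ) : g (((1 : ℕ) : ℝ) +ᵥ τ) = g τ := by
  rw [← smul_T_pow_eq_vadd]
  exact hg _ (by simpa using L.T_mem) τ

theorem vadd_level {g : ℍ → ℂ} (hg : ∀ γ ∈ L.Gam, ∀ τ : ℍ, g (γ • τ) = g τ)
    (γ : SL(2, ℤ)) (τ : ℍ) : g (γ • ((L.N : ℝ) +ᵥ τ)) = g (γ • τ) := by
  rw [← smul_T_pow_eq_vadd]
  have := hg _ (conj_T_pow_mem L γ) (γ • τ)
  rwa [smul_smul, inv_mul_cancel_right, ← smul_smul] at this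

/-- The criterion through boundedness at the cusps. -/
theorem mem_funRing_of_isBounded {g : ℍ → ℂ} (hg : MDiff g)
    (hinv : ∀ γ ∈ L.Gam, ∀ τ : ℍ, g (γ • τ) = g τ)
    (hb : ∀ γ : SL(2, ℤ), ∃ m : ℕ, IsBoundedAtImInfty fun τ => 𝕢 L.N τ ^ m * g (γ • τ)) :
    g ∈ funRing L :=
  ⟨hg, hinv, fun γ => mem_expRing_of_isBounded (mdifferentiable_comp_smul hg γ)
    (vadd_level hinv γ) (hb γ).choose_spec⟩

theorem mem_expRing_width_one {g : ℍ → ℂ} (hg : g ∈ funRing L) : g ∈ expRing 1 := by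
  obtain ⟨m, hm⟩ := exists_isBounded_of_mem_expRing (by simpa using hg.2.2 1 : g ∈ expRing L.N)
  refine mem_expRing_of_isBounded hg.1 (vadd_one hg.2.1) (m := m) ?_
  refine Asymptotics.IsBigO.trans ?_ hm
  refine Asymptotics.isBigO_of_le _ fun τ => ?_
  rw [norm_mul, norm_mul, norm_pow, norm_pow, Periodic.norm_qParam, Periodic.norm_qParam]
  gcongr ?_ ^ _ * _
  rw [Real.exp_le_exp, neg_mul, neg_mul, neg_div, neg_div, neg_le_neg_iff,
    Nat.cast_one, div_one, div_le_iff₀ (by exact_mod_cast Nat.pos_of_ne_zero (NeZero.ne L.N))]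
  exact le_mul_of_one_le_right (by positivity [τ.im_pos])
    (by exact_mod_cast Nat.one_le_iff_ne_zero.mpr (NeZero.ne L.N))

variable (L)

/-- The `q`-expansion at `∞`. -/
def qL : funRing L →ₐ[ℂ] LaurentSeries ℂ :=
  (qLaurentHom 1).comp (Subalgebra.inclusion fun _ hg => mem_expRing_width_one hg)

/-- Precomposition with `γ`, into width `N` expansions. -/
def compSMulL (γ : SL(2, ℤ)) : funRing L →ₐ[ℂ] expRing L.N where
  toFun g := ⟨fun τ => (g : ℍ → ℂ) (γ • τ), g.2.2.2 γ⟩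
  map_one' := rfl
  map_mul' _ _ := rfl
  map_zero' := rfl
  map_add' _ _ := rfl
  commutes' _ := rfl

/-- Expansion of `g ∘ γ` in `exp (2πiτ/N)`. -/
def qLAt (γ : SL(2, ℤ)) : funRing L →ₐ[ℂ] LaurentSeries ℂ :=
  (qLaurentHom L.N).comp (compSMulL L γ)

variable {L}

theorem expands_qL (g : funRing L) : Expands 1 (g : ℍ → ℂ) (qL L g) :=
  expands_expSeries (Subalgebra.inclusion (fun _ hg => mem_expRing_width_one hg) g)

theorem qL_eq_of_expands {g : funRing L} {x : LaurentSeries ℂ}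
    (h : Expands 1 (g : ℍ → ℂ) x) : qL L g = x :=
  (expands_qL g).unique h

theorem qL_injective : Function.Injective (qL L) := fun f g h =>
  Subtype.ext (eq_of_expands f.2.1 g.2.1 (expands_qL f) (h ▸ expands_qL g))

theorem expands_qLAt (γ : SL(2, ℤ)) (g : funRing L) :
    Expands L.N (fun τ => (g : ℍ → ℂ) (γ • τ)) (qLAt L γ g) :=
  expands_expSeries (compSMulL L γ g)

theorem qLAt_eq_of_expands {γ : SL(2, ℤ)} {g : funRing L} {x : LaurentSeries ℂ}
    (h : Expands L.N (fun τ => (g : ℍ → ℂ) (γ • τ)) x) : qLAt L γ g = x :=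
  (expands_qLAt γ g).unique h

theorem qLAt_injective (γ : SL(2, ℤ)) : Function.Injective (qLAt L γ) := fun f g h => by
  refine Subtype.ext (funext fun τ => ?_)
  have hg := expands_qLAt γ g
  rw [← h] at hg
  have := eq_of_expands (mdifferentiable_comp_smul f.2.1 γ) (mdifferentiable_comp_smul g.2.1 γ)
    (expands_qLAt γ f) hg
  have := congr_fun this (γ⁻¹ • τ)
  simp only [smul_inv_smul] at this
  exact this

/-- An invariant function of level one in `funRing` is a polynomial in `j`. -/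
theorem exists_polynomial_of_invariant {g : ℍ → ℂ} (hg : g ∈ funRing L)
    (hinv : ∀ (γ : SL(2, ℤ)) (τ : ℍ), g (γ • τ) = g τ) :
    ∃ P : Polynomial ℂ, g = evalJFun P := by
  have hN : g ∈ modFunRing L.N := ⟨hg.1, fun γ _ τ => hinv γ τ, hg.2.2⟩
  refine exists_polynomial_of_mem_modFunRing_one ⟨hg.1, fun γ _ τ => hinv γ τ, fun γ => ?_⟩
  rw [funext (hinv γ)]
  exact mem_expRing_one hN

theorem jFun_mem_funRing : jFun ∈ funRing L := by
  refine ⟨mdifferentiable_jFun, fun γ _ τ => jFun_smul γ τ, fun γ => ?_⟩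
  simp only [jFun_smul]
  exact expands_jFun.mem_expRing_width (one_dvd _)

variable (L)

/-- `j` in `funRing`. -/
def jL : funRing L := ⟨jFun, jFun_mem_funRing⟩

theorem qL_jL : qL L (jL L) = ModularCurve.jqModC ℂ := qL_eq_of_expands expands_jFun

instance isDomain_funRing : IsDomain (funRing L) :=
  (qL_injective (L := L)).isDomain (qL L).toRingHom

/-- The field of fractions. -/
abbrev MFrac : Type _ := FractionRing (funRing L)

variable {L}

/-- Extension of an injective expansion map to the field of fractions. -/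
def liftFrac (ψ : funRing L →ₐ[ℂ] LaurentSeries ℂ) (hψ : Function.Injective ψ) :
    MFrac L →+* LaurentSeries ℂ :=
  IsFractionRing.lift (g := ψ.toRingHom) hψ

theorem liftFrac_algebraMap (ψ : funRing L →ₐ[ℂ] LaurentSeries ℂ) (hψ : Function.Injective ψ)
    (a : funRing L) : liftFrac ψ hψ (algebraMap (funRing L) (MFrac L) a) = ψ a :=
  IsFractionRing.lift_algebraMap hψ a

variable (L)

/-- The `q`-expansion of a quotient. -/
def qFrac : MFrac L →+* LaurentSeries ℂ := liftFrac (qL L) qL_injective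

theorem qFrac_algebraMap (a : funRing L) :
    qFrac L (algebraMap (funRing L) (MFrac L) a) = qL L a :=
  liftFrac_algebraMap _ _ a

theorem qFrac_injective : Function.Injective (qFrac L) := (qFrac L).injective

/-- The field of modular functions inside `ℂ((q))`. -/
def fieldC : IntermediateField ℂ (LaurentSeries ℂ) :=
  (qFrac L).fieldRange.toIntermediateField fun c =>
    ⟨algebraMap (funRing L) (MFrac L) (algebraMap ℂ (funRing L) c), by
      rw [qFrac_algebraMap, AlgHom.commutes]⟩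

theorem mem_fieldC {x : LaurentSeries ℂ} :
    x ∈ fieldC L ↔ ∃ a b : funRing L, b ≠ 0 ∧ x * qL L b = qL L a := by
  constructor
  · rintro ⟨y, rfl⟩
    obtain ⟨a, b, hb, rfl⟩ := IsFractionRing.div_surjective (A := funRing L) y
    have hb0 : b ≠ 0 := nonZeroDivisors.ne_zero hb
    refine ⟨a, b, hb0, ?_⟩
    rw [map_div₀, qFrac_algebraMap, qFrac_algebraMap,
      div_mul_cancel₀ _ ((map_ne_zero_iff _ qL_injective).2 hb0)]
  · rintro ⟨a, b, hb, hx⟩
    refine ⟨algebraMap _ (MFrac L) a / algebraMap _ (MFrac L) b, ?_⟩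
    rw [map_div₀, qFrac_algebraMap, qFrac_algebraMap, ← hx,
      mul_div_cancel_right₀ _ ((map_ne_zero_iff _ qL_injective).2 hb)]

theorem qL_mem_fieldC (g : funRing L) : qL L g ∈ fieldC L :=
  ⟨algebraMap _ _ g, qFrac_algebraMap L g⟩

theorem jqModC_mem_fieldC : ModularCurve.jqModC ℂ ∈ fieldC L :=
  qL_jL L ▸ qL_mem_fieldC L (jL L)

end FLTAgent.DS.Phi
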