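import Fermat.Agent.DS.Phi.Field
import Fermat.Agent.Genus.Abstract
import Fermat.Agent.Genus.Export
import Fermat.Agent.JTors.PlaceDiv

/-!
Places of a model of `fieldC L` are induced by expansions at points and cusps.
-/

set_option autoImplicit false

noncomputable section

open ModularCurve AlgebraicCurve
open UpperHalfPlane hiding I
open scoped MatrixGroups Manifold IntermediateField

namespace FLTAgent.DS.Phi

open ModPoly Genus

variable {L : Lvl} {F₀ : IntermediateField ℚ (LaurentSeries ℚ)}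
variable {K : Type*} [Field K] [Algebra ℚ K]

/-- The field inside the field of fractions of `funRing L`. -/
def toFrac (hM : IsModel L F₀) (ι : K →+* ℂ) : laurentBaseChange K F₀ →+* MFrac L :=
  ((RingEquiv.ofBijective (qFrac L).rangeRestrictField
      (RingHom.rangeRestrictField_bijective (qFrac L))).symm.toRingHom).comp
    ((toC ι).codRestrict (qFrac L).fieldRange (hM.toC_mem ι))

theorem qFrac_toFrac (hM : IsModel L F₀) (ι : K →+* ℂ) (f : laurentBaseChange K F₀) :
    qFrac L (toFrac hM ι f) = toC ι f :=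
  congrArg Subtype.val ((RingEquiv.ofBijective (qFrac L).rangeRestrictField
    (RingHom.rangeRestrictField_bijective (qFrac L))).apply_symm_apply
      ((toC ι).codRestrict (qFrac L).fieldRange (hM.toC_mem ι) f))

theorem IsModel.exists_frac (hM : IsModel L F₀) (ι : K →+* ℂ) (f : laurentBaseChange K F₀) :
    ∃ a b : funRing L, b ≠ 0 ∧ toC ι f * qL L b = qL L a :=
  (mem_fieldC L).1 (hM.toC_mem ι f)

/-- The embedding attached to an expansion map. -/
def expEmb (hM : IsModel L F₀) (ι : K →+* ℂ) (ψ : funRing L →ₐ[ℂ] LaurentSeries ℂ)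
    (hψ : Function.Injective ψ) : laurentBaseChange K F₀ →+* LaurentSeries ℂ :=
  (liftFrac ψ hψ).comp (toFrac hM ι)

theorem expEmb_mul (hM : IsModel L F₀) (ι : K →+* ℂ) (ψ : funRing L →ₐ[ℂ] LaurentSeries ℂ)
    (hψ : Function.Injective ψ) {f : laurentBaseChange K F₀} {a b : funRing L}
    (h : toC ι f * qL L b = qL L a) : expEmb hM ι ψ hψ f * ψ b = ψ a := by
  have : toFrac hM ι f * algebraMap _ (MFrac L) b = algebraMap _ (MFrac L) a := by
    apply qFrac_injective L
    rw [map_mul, qFrac_toFrac, qFrac_algebraMap, qFrac_algebraMap, h]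
  have h2 := congrArg (liftFrac ψ hψ) this
  rwa [map_mul, liftFrac_algebraMap, liftFrac_algebraMap] at h2

theorem expEmb_eq (hM : IsModel L F₀) (ι : K →+* ℂ) (ψ : funRing L →ₐ[ℂ] LaurentSeries ℂ)
    (hψ : Function.Injective ψ) {f : laurentBaseChange K F₀} {a : funRing L}
    (h : toC ι f = qL L a) : expEmb hM ι ψ hψ f = ψ a := by
  have := expEmb_mul hM ι ψ hψ (f := f) (a := a) (b := 1)
    (by rw [map_one, mul_one]; exact h)
  rwa [map_one, mul_one] at this

theorem over_expEmb (hM : IsModel L F₀) (ι : K →+* ℂ) (ψ : funRing L →ₐ[ℂ] LaurentSeries ℂ)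
    (hψ : Function.Injective ψ) : Over ι (expEmb hM ι ψ hψ) := by
  intro c
  rw [expEmb_eq hM ι ψ hψ (a := algebraMap ℂ _ (ι c))
    (by rw [AlgHom.commutes, toC_algebraMap]), AlgHom.commutes,
    algebraMap_laurentSeries_eq_single]

theorem expEmb_jF (hM : IsModel L F₀) (ι : K →+* ℂ) (ψ : funRing L →ₐ[ℂ] LaurentSeries ℂ)
    (hψ : Function.Injective ψ) : expEmb hM ι ψ hψ (jF hM K) = ψ (jL L) :=
  expEmb_eq hM ι ψ hψ (by rw [toC_jF, qL_jL])

/-- An expansion map is determined by its restriction to the model. -/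
theorem expansion_eq_of_expEmb_eq (hM : IsModel L F₀) (ι : K →+* ℂ)
    {ψ ψ' : funRing L →ₐ[ℂ] LaurentSeries ℂ} (hψ : Function.Injective ψ)
    (hψ' : Function.Injective ψ') (h : expEmb hM ι ψ hψ = expEmb hM ι ψ' hψ') (g : funRing L) :
    ψ g = ψ' g := by
  set eqz := (liftFrac ψ hψ).eqLocusField (liftFrac ψ' hψ')
  have hle : laurentBaseChange ℂ F₀ ≤ (eqz.map (qFrac L)).toIntermediateField fun c =>
      ⟨algebraMap (funRing L) (MFrac L) (algebraMap ℂ (funRing L) c), by
        show liftFrac ψ hψ _ = liftFrac ψ' hψ' _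
        rw [liftFrac_algebraMap, liftFrac_algebraMap, AlgHom.commutes, AlgHom.commutes], by
        rw [qFrac_algebraMap, AlgHom.commutes]⟩ := by
    refine IntermediateField.adjoin_le_iff.2 ?_
    rintro _ ⟨x, hx, rfl⟩
    refine ⟨toFrac hM ι ⟨coeffEmb K x, coeffEmb_mem_laurentBaseChange K hx⟩,
      RingHom.congr_fun h _, ?_⟩
    rw [qFrac_toFrac, toC_apply, JTors.coeffMap_coeffEmb_of_hom]
  obtain ⟨y, hy, hye⟩ := hle (hM.eq ▸ qL_mem_fieldC L g)
  rw [← qFrac_algebraMap L g] at hye
  rw [qFrac_injective L hye] at hy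
  have hy' : liftFrac ψ hψ (algebraMap _ _ g) = liftFrac ψ' hψ' (algebraMap _ _ g) := hy
  rwa [liftFrac_algebraMap, liftFrac_algebraMap] at hy'

theorem rot_comp_expEmb (hM : IsModel L F₀) (ι : K →+* ℂ) (w : ℂˣ)
    {ψ ψ' : funRing L →ₐ[ℂ] LaurentSeries ℂ} (hψ : Function.Injective ψ)
    (hψ' : Function.Injective ψ') (h : ∀ g, ψ' g = rot w (ψ g)) :
    expEmb hM ι ψ' hψ' = (rot w).comp (expEmb hM ι ψ hψ) := by
  refine RingHom.ext fun f => ?_
  obtain ⟨a, b, hb, hab⟩ := hM.exists_frac ι f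
  have h1 := expEmb_mul hM ι ψ hψ hab
  have h2 := expEmb_mul hM ι ψ' hψ' hab
  rw [h, h, ← h1, map_mul] at h2
  exact mul_right_cancel₀
    ((map_ne_zero_iff _ (rot_injective w)).2 ((map_ne_zero_iff _ hψ).2 hb)) h2

/-! ### Expansions at points and cusps -/

/-- Expansion at `z₀` of `g ∘ q⁻¹`. -/
def pointHom (z₀ : ℍ) (q : Cst L) : funRing L →ₐ[ℂ] LaurentSeries ℂ where
  toFun g := diskSeries z₀ (cosetFun q g)
  map_one' := by
    show diskSeries z₀ (fun _ => (1 : ℂ)) = 1
    rw [diskSeries_const]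
    rfl
  map_mul' f g := diskSeries_mul z₀ (mdiff_cosetFun f.2.1 q) (mdiff_cosetFun g.2.1 q)
  map_zero' := by
    show diskSeries z₀ (fun _ => (0 : ℂ)) = 0
    rw [diskSeries_const, HahnSeries.single_eq_zero]
  map_add' f g := diskSeries_add z₀ (mdiff_cosetFun f.2.1 q) (mdiff_cosetFun g.2.1 q)
  commutes' c := by
    show diskSeries z₀ (fun _ => c) = _
    rw [diskSeries_const, ModularCurve.algebraMap_laurentSeries_eq_single]

theorem pointHom_apply (z₀ : ℍ) (q : Cst L) (g : funRing L) :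
    pointHom z₀ q g = diskSeries z₀ (cosetFun q g) := rfl

theorem pointHom_injective (z₀ : ℍ) (q : Cst L) : Function.Injective (pointHom z₀ q) :=
  (injective_iff_map_eq_zero _).mpr fun g hg => Subtype.ext <| funext fun τ => by
    have := congrFun (eq_zero_of_diskSeries_eq_zero z₀ (mdiff_cosetFun g.2.1 q) hg) (q.out • τ)
    simpa [cosetFun] using this

theorem pointHom_jL (z₀ : ℍ) (q : Cst L) : pointHom z₀ q (jL L) = diskSeries z₀ jFun := by
  rw [pointHom_apply, show ((jL L : funRing L) : ℍ → ℂ) = jFun from rfl, cosetFun_jFun]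

theorem pointHom_inv_smul {z₀ : ℍ} {γ : SL(2, ℤ)} (hfix : γ • z₀ = z₀) (q : Cst L)
    (g : funRing L) :
    pointHom z₀ (γ⁻¹ • q) g =
      rot (Units.mk0 (rotNum γ z₀) (rotNum_ne_zero γ z₀)) (pointHom z₀ q g) := by
  rw [pointHom_apply, cosetFun_inv_smul g.2, diskSeries_smul hfix (mdiff_cosetFun g.2.1 q)]
  rfl

theorem pointHom_sepL_injective (z₀ : ℍ) :
    Function.Injective fun q : Cst L => pointHom z₀ q (sepL L) := by
  intro p q h
  refine cosetFun_sepFun_injective (sub_eq_zero.mp ?_)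
  have hp := mdiff_cosetFun (sepFun_mem L).1 p
  have hq := mdiff_cosetFun (sepFun_mem L).1 q
  refine eq_zero_of_diskSeries_eq_zero z₀ (hp.sub hq) ?_
  have e := diskSeries_add z₀ (hp.sub hq) hq
  rw [sub_add_cancel] at e
  simp only [pointHom_apply] at h
  rw [show ((sepL L : funRing L) : ℍ → ℂ) = sepFun L from rfl] at h
  rw [h] at e
  exact left_eq_add.mp (by rw [add_comm]; exact e)

/-- Expansion at `i∞` of `g ∘ q⁻¹`, in `exp (2πiτ/N)`. -/
def cuspHom (q : Cst L) : funRing L →ₐ[ℂ] LaurentSeries ℂ := qLAt L q.out⁻¹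

theorem cuspHom_injective (q : Cst L) : Function.Injective (cuspHom q) := qLAt_injective _

theorem cuspHom_jL (q : Cst L) : cuspHom q (jL L) = qExpand ℂ L.N (jqModC ℂ) := by
  refine qLAt_eq_of_expands ?_
  show Expands L.N (fun τ => jFun (q.out⁻¹ • τ)) _
  simp only [jFun_smul]
  simpa using expands_jFun.width_mul (k := L.N)

theorem cuspHom_inv_smul (q : Cst L) (g : funRing L) :
    cuspHom (ModularGroup.T⁻¹ • q) g = rot (zetaC L.N) (cuspHom q g) := by
  refine qLAt_eq_of_expands ?_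
  have h := expands_comp_T (expands_qLAt q.out⁻¹ g)
  have e := cosetFun_inv_smul g.2 ModularGroup.T q
  unfold cosetFun at e
  rw [e]
  exact h

theorem cuspHom_sepL_injective :
    Function.Injective fun q : Cst L => cuspHom q (sepL L) := by
  intro p q h
  refine cosetFun_sepFun_injective ?_
  exact eq_of_expands (mdiff_cosetFun (sepFun_mem L).1 p) (mdiff_cosetFun (sepFun_mem L).1 q)
    (expands_qLAt p.out⁻¹ (sepL L)) (by
      simp only [cuspHom] at h
      rw [h]
      exact expands_qLAt q.out⁻¹ (sepL L))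

/-! ### Ramification data -/

/-- The data over `j = a`. -/
def pointData (hM : IsModel L F₀) (ι : K →+* ℂ) (a : K) (z₀ : ℍ) (hz : jFun z₀ = ι a)
    (γ : SL(2, ℤ)) (hfix : γ • z₀ = z₀)
    (hprim : IsPrimitiveRoot (Units.mk0 (rotNum γ z₀) (rotNum_ne_zero γ z₀)) (jMult (ι a))) :
    RamData ι (jF hM K - algebraMap K (laurentBaseChange K F₀) a) (Cst L) where
  Φ q := expEmb hM ι (pointHom z₀ q) (pointHom_injective z₀ q)
  overK q := over_expEmb hM ι _ _
  inj p q h := pointHom_sepL_injective z₀ (expansion_eq_of_expEmb_eq hM ι _ _ h (sepL L))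
  ξ := diskSeries z₀ fun z => jFun z - ι a
  map_x q := by
    rw [map_sub, expEmb_jF, over_expEmb hM ι _ _ a, pointHom_jL, Genus.diskSeries_sub_const]
  m := jMult (ι a)
  m_pos := jMult_pos _
  order_ξ := by
    rw [← hz]
    exact order_diskSeries_jFun_sub z₀
  w := _
  prim := hprim
  σ := MulAction.toPerm γ⁻¹
  equivariant q := by
    rw [MulAction.toPerm_apply]
    exact rot_comp_expEmb hM ι _ _ _ fun g => pointHom_inv_smul hfix q g

/-- The data over the cusps. -/
def cuspData (hM : IsModel L F₀) (ι : K →+* ℂ) : RamData ι (jF hM K)⁻¹ (Cst L) where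
  Φ q := expEmb hM ι (cuspHom q) (cuspHom_injective q)
  overK q := over_expEmb hM ι _ _
  inj p q h := cuspHom_sepL_injective (expansion_eq_of_expEmb_eq hM ι _ _ h (sepL L))
  ξ := (qExpand ℂ L.N (jqModC ℂ))⁻¹
  map_x q := by rw [map_inv₀, expEmb_jF, cuspHom_jL]
  m := L.N
  m_pos := Nat.pos_of_ne_zero (NeZero.ne L.N)
  order_ξ := by rw [order_inv', Genus.order_qExpand_jqModC, neg_neg]
  w := zetaC L.N
  prim := isPrimitiveRoot_zetaC L.N
  σ := MulAction.toPerm ModularGroup.T⁻¹
  equivariant q := by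
    rw [MulAction.toPerm_apply]
    exact rot_comp_expEmb hM ι _ _ _ fun g => cuspHom_inv_smul q g

variable [IsAlgClosed K]

theorem IsModel.hasResidueK (hM : IsModel L F₀) (ι : K →+* ℂ)
    (v : Place K (laurentBaseChange K F₀)) : HasResidueK v :=
  haveI := hM.isFunctionField ι
  Genus.hasResidueK v

omit [IsAlgClosed K] in
theorem adjoin_jF_sub (hM : IsModel L F₀) (a : K) :
    IntermediateField.adjoin K ({jF hM K - algebraMap K _ a} : Set (laurentBaseChange K F₀)) =
      IntermediateField.adjoin K {jF hM K} := by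
  apply le_antisymm <;> rw [IntermediateField.adjoin_simple_le_iff]
  · exact sub_mem (IntermediateField.mem_adjoin_simple_self K _)
      (IntermediateField.algebraMap_mem _ _)
  · have := add_mem (IntermediateField.mem_adjoin_simple_self K (jF hM K - algebraMap K _ a))
      (IntermediateField.algebraMap_mem _ a)
    rwa [sub_add_cancel] at this

omit [IsAlgClosed K] in
theorem adjoin_jF_inv (hM : IsModel L F₀) :
    IntermediateField.adjoin K ({(jF hM K)⁻¹} : Set (laurentBaseChange K F₀)) =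
      IntermediateField.adjoin K {jF hM K} := by
  apply le_antisymm <;> rw [IntermediateField.adjoin_simple_le_iff]
  · exact inv_mem (IntermediateField.mem_adjoin_simple_self K _)
  · have := inv_mem (IntermediateField.mem_adjoin_simple_self K (jF hM K)⁻¹)
    rwa [inv_inv] at this

theorem IsModel.sum_ord_le_card (hM : IsModel L F₀) (ι : K →+* ℂ) (a : K)
    (S : Finset (Place K (laurentBaseChange K F₀)))
    (hS : ∀ v ∈ S, 0 < v.ord (jF hM K - algebraMap K _ a)) :
    ∑ v ∈ S, v.ord (jF hM K - algebraMap K _ a) ≤ Fintype.card (Cst L) := by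
  haveI := hM.isFunctionField ι
  refine le_trans (sum_ord_le_finrank (fun h => transcendental_jF (K := K) hM <| by
    simpa using h.add (isAlgebraic_algebraMap a)) S hS) ?_
  rw [adjoin_jF_sub]
  exact_mod_cast (hM.finite_adjoin ι).2

theorem IsModel.sum_ord_inv_le_card (hM : IsModel L F₀) (ι : K →+* ℂ)
    (S : Finset (Place K (laurentBaseChange K F₀)))
    (hS : ∀ v ∈ S, 0 < v.ord (jF hM K)⁻¹) :
    ∑ v ∈ S, v.ord (jF hM K)⁻¹ ≤ Fintype.card (Cst L) := by
  haveI := hM.isFunctionField ι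
  refine le_trans (sum_ord_le_finrank (fun h => transcendental_jF (K := K) hM <| by
    simpa using h.inv) S hS) ?_
  rw [adjoin_jF_inv]
  exact_mod_cast (hM.finite_adjoin ι).2

theorem IsModel.place_cases (hM : IsModel L F₀) (ι : K →+* ℂ)
    (v : Place K (laurentBaseChange K F₀)) :
    0 < v.ord (jF hM K)⁻¹ ∨ ∃ a : K, 0 < v.ord (jF hM K - algebraMap K _ a) :=
  place_cases_of_transcendental (transcendental_jF hM) (hM.hasResidueK ι) v

/-- Every place is a cusp or a point. -/
theorem IsModel.exists_point_or_cusp (hM : IsModel L F₀) (ι : K →+* ℂ)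
    (v : Place K (laurentBaseChange K F₀)) :
    (∃ (a : K) (z : ℍ) (q : Cst L) (k : ℤ), jFun z = ι a ∧
      0 < v.ord (jF hM K - algebraMap K _ a) ∧
      Induces (expEmb hM ι (pointHom z q) (pointHom_injective z q)) v k) ∨
    ∃ (q : Cst L) (k : ℤ), 0 < v.ord (jF hM K)⁻¹ ∧
      Induces (expEmb hM ι (cuspHom q) (cuspHom_injective q)) v k := by
  rcases hM.place_cases ι v with hv | ⟨a, hv⟩
  · obtain ⟨q, hq⟩ := (cuspData hM ι).exists_place_eq (hM.hasResidueK ι)
      (hM.sum_ord_inv_le_card ι) hv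
    exact Or.inr ⟨q, _, hv, hq ▸ (cuspData hM ι).induces q⟩
  · left
    obtain ⟨z, γ, hz, hfix, hprim⟩ := JTors.exists_fix_primitive (ι a)
    obtain ⟨q, hq⟩ := (pointData hM ι a z hz γ hfix hprim).exists_place_eq (hM.hasResidueK ι)
      (hM.sum_ord_le_card ι a) hv
    exact ⟨a, z, q, _, hz, hv, hq ▸ RamData.induces _ q⟩

end FLTAgent.DS.Phi
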