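import Fermat.Agent.DS.Phi.Places
import Fermat.Agent.JTors.RootPar

/-!
Roots of functions of level `L`: their characters, and divisibility of orders.
-/

set_option autoImplicit false

noncomputable section

open ModularCurve AlgebraicCurve Filter Topology
open UpperHalfPlane hiding I
open scoped MatrixGroups Manifold

namespace FLTAgent.DS.Phi

open ModPoly Genus

variable {L : Lvl} {n : ℕ}

theorem coe_pow_fun (g : funRing L) (k : ℕ) : ((g ^ k : funRing L) : ℍ → ℂ) = (g : ℍ → ℂ) ^ k :=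
  rfl

/-- The `n`-th root of an invariant function transforms by a character with values in `μ_n`. -/
theorem exists_rootChar {h : ℍ → ℂ} (hh : MDiff h) (h0 : h ≠ 0) (hn : n ≠ 0)
    (hinv : ∀ (γ : L.Gam) (z : ℍ), h ((γ : SL(2, ℤ)) • z) ^ n = h z ^ n) :
    ∃ χ : L.Gam →* ℂˣ, (∀ γ, χ γ ^ n = 1) ∧
      ∀ (γ : L.Gam) (z : ℍ), h ((γ : SL(2, ℤ)) • z) = (χ γ : ℂ) * h z := by
  choose c hc hcz using fun γ : L.Gam =>
    JTors.exists_const_mul_of_pow_eq (ModPoly.mdifferentiable_comp_smul hh (γ : SL(2, ℤ))) hh hn h0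
      (hinv γ)
  have hne : ∀ γ, c γ ≠ 0 := fun γ h => by
    have := hc γ
    rw [h, zero_pow hn] at this
    exact zero_ne_one this
  refine ⟨{ toFun := fun γ => Units.mk0 (c γ) (hne γ), map_one' := ?_, map_mul' := ?_ },
    fun γ => Units.ext (by rw [Units.val_pow_eq_pow_val, Units.val_one]; exact hc γ),
    fun γ z => hcz γ z⟩
  · refine Units.ext (JTors.eq_of_smul_eq h0 fun z => ?_)
    show c 1 * h z = 1 * h z
    rw [← hcz 1 z, one_mul]
    simp
  · intro γ δ
    refine Units.ext (JTors.eq_of_smul_eq h0 fun z => ?_)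
    show c (γ * δ) * h z = c γ * c δ * h z
    rw [← hcz (γ * δ) z, mul_assoc, ← hcz δ z, ← hcz γ]
    rw [Subgroup.coe_mul, mul_smul]

/-- The character of a nonzero function is unique. -/
theorem char_unique {h : ℍ → ℂ} (h0 : h ≠ 0) {χ ψ : L.Gam →* ℂˣ}
    (hχ : ∀ (γ : L.Gam) (z : ℍ), h ((γ : SL(2, ℤ)) • z) = (χ γ : ℂ) * h z)
    (hψ : ∀ (γ : L.Gam) (z : ℍ), h ((γ : SL(2, ℤ)) • z) = (ψ γ : ℂ) * h z) : χ = ψ :=
  MonoidHom.ext fun γ =>
    Units.ext (JTors.eq_of_smul_eq h0 fun z => (hχ γ z).symm.trans (hψ γ z))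

/-- At every point and cusp `g` has the order of an `n`-th power of a quotient. -/
def DvdLoc (n : ℕ) (g : funRing L) : Prop :=
  (∀ z : ℍ, ∃ a b : funRing L, a ≠ 0 ∧ b ≠ 0 ∧
    (diskSeries z (g : ℍ → ℂ)).order =
      n * ((diskSeries z (a : ℍ → ℂ)).order - (diskSeries z (b : ℍ → ℂ)).order)) ∧
  ∀ δ : SL(2, ℤ), ∃ a b : funRing L, a ≠ 0 ∧ b ≠ 0 ∧
    (qLAt L δ g).order = n * ((qLAt L δ a).order - (qLAt L δ b).order)

theorem DvdLoc.dvd_analyticOrder {g : funRing L} (hd : DvdLoc n g) (hg0 : g ≠ 0) (z : ℍ) :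
    n ∣ analyticOrderNatAt ((g : ℍ → ℂ) ∘ ofComplex) (z : ℂ) := by
  obtain ⟨a, b, -, -, h⟩ := hd.1 z
  rw [← Int.natCast_dvd_natCast, ← JTors.order_diskSeries_eq z (mdiff_coe g) (coe_ne_zero hg0), h]
  exact dvd_mul_right _ _

/-- The character of a root is trivial on elliptic and parabolic elements. -/
theorem trivialEllPar_of_dvdLoc (hn : n ≠ 0) {h : ℍ → ℂ} (hh : MDiff h) {χ : L.Gam →* ℂˣ}
    (hχ : ∀ (γ : L.Gam) (z : ℍ), h ((γ : SL(2, ℤ)) • z) = (χ γ : ℂ) * h z)
    {g : funRing L} (hg0 : g ≠ 0) (hg : ∀ z, h z ^ n = (g : ℍ → ℂ) z) (hd : DvdLoc n g) :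
    TrivialEllPar χ := by
  have hge : (g : ℍ → ℂ) = h ^ n := funext fun z => (hg z).symm
  have hh0 : h ≠ 0 := fun e => coe_ne_zero hg0 (by rw [hge, e, zero_pow hn])
  intro γ hγ
  rcases hγ.lt_or_eq with hlt | heq
  · obtain ⟨z₀, hfix⟩ := JTors.exists_fixed_point hlt
    obtain ⟨a, b, ha, hb, hab⟩ := hd.1 z₀
    have hds : ∀ {u : ℍ → ℂ}, MDiff u → u ≠ 0 → diskSeries z₀ u ≠ 0 := fun hu hu0 e =>
      hu0 (eq_zero_of_diskSeries_eq_zero z₀ hu e)
    rw [hge, JTors.diskSeries_pow hh, HahnSeries.order_pow, nsmul_eq_mul] at hab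
    have e4 := mul_left_cancel₀ (Nat.cast_ne_zero.2 hn : (n : ℤ) ≠ 0) hab
    have hne1 : h * (b : ℍ → ℂ) ≠ 0 :=
      JTors.mul_ne_zero_of_mdiff hh (mdiff_coe b) hh0 (coe_ne_zero hb)
    refine Units.ext (JTors.eq_one_of_fixed (hh.mul (mdiff_coe b)) (mdiff_coe a) hne1
      (coe_ne_zero ha)
      (fun z => by rw [Pi.mul_apply, Pi.mul_apply, hχ, smul_eq_of_mem_gam b.2 γ.2]; ring)
      (fun z => smul_eq_of_mem_gam a.2 γ.2 z) hfix ?_)
    apply Nat.cast_injective (R := ℤ)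
    rw [← JTors.order_diskSeries_eq z₀ (hh.mul (mdiff_coe b)) hne1,
      ← JTors.order_diskSeries_eq z₀ (mdiff_coe a) (coe_ne_zero ha),
      diskSeries_mul z₀ hh (mdiff_coe b),
      HahnSeries.order_mul (hds hh hh0) (hds (mdiff_coe b) (coe_ne_zero hb))]
    linarith
  · obtain ⟨δ, h10⟩ := JTors.exists_conj_upper heq
    obtain ⟨a, b, ha, hb, hab⟩ := hd.2 δ
    have hψ := qLAt_injective (L := L) δ
    set G : funRing L := g * b ^ n
    set D : funRing L := a ^ n
    have hD0 : qLAt L δ D ≠ 0 := (map_ne_zero_iff _ hψ).2 (pow_ne_zero _ ha)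
    have hG0 : qLAt L δ G ≠ 0 :=
      (map_ne_zero_iff _ hψ).2 (mul_ne_zero hg0 (pow_ne_zero _ hb))
    have hord : (qLAt L δ G / qLAt L δ D).order = 0 := by
      have hGo : (qLAt L δ G).order = (qLAt L δ D).order := by
        simp only [G, D]
        rw [map_mul, map_pow, map_pow, HahnSeries.order_mul ((map_ne_zero_iff _ hψ).2 hg0)
            (pow_ne_zero n ((map_ne_zero_iff _ hψ).2 hb)),
          HahnSeries.order_pow, HahnSeries.order_pow, nsmul_eq_mul, nsmul_eq_mul, hab]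
        ring
      rw [div_eq_mul_inv, HahnSeries.order_mul hG0 (inv_ne_zero hD0), order_inv', hGo]
      ring
    set q : ℍ → ℂ := fun z => (h * (b : ℍ → ℂ)) (δ • z) / (a : ℍ → ℂ) (δ • z) with hq
    have hexp : Expands L.N (fun z => q z ^ n) (qLAt L δ G / qLAt L δ D) := by
      rw [div_eq_mul_inv]
      refine ((expands_qLAt δ G).mul ((expands_qLAt δ D).inv hD0)).congr_fun'
        (Eventually.of_forall fun z => ?_)
      show _ = q z ^ n
      simp only [q, G, D, Pi.mul_apply, Pi.inv_apply, div_pow, _root_.mul_pow, hg]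
      simp [div_eq_mul_inv]
    obtain ⟨hlim, hL⟩ := JTors.tendsto_of_expands_order_zero hexp (div_ne_zero hG0 hD0) hord
    have hden : ∀ᶠ z in atImInfty, (a : ℍ → ℂ) (δ • z) ≠ 0 := by
      filter_upwards [hlim.eventually_ne hL] with z hz h0
      exact hz (by rw [show q z = 0 by simp only [q, h0, div_zero], zero_pow hn])
    obtain ⟨A, hA⟩ := (atImInfty_mem _).mp hden
    obtain ⟨t, ht⟩ := JTors.smul_upper_eq_vadd h10
    refine Units.ext (JTors.eq_one_of_translate (q := q) (A := max A 0) (le_max_right _ _) ?_ hn hL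
      hlim (t := (t : ℝ)) fun z hz => ?_)
    · have hcont : ∀ {u : ℍ → ℂ}, MDiff u → ContinuousOn ((fun z => u (δ • z)) ∘ ofComplex)
          {z : ℂ | max A 0 < z.im} := fun hu =>
        ((JTors.analyticOnNhd_comp_ofComplex
          (ModPoly.mdifferentiable_comp_smul hu δ)).continuousOn).mono
          fun z hz => lt_of_le_of_lt (le_max_right A 0) hz
      refine (hcont (hh.mul (mdiff_coe b))).div (hcont (mdiff_coe a)) fun z hz => ?_
      have him : 0 < z.im := lt_of_le_of_lt (le_max_right A 0) hz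
      simp only [ofComplex_apply_of_im_pos him, Function.comp]
      exact hA ⟨z, him⟩ (show A ≤ z.im from ((le_max_left A 0).trans_lt hz).le)
    · have hconj : δ • ((t : ℝ) +ᵥ z) = (γ : SL(2, ℤ)) • (δ • z) := by
        rw [← ht, ← mul_smul, ← mul_smul]
        congr 1
        group
      simp only [q, hconj, Pi.mul_apply, hχ, smul_eq_of_mem_gam b.2 γ.2,
        smul_eq_of_mem_gam a.2 γ.2]
      ring

/-! ### Divisibility from a trivial character -/

theorem smul_fixed_inv {q : Cst L} {g : SL(2, ℤ)} (h : g⁻¹ • q = q) :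
    q.out⁻¹ * g * q.out ∈ L.Gam := by
  have e : (QuotientGroup.mk (g⁻¹ * q.out) : Cst L) = QuotientGroup.mk q.out := by
    rw [QuotientGroup.out_eq', ← smul_eq_mul, ← MulAction.Quotient.smul_mk,
      QuotientGroup.out_eq']
    exact h
  have h2 := QuotientGroup.eq.1 e
  rw [mul_inv_rev, inv_inv] at h2
  exact h2

theorem perm_inv_pow_apply (g : SL(2, ℤ)) (q : Cst L) :
    ∀ s : ℕ, ((MulAction.toPerm g⁻¹ : Equiv.Perm (Cst L)) ^ s) q = (g ^ s)⁻¹ • q
  | 0 => by simp
  | s + 1 => by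
    rw [pow_succ' (MulAction.toPerm g⁻¹ : Equiv.Perm (Cst L)) s, Equiv.Perm.mul_apply,
      perm_inv_pow_apply g q s, MulAction.toPerm_apply, ← mul_smul, ← mul_inv_rev, pow_succ]

theorem apply_smul_of_fix {χ : L.Gam →* ℂˣ} (hpar : TrivialEllPar χ) {h : ℍ → ℂ} {m : ℕ}
    (hh : h ∈ CharFun χ m) {a g : SL(2, ℤ)} (hmem : a⁻¹ * g * a ∈ L.Gam)
    (htr : ((a⁻¹ * g * a : SL(2, ℤ)) : Matrix (Fin 2) (Fin 2) ℤ).trace ^ 2 ≤ 4) (z : ℍ) :
    h (a⁻¹ • g • z) = h (a⁻¹ • z) := by
  have := hh.2.1 ⟨_, hmem⟩ (a⁻¹ • z)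
  rw [hpar ⟨_, hmem⟩ htr, Units.val_one, one_mul] at this
  rw [← this]
  congr 1
  rw [← mul_smul, ← mul_smul]
  congr 1
  group

variable {F₀ : IntermediateField ℚ (LaurentSeries ℚ)}
variable {K : Type*} [Field K] [IsAlgClosed K] [Algebra ℚ K]

/-- All orders of `h ^ n` are divisible by `n`. -/
theorem dvd_ord_of_charFun (hM : IsModel L F₀) (ι : K →+* ℂ) {χ : L.Gam →* ℂˣ}
    (hpar : TrivialEllPar χ) {h : ℍ → ℂ} {m : ℕ} (hh : h ∈ CharFun χ m)
    {g : funRing L} (hg : (g : ℍ → ℂ) = h ^ n) {y : laurentBaseChange K F₀}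
    (hy : toC ι y = qL L g) (v : Place K (laurentBaseChange K F₀)) : (n : ℤ) ∣ v.ord y := by
  rcases hM.place_cases ι v with hv | ⟨a, hv⟩
  · set R := cuspData hM ι
    obtain ⟨q, hq⟩ := R.exists_place_eq (hM.hasResidueK ι) (hM.sum_ord_inv_le_card ι) hv
    obtain ⟨hk0, hk⟩ := R.induces q
    have hks := R.k_mul_ord q
    have hs := JTors.pow_ord_fix R (hM.hasResidueK ι) q
    rw [hq] at hk hks hs
    set k := R.k q
    set s := (v.ord (jF hM K)⁻¹).toNat
    have hsv : (s : ℤ) = v.ord (jF hM K)⁻¹ := Int.toNat_of_nonneg hv.le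
    obtain ⟨k', hk'⟩ := Int.eq_ofNat_of_zero_le hk0.le
    have hks' : s * k' = L.N := by
      have : (s : ℤ) * k' = L.N := by
        rw [hsv, mul_comm, ← hk']
        exact hks
      exact_mod_cast this
    have hfixq : (ModularGroup.T ^ s)⁻¹ • q = q := by
      rw [← perm_inv_pow_apply]; exact hs
    have hinv : ∀ z : ℍ, h (q.out⁻¹ • ModularGroup.T ^ s • z) = h (q.out⁻¹ • z) :=
      apply_smul_of_fix hpar hh (smul_fixed_inv hfixq) (JTors.trace_sq_le_four_of_T_pow _ _)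
    have hTN : ∀ (l : ℕ) (z : ℍ),
        h (q.out⁻¹ • (ModularGroup.T ^ s) ^ l • z) = h (q.out⁻¹ • z) := by
      intro l
      induction l with
      | zero => simp
      | succ l ih => intro z; rw [pow_succ, mul_smul, ih, hinv]
    have hper : ∀ z : ℍ, h (q.out⁻¹ • ((L.N : ℝ) +ᵥ z)) = h (q.out⁻¹ • z) := fun z => by
      rw [← smul_T_pow_eq_vadd, zpow_natCast,
        show ModularGroup.T ^ L.N = (ModularGroup.T ^ s) ^ k' by rw [← pow_mul, hks']]
      exact hTN k' z
    obtain ⟨U, hU⟩ := mem_expRing_comp_smul hh (w := L.N) hper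
    have hrot : rot (zetaC L.N ^ s) U = U :=
      ((JTors.expands_smul_T_pow hU s).congr_fun' (Eventually.of_forall hinv)).unique hU
    have hdvd : (k : ℤ) ∣ U.order := by
      rw [hk']
      exact JTors.dvd_order_of_rot_eq
        ((isPrimitiveRoot_zetaC L.N).pow (NeZero.pos L.N) hks'.symm) hrot
    have hval : R.Φ q y = U ^ n := by
      show expEmb hM ι (cuspHom q) (cuspHom_injective q) y = _
      rw [expEmb_eq hM ι _ _ hy]
      refine qLAt_eq_of_expands ?_
      rw [hg]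
      exact hU.pow n
    have hord := hk y
    rw [hval, HahnSeries.order_pow, nsmul_eq_mul] at hord
    obtain ⟨d, hd⟩ := hdvd
    exact ⟨d, mul_left_cancel₀ hk0.ne' (by rw [← hord, hd]; ring)⟩
  · obtain ⟨z, γ, hz, hfix, hprim⟩ := JTors.exists_fix_primitive (ι a)
    set R := pointData hM ι a z hz γ hfix hprim
    obtain ⟨q, hq⟩ := R.exists_place_eq (hM.hasResidueK ι) (hM.sum_ord_le_card ι a) hv
    obtain ⟨hk0, hk⟩ := R.induces q
    have hks := R.k_mul_ord q
    have hs := JTors.pow_ord_fix R (hM.hasResidueK ι) q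
    rw [hq] at hk hks hs
    set k := R.k q
    set s := (v.ord (jF hM K - algebraMap K _ a)).toNat
    have hsv : (s : ℤ) = v.ord (jF hM K - algebraMap K _ a) := Int.toNat_of_nonneg hv.le
    obtain ⟨k', hk'⟩ := Int.eq_ofNat_of_zero_le hk0.le
    have hks' : s * k' = jMult (ι a) := by
      have : (s : ℤ) * k' = jMult (ι a) := by
        rw [hsv, mul_comm, ← hk']
        exact hks
      exact_mod_cast this
    have hfixq : (γ ^ s)⁻¹ • q = q := by
      rw [← perm_inv_pow_apply]; exact hs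
    have hfixs : γ ^ s • z = z := by
      clear_value s
      clear hsv hs hks' hfixq
      induction s with
      | zero => simp
      | succ l ih => rw [pow_succ, mul_smul, hfix, ih]
    have htr : ((q.out⁻¹ * γ ^ s * q.out : SL(2, ℤ)) : Matrix (Fin 2) (Fin 2) ℤ).trace ^ 2 ≤ 4 :=
      JTors.trace_sq_le_four_of_fixed (z := q.out⁻¹ • z) (by
        rw [mul_smul, mul_smul, smul_inv_smul, hfixs])
    have hinv : ∀ τ : ℍ, cosetFun q h (γ ^ s • τ) = cosetFun q h τ :=
      apply_smul_of_fix hpar hh (smul_fixed_inv hfixq) htr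
    have hmd : MDiff (cosetFun q h) := mdiff_cosetFun hh.1 q
    have hrot : rot ((Units.mk0 (rotNum γ z) (rotNum_ne_zero γ z)) ^ s)
        (diskSeries z (cosetFun q h)) = diskSeries z (cosetFun q h) := by
      rw [← JTors.diskSeries_smul_pow hfix hmd s]
      exact congrArg (diskSeries z) (funext hinv)
    have hdvd : (k : ℤ) ∣ (diskSeries z (cosetFun q h)).order := by
      rw [hk']
      exact JTors.dvd_order_of_rot_eq (hprim.pow (jMult_pos _) hks'.symm) hrot
    have hval : R.Φ q y = diskSeries z (cosetFun q h) ^ n := by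
      show expEmb hM ι (pointHom z q) (pointHom_injective z q) y = _
      rw [expEmb_eq hM ι _ _ hy, pointHom_apply, hg, ← JTors.diskSeries_pow hmd]
      rfl
    have hord := hk y
    rw [hval, HahnSeries.order_pow, nsmul_eq_mul] at hord
    obtain ⟨d, hd⟩ := hdvd
    exact ⟨d, mul_left_cancel₀ hk0.ne' (by rw [← hord, hd]; ring)⟩

end FLTAgent.DS.Phi
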